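import Fermat.Agent.Periods.EichlerShimura

/-!
Homomorphisms to `ℤ/n` killing parabolic and elliptic elements lift to integral parabolic
homomorphisms, for every level.
-/

set_option autoImplicit false

noncomputable section

open CongruenceSubgroup ModularCurve ModularCurve.Period
open scoped MatrixGroups

namespace FLTAgent.JTors.Lift

open FLTAgent.Periods

variable {N : ℕ} [NeZero N]

local notation "G2" => SL(2, ℤ)
local notation "XX" => SL(2, ℤ) ⧸ Gamma0 N

instance finite_cosets : Finite XX := Subgroup.finite_quotient_of_finiteIndex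

theorem trace_T_pow (i : ℕ) :
    ((ModularGroup.T ^ i : G2) : Matrix (Fin 2) (Fin 2) ℤ).trace ^ 2 = 4 := by
  rw [← zpow_natCast, ModularGroup.coe_T_zpow, Matrix.trace_fin_two]
  norm_num

theorem trace_neg_one : ((-1 : G2) : Matrix (Fin 2) (Fin 2) ℤ).trace ^ 2 = 4 := by
  simp

variable {n : ℕ} (e : Additive (Gamma0 N) →+ ZMod n) (he : IsParabolicHom (Gamma0 N) e)

include he

theorem shapiro_S_add (x : XX) :
    shapiro e ModularGroup.S x + shapiro e ModularGroup.S (ModularGroup.S • x) = 0 := by
  have h := shapiro_mul e ModularGroup.S ModularGroup.S x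
  rw [S_mul_S, shapiro_eq_zero_of_parabolic he _ _ (neg_one_smul_coset x) trace_neg_one] at h
  rw [add_comm]; exact h.symm

theorem shapiro_U_add (x : XX) :
    shapiro e eltU x + shapiro e eltU (eltU • x) + shapiro e eltU (eltU • eltU • x) = 0 := by
  have h := shapiro_mul e eltU (eltU * eltU) x
  rw [eltU_pow_three, shapiro_eq_zero_of_parabolic he _ _ (neg_one_smul_coset x) trace_neg_one,
    shapiro_mul, mul_smul] at h
  rw [h]; abel

theorem exists_lift_A (hfix : ∀ x : XX, ModularGroup.S • x = x → shapiro e ModularGroup.S x = 0) :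
    ∃ a : XX → ℤ, (∀ x, a x + a (ModularGroup.S • x) = 0) ∧
      ∀ x, (a x : ZMod n) = shapiro e ModularGroup.S x := by
  classical
  letI := Fintype.ofFinite XX
  let r := Fintype.equivFin XX
  let v : XX → ℤ := fun x => (shapiro e ModularGroup.S x).cast
  refine ⟨fun x => if r x < r (ModularGroup.S • x) then v x
    else if r (ModularGroup.S • x) < r x then -v (ModularGroup.S • x) else 0,
    fun x => ?_, fun x => ?_⟩
  · simp only [S_smul_S_smul]
    rcases lt_trichotomy (r x) (r (ModularGroup.S • x)) with h | h | h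
    · simp [h, h.not_gt]
    · simp [h]
    · simp [h, h.not_gt]
  · rcases lt_trichotomy (r x) (r (ModularGroup.S • x)) with h | h | h
    · simp [h, v]
    · rw [hfix x (r.injective h).symm]
      simp [h]
    · simp only [h, h.not_gt, if_true, if_false, v, Int.cast_neg, ZMod.intCast_zmod_cast]
      exact (eq_neg_of_add_eq_zero_left (shapiro_S_add e he x)).symm

theorem exists_lift_B (hfix : ∀ x : XX, eltU • x = x → shapiro e eltU x = 0) :
    ∃ b : XX → ℤ, (∀ x, b x + b (eltU • x) + b (eltU • eltU • x) = 0) ∧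
      ∀ x, (b x : ZMod n) = shapiro e eltU x := by
  classical
  letI := Fintype.ofFinite XX
  let r := Fintype.equivFin XX
  let v : XX → ℤ := fun x => (shapiro e eltU x).cast
  refine ⟨fun x => if eltU • x = x then 0
    else if r x < r (eltU • x) ∧ r x < r (eltU • eltU • x) then v x
    else if r (eltU • eltU • x) < r x ∧ r (eltU • eltU • x) < r (eltU • x) then v x
    else -v (eltU • x) - v (eltU • eltU • x), fun x => ?_, fun x => ?_⟩
  · simp only [eltU_smul_three]
    by_cases hx : eltU • x = x
    · simp [hx]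
    have h1 : eltU • eltU • x ≠ eltU • x := fun h => hx (MulAction.injective eltU h)
    have h2 : x ≠ eltU • eltU • x := fun h => by
      have := congrArg (eltU • ·) h
      simp only [eltU_smul_three] at this
      exact hx this
    simp only [hx, h1, h2, if_false]
    have n1 : r (eltU • x) ≠ r x := fun h => hx (r.injective h)
    have n2 : r (eltU • eltU • x) ≠ r (eltU • x) := fun h => h1 (r.injective h)
    have n3 : r x ≠ r (eltU • eltU • x) := fun h => h2 (r.injective h)
    rcases lt_or_gt_of_ne n1 with a1 | a1 <;> rcases lt_or_gt_of_ne n2 with a2 | a2 <;>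
      rcases lt_or_gt_of_ne n3 with a3 | a3 <;>
      first
        | exact absurd ((a1.trans a3).trans a2) (lt_irrefl _)
        | exact absurd ((a1.trans a2).trans a3) (lt_irrefl _)
        | (simp only [a1, a2, a3, a1.not_gt, a2.not_gt, a3.not_gt, and_true, true_and, and_false,
            false_and, if_true, if_false]; ring)
  · by_cases hx : eltU • x = x
    · rw [hfix x hx]
      simp [hx]
    simp only [hx, if_false]
    split_ifs
    · simp [v]
    · simp [v]
    · simp only [v, Int.cast_sub, Int.cast_neg, ZMod.intCast_zmod_cast]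
      linear_combination -(shapiro_U_add e he x)

omit he

variable (N)

/-- Cusps: orbits of `T`. -/
abbrev Cusps : Type :=
  MulAction.orbitRel.Quotient (Subgroup.zpowers (ModularGroup.T : G2)) XX

/-- The cusp below a coset. -/
def cusp (x : XX) : Cusps N := Quotient.mk'' x

instance finite_cusps : Finite (Cusps N) := Finite.of_surjective (cusp N) Quotient.mk''_surjective

variable {N}

theorem cusp_eq_iff {x y : XX} : cusp N y = cusp N x ↔ ∃ k : ℤ, ModularGroup.T ^ k • x = y := by
  rw [cusp, cusp, Quotient.eq'']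
  constructor
  · rintro ⟨⟨g, k, rfl⟩, h⟩
    exact ⟨k, h⟩
  · rintro ⟨k, h⟩
    exact ⟨⟨_, k, rfl⟩, h⟩

theorem cusp_T_smul (x : XX) : cusp N (ModularGroup.T • x) = cusp N x :=
  cusp_eq_iff.mpr ⟨1, by rw [zpow_one]⟩

theorem cusp_T_inv_smul (x : XX) : cusp N (ModularGroup.T⁻¹ • x) = cusp N x := by
  conv_rhs => rw [← smul_inv_smul ModularGroup.T x, cusp_T_smul]

/-- Sum over the cosets above each cusp. -/
def orbSum {R : Type*} [AddCommMonoid R] (f : XX → R) (O : Cusps N) : R :=
  haveI := Classical.decEq (Cusps N)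
  letI := Fintype.ofFinite XX
  ∑ x ∈ Finset.univ.filter (fun x => cusp N x = O), f x

theorem orbSum_eq {R : Type*} [AddCommMonoid R] [Fintype XX] [DecidableEq (Cusps N)] (f : XX → R)
    (O : Cusps N) :
    orbSum f O = ∑ x ∈ Finset.univ.filter (fun x => cusp N x = O), f x := by
  unfold orbSum
  convert rfl

theorem sum_orbSum {R : Type*} [AddCommMonoid R] [Fintype XX] [Fintype (Cusps N)] (f : XX → R) :
    ∑ O, orbSum f O = ∑ x, f x := by
  classical
  simp only [orbSum_eq]
  exact Finset.sum_fiberwise Finset.univ (cusp N) f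

/-- `f ↦` orbit sums of `(f - f∘S)∘U`. -/
def corr : (XX → ℤ) →ₗ[ℤ] (Cusps N → ℤ) :=
  AddMonoidHom.toIntLinearMap
    { toFun := fun f => orbSum fun x => f (eltU • x) - f (ModularGroup.S • eltU • x)
      map_zero' := by funext O; simp [orbSum]
      map_add' := fun f g => by
        funext O
        simp only [orbSum, Pi.add_apply, ← Finset.sum_add_distrib]
        exact Finset.sum_congr rfl fun x _ => by ring }

theorem corr_apply (f : XX → ℤ) (O : Cusps N) :
    corr f O = orbSum (fun x => f (eltU • x) - f (ModularGroup.S • eltU • x)) O := rfl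

theorem orbSum_single [DecidableEq XX] [DecidableEq (Cusps N)] (z : XX) :
    orbSum (Pi.single z (1 : ℤ)) = Pi.single (cusp N z) 1 := by
  funext O
  simp [orbSum, Finset.sum_pi_single', Pi.single_apply, eq_comm]

theorem corr_single [DecidableEq XX] [DecidableEq (Cusps N)] (y : XX) :
    corr (Pi.single y (1 : ℤ)) = Pi.single (cusp N (ModularGroup.S • y)) 1 - Pi.single (cusp N y) 1 := by
  have key : ∀ z : XX, (fun x : XX => (Pi.single z (1 : ℤ) : XX → ℤ) (eltU • x))
      = Pi.single (eltU⁻¹ • z) 1 := fun z => by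
    funext x; simp [Pi.single_apply, eq_inv_smul_iff]
  have hU : ∀ z : XX, cusp N (eltU⁻¹ • z) = cusp N (ModularGroup.S • z) := fun z => by
    have hS : ModularGroup.S⁻¹ • z = ModularGroup.S • z := by
      rw [inv_smul_eq_iff, S_smul_S_smul]
    rw [eltU, mul_inv_rev, mul_smul, cusp_T_inv_smul, hS]
  have hS : (fun x : XX => (Pi.single y (1 : ℤ) : XX → ℤ) (ModularGroup.S • eltU • x))
      = fun x : XX => (Pi.single (ModularGroup.S • y) (1 : ℤ) : XX → ℤ) (eltU • x) := by
    funext x
    have : ModularGroup.S • eltU • x = y ↔ eltU • x = ModularGroup.S • y := by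
      constructor
      · rintro rfl; rw [S_smul_S_smul]
      · intro h; rw [h, S_smul_S_smul]
    simp only [Pi.single_apply, this]
  funext O
  rw [corr_apply, Pi.sub_apply]
  have e1 := congrFun (orbSum_single (eltU⁻¹ • y)) O
  have e2 := congrFun (orbSum_single (eltU⁻¹ • ModularGroup.S • y)) O
  simp only [orbSum, ← key] at e1 e2
  simp only [orbSum, Finset.sum_sub_distrib, congrFun hS, e1, e2, hU, S_smul_S_smul]

theorem exists_corr_eq (q : Cusps N → ℤ) (hq : letI := Fintype.ofFinite (Cusps N); ∑ O, q O = 0) :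
    ∃ f : XX → ℤ, corr f = q := by
  classical
  letI := Fintype.ofFinite (Cusps N)
  set M := LinearMap.range (corr (N := N))
  set δ : XX → (Cusps N → ℤ) := fun x => Pi.single (cusp N x) 1
  have hall : ∀ g : G2, ∀ x, δ (g • x) - δ x ∈ M := by
    intro g
    have hg : g ∈ Subgroup.closure ({ModularGroup.S, ModularGroup.T} : Set G2) := by
      simp [SpecialLinearGroup.SL2Z_generators]
    induction hg using Subgroup.closure_induction with
    | mem g hg =>
      rcases hg with rfl | rfl
      · exact fun x => ⟨Pi.single x 1, corr_single x⟩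
      · exact fun x => by simp [δ, cusp_T_smul]
    | one => intro x; simp
    | mul g h _ _ ihg ihh =>
      intro x
      rw [mul_smul]
      have := add_mem (ihg (h • x)) (ihh x)
      rwa [sub_add_sub_cancel] at this
    | inv g _ ih =>
      intro x
      have := neg_mem (ih (g⁻¹ • x))
      rwa [smul_inv_smul, neg_sub] at this
  set x₀ : XX := QuotientGroup.mk 1
  have key : q = ∑ O, q O • ((Pi.single O 1 : Cusps N → ℤ) - δ x₀) := by
    rw [Finset.sum_congr rfl fun O _ => smul_sub (q O) _ _, Finset.sum_sub_distrib,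
      ← Finset.sum_smul, hq, zero_smul, sub_zero]
    funext O
    simp [Finset.sum_apply, Pi.single_apply]
  suffices q ∈ M from this
  rw [key]
  refine Submodule.sum_mem _ fun O _ => Submodule.smul_mem _ _ ?_
  obtain ⟨x, rfl⟩ : ∃ x, cusp N x = O := Quotient.mk''_surjective O
  obtain ⟨g, rfl⟩ := MulAction.exists_smul_eq G2 x₀ x
  exact hall g x₀

theorem avg_eq_zero_of_orbSum (f : XX → ℤ) (h : ∀ O, orbSum f O = 0) (x : XX) :
    ∑ i ∈ Finset.range N, f (ModularGroup.T ^ i • x) = 0 := by
  classical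
  letI := Fintype.ofFinite XX
  set g : XX → ℤ := fun x => ∑ i ∈ Finset.range N, f (ModularGroup.T ^ i • x) with hgdef
  have hT : ∀ x, g (ModularGroup.T • x) = g x := fun x => by
    simp only [hgdef, ← mul_smul, ← pow_succ]
    have h1 := Finset.sum_range_succ (fun i => f (ModularGroup.T ^ i • x)) N
    rw [Finset.sum_range_succ', T_pow_level_smul, pow_zero, one_smul] at h1
    exact add_right_cancel h1
  have hconst : ∀ k : ℤ, ∀ x, g (ModularGroup.T ^ k • x) = g x := by
    intro k
    induction k using Int.induction_on with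
    | zero => simp
    | succ k ih => intro x; rw [zpow_add_one, mul_smul, ih, hT]
    | pred k ih => intro x; rw [zpow_sub_one, mul_smul, ih, ← hT, smul_inv_smul]
  have hO : ∀ y ∈ Finset.univ.filter (fun y => cusp N y = cusp N x), g y = g x := fun y hy => by
    obtain ⟨k, rfl⟩ := cusp_eq_iff.mp (Finset.mem_filter.mp hy).2
    exact hconst k x
  have h1 : ∑ y ∈ Finset.univ.filter (fun y => cusp N y = cusp N x), g y = 0 := by
    simp only [hgdef]
    rw [Finset.sum_comm]
    refine Finset.sum_eq_zero fun i _ => ?_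
    refine Eq.trans ?_ (h (cusp N x))
    unfold orbSum
    refine Finset.sum_equiv (MulAction.toPerm (ModularGroup.T ^ i : G2)) (fun y => ?_) (fun y _ => rfl)
    simp only [Finset.mem_filter, Finset.mem_univ, true_and, MulAction.toPerm_apply]
    have : cusp N (ModularGroup.T ^ i • y) = cusp N y :=
      cusp_eq_iff.mpr ⟨i, by rw [zpow_natCast]⟩
    rw [this]
  rw [Finset.sum_congr rfl hO, Finset.sum_const, nsmul_eq_mul] at h1
  refine (mul_eq_zero.mp h1).resolve_left ?_
  exact_mod_cast Finset.card_ne_zero.mpr ⟨x, by simp⟩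

include he in
theorem orbSum_shapiro_T (O : Cusps N) : orbSum (shapiro e ModularGroup.T) O = 0 := by
  classical
  letI := Fintype.ofFinite XX
  obtain ⟨x, rfl⟩ : ∃ x, cusp N x = O := Quotient.mk''_surjective O
  set t : XX → XX := fun y => ModularGroup.T • y
  have hiter : ∀ i : ℕ, t^[i] x = ModularGroup.T ^ i • x := fun i => by
    simp [t, smul_iterate]
  set L := Function.minimalPeriod t x
  have hper : Function.IsPeriodicPt t N x := (hiter N).trans (T_pow_level_smul x)
  have hL0 : 0 < L := hper.minimalPeriod_pos (Nat.pos_of_ne_zero (NeZero.ne N))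
  have hL : ModularGroup.T ^ L • x = x := (hiter L).symm.trans Function.iterate_minimalPeriod
  have heq : Finset.univ.filter (fun y => cusp N y = cusp N x)
      = (Finset.range L).image fun i => ModularGroup.T ^ i • x := by
    ext y
    simp only [Finset.mem_filter, Finset.mem_univ, true_and, Finset.mem_image, Finset.mem_range]
    constructor
    · intro hy
      obtain ⟨k, rfl⟩ := cusp_eq_iff.mp hy
      have hk : ModularGroup.T ^ k • x = ModularGroup.T ^ (k % (L : ℤ)) • x := by
        conv_lhs => rw [← Int.emod_add_mul_ediv k L]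
        rw [zpow_add, mul_smul, zpow_mul]
        congr 1
        have hstab : (ModularGroup.T ^ (L : ℤ) : G2) ∈ MulAction.stabilizer G2 x := by
          rw [MulAction.mem_stabilizer_iff, zpow_natCast]; exact hL
        exact MulAction.mem_stabilizer_iff.mp (zpow_mem hstab _)
      refine ⟨(k % (L : ℤ)).toNat, ?_, ?_⟩
      · have := Int.emod_lt_of_pos k (by exact_mod_cast hL0 : (0 : ℤ) < L)
        omega
      · rw [hk, ← zpow_natCast, Int.toNat_of_nonneg (Int.emod_nonneg k (by omega))]
    · rintro ⟨i, -, rfl⟩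
      exact cusp_eq_iff.mpr ⟨i, by rw [zpow_natCast]⟩
  rw [orbSum_eq, heq, Finset.sum_image fun i hi j hj hij => by
    rw [← hiter, ← hiter] at hij
    exact (Function.iterate_eq_iterate_iff_of_lt_minimalPeriod (Finset.mem_range.mp hi)
      (Finset.mem_range.mp hj)).mp hij, ← shapiro_T_pow]
  exact shapiro_eq_zero_of_parabolic he _ _ hL (trace_T_pow L)

include he in
theorem exists_lift_pair (hn : n ≠ 0)
    (hfS : ∀ x : XX, ModularGroup.S • x = x → shapiro e ModularGroup.S x = 0)
    (hfU : ∀ x : XX, eltU • x = x → shapiro e eltU x = 0) :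
    ∃ a b : XX → ℤ,
      (∀ x, a x + a (ModularGroup.S • x) = 0) ∧
      (∀ x, b x + b (eltU • x) + b (eltU • eltU • x) = 0) ∧
      (∀ x, ∑ i ∈ Finset.range N,
        (a (eltU • ModularGroup.T ^ i • x) + b (ModularGroup.T ^ i • x)) = 0) ∧
      (∀ x, (a x : ZMod n) = shapiro e ModularGroup.S x) ∧
      ∀ x, (b x : ZMod n) = shapiro e eltU x := by
  classical
  letI := Fintype.ofFinite XX
  letI := Fintype.ofFinite (Cusps N)
  obtain ⟨a, ha, hae⟩ := exists_lift_A e he hfS
  obtain ⟨b, hb, hbe⟩ := exists_lift_B e he hfU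
  set c : XX → ℤ := fun x => a (eltU • x) + b x with hc
  have hce : ∀ x, (c x : ZMod n) = shapiro e ModularGroup.T x := fun x => by
    have h : eltU • x = ModularGroup.S • ModularGroup.T • x := by rw [eltU, mul_smul]
    rw [hc, Int.cast_add, hae, hbe, h, eltU, shapiro_mul]
    linear_combination shapiro_S_add e he (ModularGroup.T • x)
  have hdvd : ∀ O, (n : ℤ) ∣ orbSum c O := fun O => by
    rw [← ZMod.intCast_zmod_eq_zero_iff_dvd, ← orbSum_shapiro_T e he O]
    simp only [orbSum, Int.cast_sum, hce]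
  choose q hq using hdvd
  have hsum : ∑ x : XX, c x = 0 := by
    have h1 : ∑ x : XX, a (eltU • x) = ∑ x, a x :=
      Equiv.sum_comp (MulAction.toPerm (eltU : G2)) a
    have h2 : ∑ x : XX, a (ModularGroup.S • x) = ∑ x, a x :=
      Equiv.sum_comp (MulAction.toPerm (ModularGroup.S : G2)) a
    have h3 : ∑ x : XX, b (eltU • x) = ∑ x, b x :=
      Equiv.sum_comp (MulAction.toPerm (eltU : G2)) b
    have h4 : ∑ x : XX, b (eltU • eltU • x) = ∑ x, b x :=
      (Equiv.sum_comp (MulAction.toPerm (eltU : G2)) (fun y => b (eltU • y))).trans h3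
    have h5 := Finset.sum_congr rfl (fun x (_ : x ∈ Finset.univ) => ha x)
    have h6 := Finset.sum_congr rfl (fun x (_ : x ∈ Finset.univ) => hb x)
    rw [Finset.sum_add_distrib, Finset.sum_const_zero, h2] at h5
    rw [Finset.sum_add_distrib, Finset.sum_add_distrib, Finset.sum_const_zero, h3, h4] at h6
    rw [hc, Finset.sum_add_distrib, h1]
    omega
  have hq0 : ∑ O, q O = 0 := by
    have h1 : ∑ O : Cusps N, orbSum c O = ∑ x : XX, c x := sum_orbSum c
    rw [hsum, Finset.sum_congr rfl fun O _ => hq O, ← Finset.mul_sum] at h1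
    exact (mul_eq_zero.mp h1).resolve_left (by exact_mod_cast hn)
  obtain ⟨f, hf⟩ := exists_corr_eq q hq0
  refine ⟨fun x => a x - (n : ℤ) * (f x - f (ModularGroup.S • x)), b, fun x => ?_, hb, fun x => ?_,
    fun x => ?_, hbe⟩
  · beta_reduce; rw [S_smul_S_smul]; linear_combination ha x
  · refine avg_eq_zero_of_orbSum
      (fun y => a (eltU • y) - (n : ℤ) * (f (eltU • y) - f (ModularGroup.S • eltU • y)) + b y)
      (fun O => ?_) x
    have h1 := congrFun hf O
    rw [corr_apply] at h1
    have h2 := hq O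
    simp only [orbSum, hc] at h1 h2 ⊢
    rw [← h1, Finset.mul_sum] at h2
    rw [← sub_eq_zero.mpr h2, ← Finset.sum_sub_distrib]
    exact Finset.sum_congr rfl fun y _ => by ring
  · push_cast
    rw [hae, ZMod.natCast_self]
    ring

theorem mem_range_toPairs
    (hdim : genusFormula N ≤ (Module.finrank ℂ (CuspForm (Gamma0 N) 2) : ℚ))
    (z : pairsA N ℂ × pairsB N ℂ) (hz : avg N ℂ (atT N ℂ z) = 0) :
    z ∈ LinearMap.range (toPairs N ℂ) := by
  classical
  letI := Fintype.ofFinite XX
  suffices LinearMap.range (toPairs N ℂ) = LinearMap.ker (avg N ℂ ∘ₗ atT N ℂ) by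
    rw [this]; exact hz
  refine Submodule.eq_of_le_of_finrank_le range_toPairs_le ?_
  haveI := finiteDimensional_cuspForm (N := N)
  have hP : (2 * Module.finrank ℂ (CuspForm (Gamma0 N) 2))
      ≤ Module.finrank ℂ (parabolicHoms ℂ (Gamma0 N) ℂ) := by
    have h1 : Module.finrank ℂ (LinearMap.range (periodHomPair N))
        ≤ Module.finrank ℂ (parabolicHoms ℂ (Gamma0 N) ℂ) :=
      Submodule.finrank_mono range_periodHomPair_le
    rw [LinearMap.finrank_range_of_inj (periodHomPair_injective (N := N)), Module.finrank_prod] at h1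
    omega
  have h1 := LinearMap.finrank_range_add_finrank_ker (toPairs N ℂ)
  have h2 : Module.finrank ℂ (LinearMap.ker (toPairs N ℂ)) ≤ 1 :=
    (Submodule.finrank_mono (ker_toPairs (N := N) (k := ℂ))).trans
      ((finrank_span_le_card _).trans (by simp))
  have h5 := LinearMap.finrank_range_add_finrank_ker (avg N ℂ ∘ₗ atT N ℂ)
  have h6 : Module.finrank ℂ (LinearMap.range (atT N ℂ))
      ≤ Module.finrank ℂ (LinearMap.range (avg N ℂ ∘ₗ atT N ℂ))
        + Module.finrank ℂ (LinearMap.ker (avg N ℂ)) := by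
    rw [LinearMap.range_comp]
    have := LinearMap.finrank_range_add_finrank_ker
      ((avg N ℂ).domRestrict (LinearMap.range (atT N ℂ)))
    rw [LinearMap.range_domRestrict, LinearMap.ker_domRestrict] at this
    have h7 : Module.finrank ℂ ((LinearMap.ker (avg N ℂ)).comap (LinearMap.range (atT N ℂ)).subtype)
        ≤ Module.finrank ℂ (LinearMap.ker (avg N ℂ)) := by
      refine LinearMap.finrank_le_finrank_of_injective
        (f := ((LinearMap.range (atT N ℂ)).subtype ∘ₗ Submodule.subtype _).codRestrict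
          (LinearMap.ker (avg N ℂ)) fun x => x.2) ?_
      intro a b hab
      exact Subtype.ext (Subtype.ext (congrArg (fun z : LinearMap.ker (avg N ℂ) => (z : XX → ℂ)) hab))
    omega
  have h8 := LinearMap.finrank_range_add_finrank_ker (avg N ℂ)
  have h9 := finrank_atT (N := N) (k := ℂ)
  have h10 := card_orbits_le_finrank_avg (N := N) (k := ℂ)
  have h11 := two_finrank_pairsA (N := N) (k := ℂ)
  have h12 := three_finrank_pairsB (N := N) (k := ℂ)
  have hS := Genus.card_fixedBy_S (N := N)
  have hU := Genus.card_fixedBy_U (N := N)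
  have hT := Genus.card_orbits_T (N := N)
  have hX := Genus.card_cosetSpace (N := N)
  simp only [Genus.CosetSpace, MulAction.fixedBy, Set.coe_setOf] at hS hU hT hX
  simp only [eltU] at h12
  rw [hS, hX] at h11
  rw [hU, hX] at h12
  rw [hX] at h9
  rw [hT] at h10
  rw [Module.finrank_prod, Module.finrank_pi, ← Nat.card_eq_fintype_card, hX] at h1
  rw [Module.finrank_prod] at h5
  rw [Module.finrank_pi, ← Nat.card_eq_fintype_card, hX] at h8
  have hg : ((dedekindPsi N + 12 : ℕ) : ℚ) ≤
      ((6 * Module.finrank ℂ (parabolicHoms ℂ (Gamma0 N) ℂ) + 3 * nuTwo N + 4 * nuThree N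
        + 6 * cuspCount N : ℕ) : ℚ) := by
    have hP' : (2 : ℚ) * (Module.finrank ℂ (CuspForm (Gamma0 N) 2) : ℚ)
        ≤ (Module.finrank ℂ (parabolicHoms ℂ (Gamma0 N) ℂ) : ℚ) := by exact_mod_cast hP
    rw [genusFormula] at hdim
    push_cast
    linarith
  have hg' := Nat.cast_le.mp hg
  omega

include he in
/-- Lifting to an integral parabolic homomorphism. -/
theorem exists_integral_lift
    (hdim : genusFormula N ≤ (Module.finrank ℂ (CuspForm (Gamma0 N) 2) : ℚ)) (hn : n ≠ 0)
    (hfS : ∀ x : XX, ModularGroup.S • x = x → shapiro e ModularGroup.S x = 0)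
    (hfU : ∀ x : XX, eltU • x = x → shapiro e eltU x = 0) :
    ∃ φ : Additive (Gamma0 N) →+ ℤ, IsParabolicHom (Gamma0 N) φ ∧
      ∀ γ, ((φ γ : ℤ) : ZMod n) = e γ := by
  obtain ⟨a, b, ha, hb, hab, hae, hbe⟩ := exists_lift_pair e he hn hfS hfU
  have haC : (fun x => (a x : ℂ)) ∈ pairsA N ℂ := by
    rw [mem_pairsA]; intro x; exact_mod_cast ha x
  have hbC : (fun x => (b x : ℂ)) ∈ pairsB N ℂ := by
    rw [mem_pairsB]; intro x; exact_mod_cast hb x
  obtain ⟨⟨Φ, ψ⟩, hw⟩ := mem_range_toPairs hdim (⟨_, haC⟩, ⟨_, hbC⟩) (by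
    funext x
    simp only [avg, atT, LinearMap.coprod_apply, LinearMap.comp_apply, Submodule.subtype_apply,
      LinearMap.sum_apply, Finset.sum_apply, pull_apply, Pi.add_apply, Pi.zero_apply]
    exact_mod_cast hab x)
  have hS : ∀ x, shapiro Φ.1 ModularGroup.S x + ψ (ModularGroup.S • x) - ψ x = (a x : ℂ) := fun x => by
    rw [← toPairs_fst (Φ, ψ) x, hw]
  have hU : ∀ x, shapiro Φ.1 eltU x + ψ (eltU • x) - ψ x = (b x : ℂ) := fun x => by
    rw [← toPairs_snd (Φ, ψ) x, hw]
  have hall : ∀ g : G2, ∀ x, ∃ z : ℤ, shapiro Φ.1 g x + ψ (g • x) - ψ x = (z : ℂ) ∧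
      (z : ZMod n) = shapiro e g x := by
    intro g
    have hg : g ∈ Subgroup.closure ({ModularGroup.S, eltU} : Set G2) := by simp [closure_S_eltU]
    induction hg using Subgroup.closure_induction with
    | mem g hg =>
      rcases hg with rfl | rfl
      · exact fun x => ⟨a x, hS x, hae x⟩
      · exact fun x => ⟨b x, hU x, hbe x⟩
    | one => intro x; exact ⟨0, by simp [shapiro_one], by simp [shapiro_one]⟩
    | mul g h _ _ ihg ihh =>
      intro x
      obtain ⟨z, hz, hze⟩ := ihg (h • x)
      obtain ⟨w, hw', hwe⟩ := ihh x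
      refine ⟨z + w, ?_, by rw [Int.cast_add, shapiro_mul, hze, hwe]⟩
      rw [Int.cast_add, shapiro_mul, mul_smul]
      linear_combination hz + hw'
    | inv g _ ih =>
      intro x
      obtain ⟨z, hz, hze⟩ := ih (g⁻¹ • x)
      have h1 := shapiro_mul Φ.1 g g⁻¹ x
      have h2 := shapiro_mul e g g⁻¹ x
      rw [mul_inv_cancel, shapiro_one] at h1 h2
      rw [smul_inv_smul] at hz
      refine ⟨-z, ?_, ?_⟩
      · push_cast; linear_combination -hz - h1
      · rw [Int.cast_neg, hze, eq_neg_of_add_eq_zero_right h2.symm]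
  set x₀ : XX := QuotientGroup.mk 1
  have ho : x₀.out ∈ Gamma0 N := by
    have := QuotientGroup.out_eq' x₀
    rw [eq_comm, QuotientGroup.eq] at this
    simpa using this
  have hconj : ∀ {A : Type} [AddCommGroup A] (φ : Additive (Gamma0 N) →+ A) (γ : Gamma0 N),
      ((γ : Gamma0 N) : G2) • x₀ = x₀ ∧ shapiro φ (γ : G2) x₀ = φ (Additive.ofMul γ) := by
    intro A _ φ γ
    have hfix : ((γ : Gamma0 N) : G2) • x₀ = x₀ := by
      rw [MulAction.Quotient.smul_mk, QuotientGroup.eq]; simp
    refine ⟨hfix, ?_⟩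
    have : (⟨_, stab_mem ((γ : Gamma0 N) : G2) x₀⟩ : Gamma0 N) = ⟨_, ho⟩⁻¹ * γ * ⟨_, ho⟩ := by
      apply Subtype.ext; simp [hfix]
    rw [shapiro, this, ofMul_mul, ofMul_mul, map_add, map_add, ofMul_inv, map_neg]
    abel
  have hint : ∀ γ : Additive (Gamma0 N), ∃ z : ℤ, Φ.1 γ = (z : ℂ) ∧ (z : ZMod n) = e γ := by
    intro γ
    obtain ⟨z, hz, hze⟩ := hall ((Additive.toMul γ : Gamma0 N) : G2) x₀
    rw [(hconj Φ.1 _).1, (hconj Φ.1 _).2, add_sub_cancel_right, ofMul_toMul] at hz
    rw [(hconj e _).2, ofMul_toMul] at hze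
    exact ⟨z, hz, hze⟩
  choose z hz hze using hint
  refine ⟨AddMonoidHom.mk' z fun x y => ?_, fun γ hγ => ?_, hze⟩
  · apply Int.cast_injective (α := ℂ)
    rw [Int.cast_add, ← hz, ← hz, ← hz, map_add]
  · apply Int.cast_injective (α := ℂ)
    show (z (Additive.ofMul γ) : ℂ) = ((0 : ℤ) : ℂ)
    rw [← hz, Φ.2 γ hγ, Int.cast_zero]

end FLTAgent.JTors.Lift
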