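import Fermat.Agent.JTors.Defs
import Fermat.Agent.JTors.Lift
import Fermat.Agent.RR.Dim
import Fermat.Agent.Alg.IntegralForms

/-!
The lattice of integral parabolic homomorphisms: statements used by the torsion theory.
-/

set_option autoImplicit false

noncomputable section

open CongruenceSubgroup ModularCurve ModularCurve.Period Matrix.SpecialLinearGroup
open scoped MatrixGroups TensorProduct

namespace FLTAgent.JTors

variable {N : ℕ} [NeZero N]

theorem groupFG_SL2Z : Group.FG SL(2, ℤ) :=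
  Group.fg_iff.mpr ⟨_, SpecialLinearGroup.SL2Z_generators, by simp⟩

theorem groupFG_Gamma0 : Group.FG (Gamma0 N) :=
  haveI := groupFG_SL2Z
  Subgroup.fg_of_index_ne_zero _

theorem lam_finite : Module.Finite ℤ (Lam N) := by
  haveI := groupFG_Gamma0 (N := N)
  obtain ⟨T, hT⟩ := Group.FG.out (G := Gamma0 N)
  refine Module.Finite.of_injective (N := T → ℤ)
    (AddMonoidHom.toIntLinearMap
      (AddMonoidHom.mk' (fun φ : Lam N => fun t : T => φ.1 (Additive.ofMul t.1))
        (fun φ ψ => funext fun t => rfl))) ?_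
  intro φ ψ h
  refine Subtype.ext (AddMonoidHom.ext fun γ => ?_)
  have hγ : Additive.toMul γ ∈ Subgroup.closure (T : Set (Gamma0 N)) := by simp [hT]
  rw [← ofMul_toMul γ]
  generalize Additive.toMul γ = g at hγ
  induction hγ using Subgroup.closure_induction with
  | mem g hg => exact congrFun h ⟨g, hg⟩
  | one => simp
  | mul g g' _ _ ihg ihg' => rw [ofMul_mul, map_add, map_add, ihg, ihg']
  | inv g _ ih => rw [ofMul_inv, map_neg, map_neg, ih]

theorem lam_torsionFree : IsAddTorsionFree (Lam N) where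
  nsmul_right_injective n hn φ ψ h := by
    refine Subtype.ext (AddMonoidHom.ext fun γ => ?_)
    have := congrArg (fun φ : Lam N => φ.1 γ) h
    simpa [hn] using this

theorem lam_free : Module.Free ℤ (Lam N) := by
  haveI := lam_finite (N := N)
  haveI := lam_torsionFree (N := N)
  exact Module.free_of_finite_type_torsion_free'

/-- Complexification of an integral homomorphism. -/
def castLam : Lam N →ₗ[ℤ] parabolicHoms ℂ (Gamma0 N) ℂ :=
  AddMonoidHom.toIntLinearMap
    (AddMonoidHom.mk' (fun φ => ⟨(Int.castAddHom ℂ).comp φ.1, fun γ hγ => by simp [φ.2 γ hγ]⟩)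
      (fun φ ψ => Subtype.ext (AddMonoidHom.ext fun γ => by simp)))

theorem castLam_apply (φ : Lam N) (γ : Additive (Gamma0 N)) :
    (castLam φ).1 γ = ((φ.1 γ : ℤ) : ℂ) := rfl

theorem castLam_injective : Function.Injective (castLam (N := N)) := fun φ ψ h => by
  refine Subtype.ext (AddMonoidHom.ext fun γ => ?_)
  have := congrArg (fun Φ : parabolicHoms ℂ (Gamma0 N) ℂ => Φ.1 γ) h
  simp only [castLam_apply] at this
  exact_mod_cast this

theorem mem_span_castLam (Φ : parabolicHoms ℂ (Gamma0 N) ℂ) :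
    Φ ∈ Submodule.span ℂ (Set.range (castLam (N := N))) := by
  classical
  haveI := groupFG_Gamma0 (N := N)
  set R : Submodule ℤ ℂ := AddSubgroup.toIntSubmodule Φ.1.range with hR
  haveI : Module.Finite ℤ R := by
    rw [Module.Finite.iff_addGroup_fg]
    exact AddGroup.fg_of_surjective
      (f := AddMonoidHom.mk' (fun γ : Additive (Gamma0 N) => (⟨Φ.1 γ, ⟨γ, rfl⟩⟩ : R))
        (fun a b => Subtype.ext (map_add Φ.1 a b)))
      (by rintro ⟨_, γ, rfl⟩; exact ⟨γ, rfl⟩)
  haveI : Module.Free ℤ R := Module.free_of_finite_type_torsion_free'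
  let β := Module.Free.chooseBasis ℤ R
  let φ : Module.Free.ChooseBasisIndex ℤ R → Lam N := fun i =>
    ⟨AddMonoidHom.mk' (fun γ => β.repr ⟨Φ.1 γ, ⟨γ, rfl⟩⟩ i) (fun a b => by
        have e : (⟨Φ.1 (a + b), ⟨a + b, rfl⟩⟩ : R) = ⟨Φ.1 a, ⟨a, rfl⟩⟩ + ⟨Φ.1 b, ⟨b, rfl⟩⟩ :=
          Subtype.ext (map_add Φ.1 a b)
        rw [e, map_add, Finsupp.add_apply]),
      fun γ hγ => by
        have e : (⟨Φ.1 (Additive.ofMul γ), ⟨_, rfl⟩⟩ : R) = 0 := Subtype.ext (Φ.2 γ hγ)
        show β.repr _ i = 0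
        rw [e, map_zero, Finsupp.zero_apply]⟩
  have hΦ : Φ = ∑ i, ((β i : R) : ℂ) • castLam (φ i) := by
    refine Subtype.ext (AddMonoidHom.ext fun γ => ?_)
    have h := congrArg (Subtype.val) (β.sum_repr ⟨Φ.1 γ, ⟨γ, rfl⟩⟩)
    simp only [Submodule.coe_sum, Submodule.coe_smul, zsmul_eq_mul] at h
    rw [Submodule.coe_sum]
    simp only [AddMonoidHom.finsetSum_apply, Submodule.coe_smul, AddMonoidHom.smul_apply,
      castLam_apply, smul_eq_mul, φ, AddMonoidHom.mk'_apply]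
    exact h.symm.trans (Finset.sum_congr rfl fun i _ => mul_comm _ _)
  rw [hΦ]
  exact Submodule.sum_mem _ fun i _ => Submodule.smul_mem _ _ (Submodule.subset_span ⟨_, rfl⟩)

/-- Complexification of the lattice. -/
theorem liftBaseChange_bijective :
    Function.Bijective (LinearMap.liftBaseChange ℂ (castLam (N := N))) := by
  classical
  haveI := lam_finite (N := N)
  haveI := lam_free (N := N)
  constructor
  · rw [injective_iff_map_eq_zero]
    intro x hx
    let β := Module.Free.chooseBasis ℤ (Lam N)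
    let γb := β.baseChange ℂ
    have hc : (fun i => γb.repr x i) = 0 := by
      refine Alg.eq_zero_of_int_independent (fun i (γ : Additive (Gamma0 N)) => (β i).1 γ) ?_ _ ?_
      · intro r hr
        have h0 : ∑ i, r i • β i = 0 := by
          refine Subtype.ext (AddMonoidHom.ext fun γ => ?_)
          rw [Submodule.coe_sum]
          simpa [AddMonoidHom.finsetSum_apply] using hr γ
        exact funext (Fintype.linearIndependent_iff.1 β.linearIndependent r h0)
      · intro γ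
        rw [← γb.sum_repr x, map_sum] at hx
        have h := congrArg (fun Φ : parabolicHoms ℂ (Gamma0 N) ℂ => Φ.1 γ) hx
        simp only [map_smul, γb, Module.Basis.baseChange_apply, LinearMap.liftBaseChange_tmul, one_smul,
          Submodule.coe_sum, Submodule.coe_smul, AddMonoidHom.finsetSum_apply,
          AddMonoidHom.smul_apply, castLam_apply, smul_eq_mul, Submodule.coe_zero,
          AddMonoidHom.zero_apply] at h
        exact h
    rw [← γb.sum_repr x]
    simp only [fun i => congrFun hc i, Pi.zero_apply, zero_smul, Finset.sum_const_zero]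
  · intro Φ
    have h := mem_span_castLam Φ
    have hle : Submodule.span ℂ (Set.range (castLam (N := N)))
        ≤ LinearMap.range (LinearMap.liftBaseChange ℂ (castLam (N := N))) := by
      rw [Submodule.span_le]
      rintro _ ⟨φ, rfl⟩
      exact ⟨1 ⊗ₜ φ, by rw [LinearMap.liftBaseChange_tmul, one_smul]⟩
    exact hle h

/-- Eichler–Shimura as an isomorphism. -/
def pairsEquiv :
    (CuspForm (Gamma0 N) 2 × CuspForm (Gamma0 N) 2) ≃ₗ[ℂ] parabolicHoms ℂ (Gamma0 N) ℂ :=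
  LinearEquiv.ofBijective
    (LinearMap.codRestrict _ (periodHomPair N) fun x => Periods.range_periodHomPair_le ⟨x, rfl⟩)
    ⟨fun a b h => Periods.periodHomPair_injective (congrArg Subtype.val h), fun Φ => by
      obtain ⟨x, hx⟩ : Φ.1 ∈ LinearMap.range (periodHomPair N) := by
        rw [(Periods.eichlerShimura_of_dim (RR.genusFormula_le_finrank_cuspForm N)).2]
        exact Φ.2
      exact ⟨x, Subtype.ext hx⟩⟩

theorem periodHomPair_symm (Φ : parabolicHoms ℂ (Gamma0 N) ℂ) :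
    periodHomPair N (pairsEquiv.symm Φ) = Φ.1 :=
  congrArg Subtype.val (pairsEquiv.apply_symm_apply Φ)

theorem pairOp_apply_transfer {ι : Type} [Fintype ι] (C : Periods.CosetReps N ι)
    (t : Module.End ℂ (CuspForm (Gamma0 N) 2))
    (ht : ∀ f, (⇑(t f) : UpperHalfPlane → ℂ) = ∑ i, SlashAction.map (2 : ℤ) (C.rep i) (⇑f))
    (φ : Lam N) (γ : Gamma0 N) {σ : ι ≃ ι} {g : ι → Gamma0 N}
    (hg : ∀ i, C.rep i * mapGL ℝ ((γ : Gamma0 N) : SL(2, ℤ))
      = mapGL ℝ ((g i : Gamma0 N) : SL(2, ℤ)) * C.rep (σ i)) :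
    periodHomPair N (t (pairsEquiv.symm (castLam φ)).1, t (pairsEquiv.symm (castLam φ)).2)
      (Additive.ofMul γ) = ((∑ i, φ.1 (Additive.ofMul (g i)) : ℤ) : ℂ) := by
  rw [C.periodHomPair_apply (p := pairsEquiv.symm (castLam φ)) (ht _) (ht _) γ hg,
    periodHomPair_symm, Int.cast_sum]
  rfl

theorem pairOp_apply (ℓ : Nat.Primes) (x : CuspForm (Gamma0 N) 2 × CuspForm (Gamma0 N) 2) :
    Attach.pairOp N ℓ x =
      ((CuspForm.heckeFormsGen N 2 ℓ).1 x.1, (CuspForm.heckeFormsGen N 2 ℓ).1 x.2) := rfl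

theorem coe_gen_U (ℓ : Nat.Primes) (h : (ℓ : ℕ) ∣ N) :
    haveI : NeZero (ℓ : ℕ) := ⟨ℓ.2.ne_zero⟩
    ∀ f, (⇑((CuspForm.heckeFormsGen N 2 ℓ).1 f) : UpperHalfPlane → ℂ)
      = ∑ i, SlashAction.map (2 : ℤ) ((Periods.repsU (ℓ : ℕ) h).rep i) (⇑f) := by
  haveI : NeZero (ℓ : ℕ) := ⟨ℓ.2.ne_zero⟩
  intro f
  rw [CuspForm.heckeFormsGen_of_dvd h, CuspForm.heckeAlgebra.coe_U]
  exact Periods.coe_heckeU_eq (ℓ : ℕ) h f

theorem coe_gen_T (ℓ : Nat.Primes) (h : ¬ (ℓ : ℕ) ∣ N) :
    haveI : Fact (ℓ : ℕ).Prime := ⟨ℓ.2⟩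
    ∀ f, (⇑((CuspForm.heckeFormsGen N 2 ℓ).1 f) : UpperHalfPlane → ℂ)
      = ∑ i, SlashAction.map (2 : ℤ) ((Periods.repsT (ℓ : ℕ) h).rep i) (⇑f) := by
  haveI : Fact (ℓ : ℕ).Prime := ⟨ℓ.2⟩
  intro f
  rw [CuspForm.heckeFormsGen_of_not_dvd h, CuspForm.heckeAlgebra.coe_T]
  exact Periods.coe_heckeT_eq (ℓ : ℕ) h f

theorem exists_transfer (ℓ : Nat.Primes) (φ : Lam N) :
    ∃ ψ : Lam N, castLam ψ = pairsEquiv (Attach.pairOp N ℓ (pairsEquiv.symm (castLam φ))) := by
  have hint : ∀ γ : Gamma0 N, ∃ z : ℤ,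
      periodHomPair N (Attach.pairOp N ℓ (pairsEquiv.symm (castLam φ))) (Additive.ofMul γ)
        = (z : ℂ) := by
    intro γ
    rw [pairOp_apply]
    by_cases h : (ℓ : ℕ) ∣ N
    · haveI : NeZero (ℓ : ℕ) := ⟨ℓ.2.ne_zero⟩
      obtain ⟨σ, g, hg⟩ := (Periods.repsU (ℓ : ℕ) h).move γ γ.2
      exact ⟨_, pairOp_apply_transfer _ _ (coe_gen_U ℓ h) φ γ hg⟩
    · haveI : Fact (ℓ : ℕ).Prime := ⟨ℓ.2⟩
      obtain ⟨σ, g, hg⟩ := (Periods.repsT (ℓ : ℕ) h).move γ γ.2
      exact ⟨_, pairOp_apply_transfer _ _ (coe_gen_T ℓ h) φ γ hg⟩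
  set Ψ := pairsEquiv (Attach.pairOp N ℓ (pairsEquiv.symm (castLam φ)))
  choose z hz using hint
  refine ⟨⟨AddMonoidHom.mk' (fun γ => z (Additive.toMul γ)) (fun a b => ?_), fun γ hγ => ?_⟩, ?_⟩
  · apply Int.cast_injective (α := ℂ)
    push_cast
    rw [← hz, ← hz, ← hz, ofMul_toMul, ofMul_toMul, ofMul_toMul, map_add]
  · apply Int.cast_injective (α := ℂ)
    show ((z γ : ℤ) : ℂ) = ((0 : ℤ) : ℂ)
    rw [← hz, Int.cast_zero]
    exact Ψ.2 γ hγ
  · refine Subtype.ext (AddMonoidHom.ext fun γ => ?_)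
    exact (hz (Additive.toMul γ)).symm

/-- The transfer operator on the lattice. -/
def transfer (ℓ : Nat.Primes) : Module.End ℤ (Lam N) :=
  AddMonoidHom.toIntLinearMap
    (AddMonoidHom.mk' (fun φ => (exists_transfer ℓ φ).choose) (fun φ ψ => castLam_injective (by
      refine (exists_transfer ℓ (φ + ψ)).choose_spec.trans ?_
      simp only [map_add, (exists_transfer ℓ φ).choose_spec, (exists_transfer ℓ ψ).choose_spec])))

theorem castLam_transfer (ℓ : Nat.Primes) (φ : Lam N) :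
    castLam (transfer ℓ φ) = pairsEquiv (Attach.pairOp N ℓ (pairsEquiv.symm (castLam φ))) :=
  (exists_transfer ℓ φ).choose_spec

theorem isTransfer_transfer {ι : Type} [Fintype ι] (C : Periods.CosetReps N ι) (ℓ : Nat.Primes)
    (ht : ∀ f, (⇑((CuspForm.heckeFormsGen N 2 ℓ).1 f) : UpperHalfPlane → ℂ)
      = ∑ i, SlashAction.map (2 : ℤ) (C.rep i) (⇑f)) :
    IsTransfer C (transfer ℓ) := by
  intro φ γ σ g hg
  apply Int.cast_injective (α := ℂ)
  rw [← castLam_apply, castLam_transfer]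
  exact pairOp_apply_transfer C _ ht φ γ hg

theorem exists_latticeData (N : ℕ) [NeZero N] : Nonempty (LatticeData N) := by
  let e : (ℂ ⊗[ℤ] Lam N) ≃ₗ[ℂ] parabolicHoms ℂ (Gamma0 N) ℂ :=
    LinearEquiv.ofBijective _ liftBaseChange_bijective
  refine ⟨{ T := transfer
            periods := e.trans pairsEquiv.symm
            periods_T := fun ℓ x => ?_
            transferU := fun ℓ h => ?_
            transferT := fun ℓ h => ?_ }⟩
  · induction x using TensorProduct.induction_on with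
    | zero => simp
    | add a b ha hb => simp only [map_add, ha, hb]
    | tmul c φ =>
      simp only [LinearMap.baseChange_tmul, LinearEquiv.trans_apply, e,
        LinearEquiv.ofBijective_apply, LinearMap.liftBaseChange_tmul, map_smul, castLam_transfer,
        LinearEquiv.symm_apply_apply]
  · haveI : NeZero (ℓ : ℕ) := ⟨ℓ.2.ne_zero⟩
    exact isTransfer_transfer _ ℓ (coe_gen_U ℓ h)
  · haveI : Fact (ℓ : ℕ).Prime := ⟨ℓ.2⟩
    exact isTransfer_transfer _ ℓ (coe_gen_T ℓ h)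

/-- every torsion character comes from the lattice -/
theorem exists_lam_of_torsChar {n : ℕ} (hn : 0 < n) {χ : Gamma0 N →* ℂ} (hχ : IsTorsChar n χ) :
    ∃ φ : Lam N, expChar n φ = χ := by
  haveI : NeZero n := ⟨hn.ne'⟩
  set ζ : ℂ := Complex.exp (2 * Real.pi * Complex.I / n) with hζdef
  have hζ : IsPrimitiveRoot ζ n := Complex.isPrimitiveRoot_exp n hn.ne'
  choose k hkn hk using fun γ : Gamma0 N => hζ.eq_pow_of_pow_eq_one (hχ.pow_eq_one γ)
  have hζ0 : ζ ≠ 0 := Complex.exp_ne_zero _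
  have hiff : ∀ γ : Gamma0 N, ∀ z : ℤ, χ γ = ζ ^ z ↔ ((z : ZMod n)) = (k γ : ZMod n) := by
    intro γ z
    rw [← hk γ, ← Int.cast_natCast (R := ZMod n) (k γ), ← sub_eq_zero (a := (z : ZMod n)),
      ← Int.cast_sub, ZMod.intCast_zmod_eq_zero_iff_dvd, ← hζ.zpow_eq_one_iff_dvd, zpow_sub₀ hζ0,
      zpow_natCast, div_eq_one_iff_eq (pow_ne_zero _ hζ0), eq_comm]
  let e : Additive (Gamma0 N) →+ ZMod n :=
    AddMonoidHom.mk' (fun γ => (k (Additive.toMul γ) : ZMod n)) (fun a b => by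
      have h := (hiff (Additive.toMul a * Additive.toMul b)
        ((k (Additive.toMul a) : ℤ) + (k (Additive.toMul b) : ℤ))).mp (by
          rw [map_mul, zpow_add₀ hζ0, zpow_natCast, zpow_natCast, hk, hk])
      push_cast at h
      exact h.symm)
  have he0 : ∀ γ : Gamma0 N, χ γ = 1 → e (Additive.ofMul γ) = 0 := fun γ h => by
    have := (hiff γ 0).mp (by rw [zpow_zero, h])
    simpa [e] using this.symm
  have hneg : χ (⟨-1, Periods.neg_one_mem⟩ : Gamma0 N) = 1 :=
    hχ.special _ ⟨1, -1, Or.inr (Or.inr (Or.inl rfl)), by simp⟩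
  have he : IsParabolicHom (Gamma0 N) e := by
    intro γ hγ
    obtain ⟨δ, m, hm⟩ := Periods.exists_conj_T_zpow hγ
    refine he0 γ ?_
    rcases hm with hm | hm
    · exact hχ.special _ ⟨δ, _, Or.inr (Or.inr (Or.inr ⟨m, rfl⟩)), hm⟩
    · have hmem : δ * ModularGroup.T ^ m * δ⁻¹ ∈ Gamma0 N := by
        have h1 := mul_mem (Periods.neg_one_mem (N := N)) γ.2
        rwa [hm, mul_neg, neg_mul, one_mul, neg_neg] at h1
      have : γ = (⟨-1, Periods.neg_one_mem⟩ : Gamma0 N) * ⟨_, hmem⟩ := by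
        apply Subtype.ext
        simp [hm]
      rw [this, map_mul, hneg, one_mul]
      exact hχ.special _ ⟨δ, _, Or.inr (Or.inr (Or.inr ⟨m, rfl⟩)), rfl⟩
  have hfix : ∀ (g : SL(2, ℤ)), (g = ModularGroup.S ∨ g = ModularGroup.S * ModularGroup.T ∨ g = -1 ∨
      ∃ m : ℤ, g = ModularGroup.T ^ m) → ∀ x : SL(2, ℤ) ⧸ Gamma0 N, g • x = x →
        Periods.shapiro e g x = 0 := by
    intro g hg x hx
    refine he0 _ (hχ.special _ ⟨x.out⁻¹, g, hg, ?_⟩)
    simp [hx]
  obtain ⟨φ, hφ, hφe⟩ := Lift.exists_integral_lift e he (RR.genusFormula_le_finrank_cuspForm N) hn.ne'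
    (hfix _ (Or.inl rfl)) (hfix _ (Or.inr (Or.inl rfl)))
  refine ⟨⟨φ, hφ⟩, MonoidHom.ext fun γ => ?_⟩
  rw [expChar_apply, (hiff γ (φ (Additive.ofMul γ))).mpr (hφe (Additive.ofMul γ)), hζdef,
    ← Complex.exp_int_mul]
  congr 1
  ring

end FLTAgent.JTors
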