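import Fermat.Agent.JTors.HeckeEquiv
import Fermat.Agent.JTors.LatticeAPI

/-!
The lattice computing the torsion of `J₀(N)` with its Hecke action.
-/

set_option autoImplicit false

noncomputable section

open ModularCurve CongruenceSubgroup Matrix.SpecialLinearGroup
open scoped MatrixGroups

namespace FLTAgent.JTors

variable {N : ℕ} [NeZero N]

theorem dedekindPsi_mul_prime {ℓ : ℕ} (hℓ : ℓ.Prime) (M : ℕ) (hM : M ≠ 0) :
    dedekindPsi (M * ℓ) = (if ℓ ∣ M then ℓ else ℓ + 1) * dedekindPsi M := by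
  obtain ⟨e, m, hm, rfl⟩ := Nat.exists_eq_pow_mul_and_not_dvd hM ℓ hℓ.ne_one
  have hcop : ∀ k, (ℓ ^ k).Coprime m := fun k =>
    Nat.Coprime.pow_left k (hℓ.coprime_iff_not_dvd.mpr hm)
  rw [show ℓ ^ e * m * ℓ = ℓ ^ (e + 1) * m by rw [pow_succ]; ring,
    Genus.dedekindPsi_mul (hcop _), Genus.dedekindPsi_mul (hcop _),
    Genus.dedekindPsi_prime_pow hℓ (Nat.succ_pos e), Nat.succ_sub_one, Nat.succ_eq_add_one]
  rcases Nat.eq_zero_or_pos e with rfl | he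
  · rw [if_neg (by simpa using hm)]
    simp [dedekindPsi_one]
  · rw [if_pos ((dvd_pow_self ℓ he.ne').mul_right m), Genus.dedekindPsi_prime_pow hℓ he]
    obtain ⟨k, rfl⟩ : ∃ k, e = k + 1 := ⟨e - 1, by omega⟩
    simp only [Nat.add_sub_cancel, pow_succ]
    ring

theorem lower_mul_inv (h h' : Gamma0 N) :
    ((h : SL(2, ℤ)) * (h' : SL(2, ℤ))⁻¹) 1 0 =
      (h : SL(2, ℤ)) 1 0 * (h' : SL(2, ℤ)) 1 1 - (h : SL(2, ℤ)) 1 1 * (h' : SL(2, ℤ)) 1 0 := by
  rw [Matrix.SpecialLinearGroup.coe_mul, Matrix.SpecialLinearGroup.coe_inv,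
    Matrix.adjugate_fin_two, Matrix.mul_apply, Fin.sum_univ_two]
  simp
  ring

theorem dvd_of_mem_Gamma0 {M : ℕ} {γ : SL(2, ℤ)} (h : γ ∈ Gamma0 M) : (M : ℤ) ∣ γ 1 0 :=
  (ZMod.intCast_zmod_eq_zero_iff_dvd _ _).mp (Gamma0_mem.mp h)

theorem eq_of_dvd_val_sub {ℓ : ℕ} [NeZero ℓ] {a b : ZMod ℓ}
    (h : (ℓ : ℤ) ∣ (b.val : ℤ) - a.val) : a = b := by
  have h' := (ZMod.intCast_zmod_eq_zero_iff_dvd _ _).mpr h
  push_cast at h'
  rw [ZMod.natCast_zmod_val, ZMod.natCast_zmod_val, sub_eq_zero] at h'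
  exact h'.symm

theorem isTors_hecke_U {n : ℕ} (hn : 0 < n) (ℓ : Nat.Primes) (hd : (ℓ : ℕ) ∣ N)
    {t : Module.End ℤ (Lam N)}
    (ht : haveI : NeZero (ℓ : ℕ) := ⟨ℓ.2.ne_zero⟩; IsTransfer (Periods.repsU (ℓ : ℕ) hd) t)
    {φ : Lam N} {x : JZero N} (hx : IsTors n (conjW φ) x) :
    IsTors n (conjW (t φ)) (heckeOperatorBar N ℓ x) := by
  haveI : NeZero (ℓ : ℕ) := ⟨ℓ.2.ne_zero⟩
  choose h hmat hrel using fun b : ZMod (ℓ : ℕ) => wGL_conj_heckeMatrix (N := N) (ℓ : ℕ) b.val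
  refine isTors_hecke hn ℓ (Periods.repsU (ℓ : ℕ) hd) h (fun i => ⟨1, ?_⟩) (fun i j hij => ?_) ?_ ht hx
  · rw [Subgroup.coe_one, map_one, one_mul]
    exact hrel i
  · have := dvd_of_mem_Gamma0 hij
    rw [lower_mul_inv, hmat i, hmat j] at this
    simp [-ZMod.natCast_val] at this
    refine eq_of_dvd_val_sub ((mul_dvd_mul_iff_left
      (Int.natCast_ne_zero.mpr (NeZero.ne N))).mp ?_)
    obtain ⟨k, hk⟩ := this
    exact ⟨k, by push_cast at hk ⊢; linear_combination hk⟩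
  · rw [ZMod.card, dedekindPsi_mul_prime ℓ.2 N (NeZero.ne N), if_pos hd]

theorem isTors_hecke_T {n : ℕ} (hn : 0 < n) (ℓ : Nat.Primes) (hd : ¬ (ℓ : ℕ) ∣ N)
    {t : Module.End ℤ (Lam N)}
    (ht : haveI : Fact (ℓ : ℕ).Prime := ⟨ℓ.2⟩; IsTransfer (Periods.repsT (ℓ : ℕ) hd) t)
    {φ : Lam N} {x : JZero N} (hx : IsTors n (conjW φ) x) :
    IsTors n (conjW (t φ)) (heckeOperatorBar N ℓ x) := by
  haveI : NeZero (ℓ : ℕ) := ⟨ℓ.2.ne_zero⟩
  haveI : Fact (ℓ : ℕ).Prime := ⟨ℓ.2⟩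
  choose h hmat hrel using fun b : ZMod (ℓ : ℕ) => wGL_conj_heckeMatrix (N := N) (ℓ : ℕ) b.val
  obtain ⟨g₀, h₀, ⟨x₀, h10, h11⟩, hrel₀⟩ :=
    wGL_conj_heckeDiag (N := N) (ℓ.2.coprime_iff_not_dvd.mpr hd)
  let h' : OnePoint (ZMod (ℓ : ℕ)) → Gamma0 N := fun i => i.elim h₀ h
  refine isTors_hecke hn ℓ (Periods.repsT (ℓ : ℕ) hd) h' (fun i => ?_) (fun i j hij => ?_) ?_ ht hx
  · induction i using OnePoint.rec with
    | infty => exact ⟨g₀, hrel₀⟩
    | coe b =>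
      refine ⟨1, ?_⟩
      rw [Subgroup.coe_one, map_one, one_mul]
      exact hrel b
  · have hdvd := dvd_of_mem_Gamma0 hij
    have hno : ∀ k : ℤ, ((N * (ℓ : ℕ) : ℕ) : ℤ) ∣ (N : ℤ) * (1 + (ℓ : ℤ) * k) → False := by
      intro k hk
      push_cast at hk
      have h1 := (mul_dvd_mul_iff_left (Int.natCast_ne_zero.mpr (NeZero.ne N))).mp hk
      rw [dvd_add_left (dvd_mul_right _ _)] at h1
      exact ℓ.2.not_dvd_one (by exact_mod_cast h1)
    induction i using OnePoint.rec with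
    | infty =>
      induction j using OnePoint.rec with
      | infty => rfl
      | coe b =>
        exfalso
        change ((N * (ℓ : ℕ) : ℕ) : ℤ) ∣ ((h₀ : SL(2, ℤ)) * (h b : SL(2, ℤ))⁻¹) 1 0 at hdvd
        rw [lower_mul_inv, h10, h11, hmat b] at hdvd
        refine hno (-(x₀ * b.val)) ?_
        simp [-ZMod.natCast_val] at hdvd
        obtain ⟨k, hk⟩ := hdvd
        exact ⟨-k, by push_cast at hk ⊢; linear_combination -hk⟩
    | coe a =>
      induction j using OnePoint.rec with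
      | infty =>
        exfalso
        change ((N * (ℓ : ℕ) : ℕ) : ℤ) ∣ ((h a : SL(2, ℤ)) * (h₀ : SL(2, ℤ))⁻¹) 1 0 at hdvd
        rw [lower_mul_inv, h10, h11, hmat a] at hdvd
        refine hno (-(x₀ * a.val)) ?_
        simp [-ZMod.natCast_val] at hdvd
        obtain ⟨k, hk⟩ := hdvd
        exact ⟨k, by push_cast at hk ⊢; linear_combination hk⟩
      | coe b =>
        change ((N * (ℓ : ℕ) : ℕ) : ℤ) ∣ ((h a : SL(2, ℤ)) * (h b : SL(2, ℤ))⁻¹) 1 0 at hdvd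
        rw [lower_mul_inv, hmat a, hmat b] at hdvd
        simp [-ZMod.natCast_val] at hdvd
        congr 1
        refine eq_of_dvd_val_sub ((mul_dvd_mul_iff_left
          (Int.natCast_ne_zero.mpr (NeZero.ne N))).mp ?_)
        obtain ⟨k, hk⟩ := hdvd
        exact ⟨k, by push_cast at hk ⊢; linear_combination hk⟩
  · change Fintype.card (Option (ZMod (ℓ : ℕ))) * _ = _
    rw [Fintype.card_option, ZMod.card, dedekindPsi_mul_prime ℓ.2 N (NeZero.ne N), if_neg hd]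

/-- the lattice with all its properties -/
theorem exists_heckeLattice' (N : ℕ) [NeZero N] : Nonempty (Attach.HeckeLattice N) := by
  obtain ⟨L⟩ := exists_latticeData N
  haveI := lam_free (N := N)
  haveI := lam_finite (N := N)
  refine ⟨{
    Lam := Lam N
    T := L.T
    periods := L.periods
    periods_T := L.periods_T
    tors := fun n => (torsMap N n).comp conjW
    nsmul_eq_zero_iff := fun n hn x => ?_
    tors_eq_zero_iff := fun n hn v => ?_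
    tors_mul := fun n m hn hm v => torsMap_mul hn hm (conjW v)
    tors_T := fun n hn ℓ v => ?_ }⟩
  · rw [nsmul_eq_zero_iff hn x]
    exact ⟨fun ⟨φ, hφ⟩ => ⟨conjW φ, by rw [AddMonoidHom.comp_apply, conjW_conjW, hφ]⟩,
      fun ⟨v, hv⟩ => ⟨conjW v, hv⟩⟩
  · rw [AddMonoidHom.comp_apply, torsMap_eq_zero_iff hn]
    constructor
    · rintro ⟨w, hw⟩
      exact ⟨conjW w, by rw [← map_zsmul, ← hw, conjW_conjW]⟩
    · rintro ⟨w, rfl⟩
      exact ⟨conjW w, map_zsmul conjW _ w⟩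
  · rw [AddMonoidHom.comp_apply, AddMonoidHom.comp_apply]
    refine IsTors.eq_torsMap hn ?_
    have hx := isTors_torsMap hn (conjW v)
    by_cases hd : (ℓ : ℕ) ∣ N
    · exact isTors_hecke_U hn ℓ hd (L.transferU ℓ hd) hx
    · exact isTors_hecke_T hn ℓ hd (L.transferT ℓ hd) hx

end FLTAgent.JTors
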