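import Fermat.Agent.Periods.Eis.Hecke
import Fermat.Agent.Attach.Defs
import Fermat.Agent.ModFun.Basic

/-!
Torsion of `J₀(N)` through characters of `Γ₀(N)`: common definitions.

`Lam N` is the lattice of integral parabolic homomorphisms; `φ ↦ exp(2πi φ/n)` are the characters
trivial on parabolic and elliptic elements, and these are the multipliers of `n`-th roots of
functions with divisor divisible by `n`.
-/

set_option autoImplicit false

noncomputable section

open UpperHalfPlane CongruenceSubgroup ModularCurve ModularCurve.Period Matrix.SpecialLinearGroup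
open scoped MatrixGroups ModularForm Manifold Real TensorProduct

namespace FLTAgent.JTors

variable (N : ℕ) [NeZero N]

/-- integral parabolic homomorphisms -/
abbrev Lam : Type := parabolicHoms ℤ (Gamma0 N) ℤ

variable {N}

/-- an element fixing `δ • i`, `δ • ρ` or the cusp `δ • ∞` -/
def IsSpecial (γ : Gamma0 N) : Prop :=
  ∃ δ g : SL(2, ℤ), (g = ModularGroup.S ∨ g = ModularGroup.S * ModularGroup.T ∨ g = -1 ∨
      ∃ m : ℤ, g = ModularGroup.T ^ m) ∧ (γ : SL(2, ℤ)) = δ * g * δ⁻¹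

/-- a character of order dividing `n`, trivial on special elements -/
structure IsTorsChar (n : ℕ) (χ : Gamma0 N →* ℂ) : Prop where
  pow_eq_one : ∀ γ, χ γ ^ n = 1
  special : ∀ γ, IsSpecial γ → χ γ = 1

/-- `γ ↦ exp(2πi φ(γ)/n)` -/
def expChar (n : ℕ) (φ : Lam N) : Gamma0 N →* ℂ where
  toFun γ := Complex.exp (2 * π * Complex.I * ((φ.1 (Additive.ofMul γ) : ℤ) : ℂ) / n)
  map_one' := by simp
  map_mul' γ δ := by
    rw [ofMul_mul, map_add, Int.cast_add, ← Complex.exp_add]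
    ring_nf

theorem expChar_apply (n : ℕ) (φ : Lam N) (γ : Gamma0 N) :
    expChar n φ γ = Complex.exp (2 * π * Complex.I * ((φ.1 (Additive.ofMul γ) : ℤ) : ℂ) / n) :=
  rfl

/-- `t` is the transfer along the double coset with representatives `C` -/
def IsTransfer {ι : Type} [Fintype ι] (C : Periods.CosetReps N ι) (t : Module.End ℤ (Lam N)) :
    Prop :=
  ∀ (φ : Lam N) (γ : Gamma0 N) (σ : ι ≃ ι) (g : ι → Gamma0 N),
    (∀ i, C.rep i * mapGL ℝ ((γ : Gamma0 N) : SL(2, ℤ))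
        = mapGL ℝ ((g i : Gamma0 N) : SL(2, ℤ)) * C.rep (σ i)) →
      (t φ).1 (Additive.ofMul γ) = ∑ i, φ.1 (Additive.ofMul (g i))

variable (N) in
/-- Hecke operators on the lattice, with Eichler–Shimura -/
structure LatticeData where
  T : Nat.Primes → Module.End ℤ (Lam N)
  periods : (ℂ ⊗[ℤ] Lam N) ≃ₗ[ℂ] (CuspForm (Gamma0 N) 2 × CuspForm (Gamma0 N) 2)
  periods_T : ∀ (ℓ : Nat.Primes) (x : ℂ ⊗[ℤ] Lam N),
    periods ((T ℓ).baseChange ℂ x) = Attach.pairOp N ℓ (periods x)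
  transferU : ∀ (ℓ : Nat.Primes) (h : (ℓ : ℕ) ∣ N),
    haveI : NeZero (ℓ : ℕ) := ⟨ℓ.2.ne_zero⟩
    IsTransfer (Periods.repsU (ℓ : ℕ) h) (T ℓ)
  transferT : ∀ (ℓ : Nat.Primes) (h : ¬ (ℓ : ℕ) ∣ N),
    haveI : Fact (ℓ : ℕ).Prime := ⟨ℓ.2⟩
    IsTransfer (Periods.repsT (ℓ : ℕ) h) (T ℓ)

end FLTAgent.JTors
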