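import Fermat.Agent.JTors.LocalChar
import Fermat.Agent.JTors.Defs
import Fermat.Agent.RR.API

/-!
`n`-th roots of functions with divisor divisible by `n`, and their multipliers.
-/

set_option autoImplicit false

noncomputable section

open UpperHalfPlane Filter Topology ModularCurve ModularGroup CongruenceSubgroup AlgebraicCurve
open scoped MatrixGroups Manifold WithZero

namespace FLTAgent.JTors

open Genus (Qbar embC FN gen jgen CosetSpace ordVal vlog)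
open scoped Genus

variable {N : ℕ} [NeZero N]

/-- `f` has an `n`-th root on `ℍ` with multiplier `χ` -/
def Datum (n : ℕ) (χ : Gamma0 N →* ℂ) (f : FN N) : Prop :=
  ∃ ψ : MeroH, ψ ^ n = evH N f ∧
    ∀ γ : Gamma0 N, pullSL (γ : SL(2, ℤ)) ψ = algebraMap ℂ MeroH (χ γ) * ψ

theorem root_ne_zero {n : ℕ} (hn : 0 < n) {f : FN N} (hf : f ≠ 0) {ψ : MeroH}
    (h : ψ ^ n = evH N f) : ψ ≠ 0 := fun e => by
  rw [e, zero_pow hn.ne', eq_comm, map_eq_zero] at h
  exact hf h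

theorem Datum.mul {n : ℕ} {χ χ' : Gamma0 N →* ℂ} {f f' : FN N} (h : Datum n χ f)
    (h' : Datum n χ' f') : Datum n (χ * χ') (f * f') := by
  obtain ⟨ψ, hψ, hc⟩ := h
  obtain ⟨ψ', hψ', hc'⟩ := h'
  refine ⟨ψ * ψ', by rw [mul_pow, hψ, hψ', map_mul], fun γ => ?_⟩
  rw [map_mul, hc, hc', MonoidHom.mul_apply, map_mul]
  ring

theorem Datum.pow_self {n : ℕ} (g : FN N) : Datum n 1 (g ^ n) :=
  ⟨evH N g, (map_pow _ _ _).symm, fun γ => by
    rw [evH_invariant γ.2, MonoidHom.one_apply, map_one, one_mul]⟩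

theorem Datum.inv {n : ℕ} {χ χ' : Gamma0 N →* ℂ} {f : FN N} (h : Datum n χ f)
    (hχ : ∀ γ, χ γ * χ' γ = 1) : Datum n χ' f⁻¹ := by
  obtain ⟨ψ, hψ, hc⟩ := h
  refine ⟨ψ⁻¹, by rw [inv_pow, hψ, map_inv₀], fun γ => ?_⟩
  rw [map_inv₀, hc, mul_inv, ← map_inv₀, inv_eq_of_mul_eq_one_right (hχ γ)]

theorem algC_cancel {ψ : MeroH} (hψ : ψ ≠ 0) {a b : ℂ}
    (h : algebraMap ℂ MeroH a * ψ = algebraMap ℂ MeroH b * ψ) : a = b :=
  (algebraMap ℂ MeroH).injective (mul_right_cancel₀ hψ h)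

theorem Datum.unique {n : ℕ} (hn : 0 < n) {χ χ' : Gamma0 N →* ℂ} {f : FN N} (hf : f ≠ 0)
    (h : Datum n χ f) (h' : Datum n χ' f) : χ = χ' := by
  obtain ⟨ψ, hψ, hc⟩ := h
  obtain ⟨ψ', hψ', hc'⟩ := h'
  have h0 := root_ne_zero hn hf hψ
  obtain ⟨a, ha, hae⟩ := exists_const_of_pow_eq hn (c := 1) (y := ψ' / ψ)
    (by rw [div_pow, hψ, hψ', div_self ((map_ne_zero _).mpr hf), map_one])
  rw [div_eq_iff h0] at hae
  refine MonoidHom.ext fun γ => algC_cancel (root_ne_zero hn hf hψ') ?_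
  rw [← hc', hae, map_mul, AlgHom.commutes, hc]
  ring

theorem exists_hol_of_pow {n : ℕ} (hn : 0 < n) {W : MeroH} {H : HolH} (hH : H ≠ 0)
    (h : W ^ n = ofH H) : ∃ G : HolH, W = ofH G := by
  obtain ⟨G, hG⟩ := exists_holRoot hn hH fun τ => ⟨ordAt τ W, by rw [← h, ordAt_pow]⟩
  have hG0 : ofH G ≠ 0 := ofH_ne_zero fun e => hH (by rw [← hG, e, zero_pow hn.ne'])
  obtain ⟨a, -, ha⟩ := exists_const_of_pow_eq hn (c := 1) (y := W / ofH G)
    (by rw [div_pow, h, ← map_pow, hG, div_self (ofH_ne_zero hH), map_one])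
  rw [div_eq_iff hG0, ← AlgHom.commutes (ofH), ← map_mul] at ha
  exact ⟨_, ha⟩

theorem pullSL_neg_one (y : MeroH) : pullSL (-1) y = y := by
  obtain ⟨a, b, hb, rfl⟩ := exists_ofH_div y
  rw [map_div₀, pullSL_ofH, pullSL_ofH]
  congr 2 <;> exact Subtype.ext (funext fun τ =>
    congrArg _ ((ModularGroup.SL_neg_smul 1 τ).trans (one_smul _ _)))

theorem slash_T_zpow_point (δ : SL(2, ℤ)) (m : ℤ) (τ : ℍ) :
    (δ * T ^ m * δ⁻¹) • (δ • τ) = δ • ((m : ℝ) +ᵥ τ) := by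
  rw [← mul_smul, inv_mul_cancel_right, mul_smul, UpperHalfPlane.modular_T_zpow_smul]

/-- translation multiplier of a root at the cusp `δ ∞` -/
theorem hol_multiplier_cusp {n : ℕ} (hn : 0 < n) (P : MvPolynomial N.divisors Qbar)
    (hP : MvPolynomial.aeval (gen N) P ≠ 0) {G : HolH} (hG : G ^ n = thetaH N P) (δ : SL(2, ℤ))
    (m : ℤ) {c : ℂ} (hc : pullSL (δ * T ^ m * δ⁻¹) (ofH G) = algebraMap ℂ MeroH c * ofH G) :
    c = Complex.exp (2 * Real.pi * Complex.I *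
      ((Genus.cuspChart N).ordP (QuotientGroup.mk δ⁻¹) P : ℤ) * m / (N * n)) := by
  rw [pullSL_ofH, ← AlgHom.commutes (ofH), ← map_mul, ofH_injective.eq_iff, Subtype.ext_iff,
    funext_iff] at hc
  obtain ⟨L, hL, ht⟩ := theta_asymp δ P hP
  refine multiplier_cusp (W := fun τ => (G : ℍ → ℂ) (δ • τ)) ((mdiff_smul_SL δ G.2).continuous) hn
    _ m hL (fun τ => ?_) (ht.congr fun τ => ?_)
  · have := hc (δ • τ)
    simp only [Subalgebra.coe_mul, Pi.mul_apply, Subalgebra.coe_algebraMap, Pi.algebraMap_apply,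
      Algebra.algebraMap_self, RingHom.id_apply] at this
    rw [slash_T_zpow_point] at this
    exact this
  · rw [← hG]
    rfl

theorem cusp_multiplier {n : ℕ} (hn : 0 < n) {f : FN N} (hf : f ≠ 0) {ψ : MeroH}
    (hψ : ψ ^ n = evH N f) (δ : SL(2, ℤ)) (m : ℤ) (hmem : δ * T ^ m * δ⁻¹ ∈ Gamma0 N) {c : ℂ}
    (hc : pullSL (δ * T ^ m * δ⁻¹) ψ = algebraMap ℂ MeroH c * ψ) :
    c = Complex.exp (2 * Real.pi * Complex.I *
      (vlog (ordVal (0 : ℂ)) ((Genus.cuspChart N).sigma (QuotientGroup.mk δ⁻¹) f) : ℤ) * m /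
        (N * n)) := by
  obtain ⟨P, Q, hQ, rfl⟩ := Genus.exists_repr N f
  have hP : MvPolynomial.aeval (gen N) P ≠ 0 := fun h => hf (by rw [h, zero_div])
  set C := Genus.cuspChart N
  set i : CosetSpace N := QuotientGroup.mk δ⁻¹
  have hQ' : ofH (thetaH N Q) ≠ 0 := by rw [← evH_aeval']; exact (map_ne_zero _).mpr hQ
  have hR : MvPolynomial.aeval (gen N) (P * Q ^ (n - 1)) ≠ 0 := by
    rw [map_mul, map_pow]
    exact mul_ne_zero hP (pow_ne_zero _ hQ)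
  have hW : (ψ * ofH (thetaH N Q)) ^ n = ofH (thetaH N (P * Q ^ (n - 1))) := by
    rw [mul_pow, hψ, map_div₀, evH_aeval', evH_aeval']
    rw [← evH_aeval' (P * _), map_mul, map_pow, map_mul, map_pow, evH_aeval', evH_aeval',
      show ofH (thetaH N Q) ^ n = ofH (thetaH N Q) * ofH (thetaH N Q) ^ (n - 1) by
        rw [← pow_succ', Nat.sub_add_cancel hn],
      ← mul_assoc, div_mul_cancel₀ _ hQ']
  obtain ⟨G, hG⟩ := exists_hol_of_pow hn (fun e => hR ((map_eq_zero (evH N)).mp (by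
    rw [evH_aeval', e, map_zero]))) hW
  rw [hG, ← map_pow, ofH_injective.eq_iff] at hW
  have hinvQ : pullSL (δ * T ^ m * δ⁻¹) (ofH (thetaH N Q)) = ofH (thetaH N Q) := by
    rw [← evH_aeval', evH_invariant hmem]
  have hcG : pullSL (δ * T ^ m * δ⁻¹) (ofH G) = algebraMap ℂ MeroH c * ofH G := by
    rw [← hG, map_mul, hc, hinvQ, mul_assoc]
  have h1 := hol_multiplier_cusp hn _ hR hW δ m hcG
  have h2 := hol_multiplier_cusp one_pos Q hQ (G := thetaH N Q) (pow_one _) δ m (c := 1)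
    (by rw [hinvQ, map_one, one_mul])
  rw [← C.vlog_sigma_aeval, map_mul, map_pow, map_mul (C.sigma i), map_pow (C.sigma i),
    Genus.vlog_mul _ ((map_ne_zero _).mpr hP) (pow_ne_zero _ ((map_ne_zero _).mpr hQ)),
    Genus.vlog_pow, C.vlog_sigma_aeval, C.vlog_sigma_aeval] at h1
  show c = Complex.exp (2 * Real.pi * Complex.I * (vlog (ordVal C.pt) (C.sigma i _) : ℤ) * m / _)
  rw [map_div₀, div_eq_mul_inv (C.sigma i _), Genus.vlog_mul _ ((map_ne_zero _).mpr hP)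
    (inv_ne_zero ((map_ne_zero _).mpr hQ)), Genus.vlog_inv, C.vlog_sigma_aeval, C.vlog_sigma_aeval]
  rw [h1]
  set vP := C.ordP i P
  set vQ := C.ordP i Q
  have hexp : Complex.exp (2 * Real.pi * Complex.I * ((vP + ((n - 1 : ℕ) : ℤ) * vQ : ℤ) : ℂ) * m /
      (N * n)) = Complex.exp (2 * Real.pi * Complex.I * ((vP + -vQ : ℤ) : ℂ) * m / (N * n)) *
      Complex.exp (2 * Real.pi * Complex.I * (vQ : ℂ) * m / (N * ((1 : ℕ) : ℂ))) := by
    rw [← Complex.exp_add]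
    congr 1
    have hn0 : (n : ℂ) ≠ 0 := Nat.cast_ne_zero.mpr hn.ne'
    have hN0 : (N : ℂ) ≠ 0 := Nat.cast_ne_zero.mpr (NeZero.ne N)
    push_cast [Nat.cast_sub (Nat.one_le_iff_ne_zero.mpr hn.ne')]
    field_simp
    ring
  rw [hexp, ← h2, mul_one]

/-! ### characters of the lattice -/

theorem Lam.apply_eq_zero_of_finOrder (φ : Lam N) {γ : Gamma0 N} {k : ℕ} (hk : 0 < k)
    (h : γ ^ k = 1) : φ.1 (Additive.ofMul γ) = 0 := by
  have : k • φ.1 (Additive.ofMul γ) = 0 := by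
    rw [← map_nsmul, ← ofMul_pow, h, ofMul_one, map_zero]
  simpa [hk.ne'] using this

theorem expChar_eq_one_of_eq_zero (n : ℕ) (φ : Lam N) {γ : Gamma0 N}
    (h : φ.1 (Additive.ofMul γ) = 0) : expChar n φ γ = 1 := by simp [expChar_apply, h]

theorem expChar_conj_T (n : ℕ) (φ : Lam N) {γ : Gamma0 N} {δ : SL(2, ℤ)} {m : ℤ}
    (h : (γ : SL(2, ℤ)) = δ * T ^ m * δ⁻¹) : expChar n φ γ = 1 := by
  refine expChar_eq_one_of_eq_zero n φ (φ.2 γ ?_)
  rw [h, Matrix.SpecialLinearGroup.coe_mul, Matrix.trace_mul_comm,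
    ← Matrix.SpecialLinearGroup.coe_mul,
    inv_mul_cancel_left, ModularGroup.coe_T_zpow, Matrix.trace_fin_two]
  norm_num

theorem expChar_add (n : ℕ) (φ ψ : Lam N) :
    expChar n (φ + ψ) = expChar n φ * expChar n ψ := by
  refine MonoidHom.ext fun γ => ?_
  rw [MonoidHom.mul_apply, expChar_apply, expChar_apply, expChar_apply, ← Complex.exp_add]
  congr 1
  simp only [Submodule.coe_add, AddMonoidHom.add_apply, Int.cast_add]
  ring

theorem expChar_zero (n : ℕ) : expChar n (0 : Lam N) = 1 :=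
  MonoidHom.ext fun γ => by simp [expChar_apply]

theorem expChar_pow_eq_one {n : ℕ} (hn : 0 < n) (φ : Lam N) (γ : Gamma0 N) :
    expChar n φ γ ^ n = 1 := by
  rw [expChar_apply, ← Complex.exp_nat_mul, mul_div_cancel₀ _ (Nat.cast_ne_zero.mpr hn.ne'),
    Complex.exp_eq_one_iff]
  exact ⟨φ.1 (Additive.ofMul γ), by ring⟩

theorem exp_eq_one_iff_dvd {n : ℕ} (hn : 0 < n) (a : ℤ) :
    Complex.exp (2 * Real.pi * Complex.I * (a : ℂ) / n) = 1 ↔ (n : ℤ) ∣ a := by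
  rw [Complex.exp_eq_one_iff]
  have hn0 : (n : ℂ) ≠ 0 := Nat.cast_ne_zero.mpr hn.ne'
  constructor
  · rintro ⟨k, hk⟩
    refine ⟨k, ?_⟩
    rw [div_eq_iff hn0] at hk
    have h : ((a : ℤ) : ℂ) = (((n : ℤ) * k : ℤ) : ℂ) := by
      refine mul_left_cancel₀ Complex.two_pi_I_ne_zero ?_
      push_cast
      linear_combination hk
    exact_mod_cast h
  · rintro ⟨k, rfl⟩
    exact ⟨k, by push_cast; field_simp⟩

theorem expChar_eq_one_iff {n : ℕ} (hn : 0 < n) (φ : Lam N) :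
    expChar n φ = 1 ↔ ∃ w : Lam N, φ = (n : ℤ) • w := by
  constructor
  · intro h
    have hd : ∀ γ, (n : ℤ) ∣ φ.1 γ := fun γ => (exp_eq_one_iff_dvd hn _).mp (by
      have := DFunLike.congr_fun h (Additive.toMul γ)
      rwa [expChar_apply, ofMul_toMul, MonoidHom.one_apply] at this)
    refine ⟨⟨AddMonoidHom.mk' (fun γ => φ.1 γ / n) (fun a b => ?_), fun γ hγ => ?_⟩, ?_⟩
    · rw [map_add, Int.add_ediv_of_dvd_left (hd a)]
    · show φ.1 _ / (n : ℤ) = 0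
      rw [φ.2 γ hγ, Int.zero_ediv]
    · refine Subtype.ext (AddMonoidHom.ext fun γ => ?_)
      simp [Int.mul_ediv_cancel' (hd γ)]
  · rintro ⟨w, rfl⟩
    refine MonoidHom.ext fun γ => ?_
    rw [expChar_apply, MonoidHom.one_apply, exp_eq_one_iff_dvd hn]
    exact ⟨w.1 (Additive.ofMul γ), by simp⟩

/-! ### elliptic points -/

theorem HasEllType.k_unique {τ : ℍ} {γ γ' : SL(2, ℤ)} {k k' : ℕ} (h : HasEllType τ γ k)
    (h' : HasEllType τ γ' k') : k = k' := by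
  have aux : ∀ δ δ' : SL(2, ℤ), δ • UpperHalfPlane.I ≠ δ' • UpperHalfPlane.ρ := fun δ δ' e => by
    have := congrArg ModFun.jFun e
    rw [← ModFun.jFun_eq_iff.mpr ⟨δ, rfl⟩, ← ModFun.jFun_eq_iff.mpr ⟨δ', rfl⟩, ModFun.jFun_I,
      ModFun.jFun_rho] at this
    norm_num at this
  rcases h with ⟨δ, e, -, rfl⟩ | ⟨δ, e, -, rfl⟩ <;>
    rcases h' with ⟨δ', e', -, rfl⟩ | ⟨δ', e', -, rfl⟩ <;> first
    | rfl
    | exact absurd (e.symm.trans e') (aux _ _)
    | exact absurd (e'.symm.trans e) (aux _ _)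

theorem HasEllType.pow_eq_one {τ : ℍ} {γ : SL(2, ℤ)} {k : ℕ} (h : HasEllType τ γ k) :
    γ ^ (2 * k) = 1 := by
  rcases h with ⟨δ, -, rfl, rfl⟩ | ⟨δ, -, rfl, rfl⟩ <;> rw [conj_pow]
  · rw [show S ^ (2 * 2) = (1 : SL(2, ℤ)) by decide, mul_one, mul_inv_cancel]
  · rw [show (S * T) ^ (2 * 3) = (1 : SL(2, ℤ)) by decide, mul_one, mul_inv_cancel]

theorem HasEllType.pos {τ : ℍ} {γ : SL(2, ℤ)} {k : ℕ} (h : HasEllType τ γ k) : 1 < k := by
  rcases h with ⟨δ, -, -, rfl⟩ | ⟨δ, -, -, rfl⟩ <;> norm_num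

/-- `k` divides the order at an elliptic point of an element with trivial multiplier -/
theorem HasEllType.dvd_ordAt {τ : ℍ} {γ : SL(2, ℤ)} {k : ℕ} (h : HasEllType τ γ k) {y : MeroH}
    (hy : y ≠ 0) (hc : pullSL γ⁻¹ y = y) : (k : ℤ) ∣ ordAt τ y := by
  have h1 := multiplier_fix hy h.smul_eq (c := 1) (by rw [hc, map_one, one_mul])
  rwa [eq_comm, (IsPrimitiveRoot.orderOf _).zpow_eq_one_iff_dvd, h.orderOf_eq] at h1

/-! ### from a divisible divisor to a character and back -/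

theorem ordAt_evH_eq_zero {τ : ℍ} (h : ∀ c : Qbar, embC c ≠ ModFun.jFun τ) {f : FN N}
    (hf : f ≠ 0) : ordAt τ (evH N f) = 0 := by
  by_contra hne
  obtain ⟨x, hx0, hx⟩ : ∃ x : FN N, x ≠ 0 ∧ ordAt τ (evH N x) < 0 := by
    rcases lt_or_gt_of_ne hne with h' | h'
    · exact ⟨f, hf, h'⟩
    · exact ⟨f⁻¹, inv_ne_zero hf, by rw [map_inv₀, ordAt_inv]; omega⟩
  let e : FN N →+* Genus.MeroGerm (τ : ℂ) := (germAt τ).toRingHom.comp (evH N).toRingHom
  have he : ∀ y : FN N, vlog ((ordVal (τ : ℂ)).comap e) y = ordAt τ (evH N y) := fun y => rfl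
  obtain ⟨w, g, hg, hw⟩ := Genus.exists_place_of_valuation (K := Qbar)
    ((ordVal (τ : ℂ)).comap e) (fun d => by
      rcases eq_or_ne d 0 with rfl | hd
      · simp
      · show ordVal (τ : ℂ) (germAt τ (evH N (algebraMap Qbar (FN N) d))) ≤ 1
        rw [AlgHom.commutes]
        refine le_of_eq ?_
        rw [← Genus.ordVal_algebraMap_qbar (z₀ := (τ : ℂ)) hd]
        exact congrArg _ ((germAt τ).commutes (embC d))) (x := x)
    (lt_of_not_ge fun hle => by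
      rcases (Genus.val_le_one_iff _).mp hle with h' | h'
      · exact hx0 h'
      · rw [he] at h'; omega)
  have hj := ModFun.transcendental_jBar N
  have hj0 : (ModFun.jBar N : FN N) ≠ 0 := fun e => hj (by rw [e]; exact isAlgebraic_zero)
  have hg' : (0 : ℤ) < g := by exact_mod_cast hg
  have h1 : 0 ≤ ordAt τ (evH N (ModFun.jBar N)) := by
    rw [evH_jBar]
    obtain ⟨m, -, hm⟩ := ordAt_ofH τ (f := ⟨ModFun.jFun, ModFun.mdiff_jFun⟩) (fun e => hj0
      ((map_eq_zero (evH N)).mp (by rw [evH_jBar, e, map_zero])))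
    rw [hm]; positivity
  rw [← he, hw _ hj0] at h1
  obtain ⟨c, hc⟩ := RR.exists_const_ord_pos (K := Qbar) (v := w) (f := ModFun.jBar N) (by nlinarith)
  rcases hc with hc | hc
  · exact hj (hc ▸ isAlgebraic_algebraMap c)
  have hu0 : (ModFun.jBar N : FN N) - algebraMap Qbar (FN N) c ≠ 0 := fun e => by
    rw [e, Place.ord_zero] at hc; exact lt_irrefl _ hc
  have h2 := hw _ hu0
  rw [he, map_sub, evH_algebraMap, evH_jBar, ← AlgHom.commutes (ofH), ← map_sub] at h2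
  rw [ordAt_ofH_eq_zero τ (by
    show ModFun.jFun τ - _ ≠ 0
    exact sub_ne_zero.mpr (h c).symm)] at h2
  nlinarith

/-- orders on `ℍ` of a function with divisible divisor -/
theorem dvd_ordAt_of_dvd_ord {n : ℕ} {f : FN N} (hf : f ≠ 0)
    (hdiv : ∀ v : Place Qbar (FN N), (n : ℤ) ∣ v.ord f) (τ : ℍ) :
    (n : ℤ) ∣ ordAt τ (evH N f) := by
  by_cases h : ∃ c : Qbar, embC c = ModFun.jFun τ
  · obtain ⟨c, hc⟩ := h
    obtain ⟨⟨w, -, hw | ⟨γ, k, -, -, hw⟩⟩, -⟩ := interior_exact N τ c hc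
    · rw [hw f hf]; exact hdiv w
    · rw [hw f hf]; exact (hdiv w).mul_left _
  · push Not at h
    rw [ordAt_evH_eq_zero h hf]
    exact dvd_zero _

theorem exists_datum {n : ℕ} (hn : 0 < n) {f : FN N} (hf : f ≠ 0)
    (hdiv : ∀ v : Place Qbar (FN N), (n : ℤ) ∣ v.ord f) :
    ∃ χ : Gamma0 N →* ℂ, IsTorsChar n χ ∧ Datum n χ f := by
  obtain ⟨M, A, B, hB, hA, -, -, hAB⟩ := exists_cusp_rep hf
  have hH : A * B ^ (n - 1) ≠ 0 := mul_ne_zero hA (pow_ne_zero _ hB)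
  obtain ⟨G, hG⟩ := exists_holRoot hn hH fun τ => by
    obtain ⟨d, hd⟩ := dvd_ordAt_of_dvd_ord hf hdiv τ
    rw [hAB, ordAt_div τ (ofH_ne_zero hA) (ofH_ne_zero hB)] at hd
    rw [map_mul, map_pow, ordAt_mul τ (ofH_ne_zero hA) (pow_ne_zero _ (ofH_ne_zero hB)), ordAt_pow]
    refine ⟨d + ordAt τ (ofH B), ?_⟩
    push_cast [Nat.cast_sub (Nat.one_le_iff_ne_zero.mpr hn.ne')]
    linear_combination hd
  set ψ := ofH G / ofH B
  have hψ : ψ ^ n = evH N f := by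
    rw [div_pow, ← map_pow, hG, map_mul, map_pow, hAB,
      show ofH B ^ n = ofH B * ofH B ^ (n - 1) by rw [← pow_succ', Nat.sub_add_cancel hn],
      mul_div_mul_right _ _ (pow_ne_zero _ (ofH_ne_zero hB))]
  have h0 := root_ne_zero hn hf hψ
  have hex : ∀ γ : Gamma0 N, ∃ c : ℂ, c ^ n = 1 ∧
      pullSL (γ : SL(2, ℤ)) ψ = algebraMap ℂ MeroH c * ψ := fun γ => by
    obtain ⟨a, ha, hae⟩ := exists_const_of_pow_eq hn (c := 1) (y := pullSL (γ : SL(2, ℤ)) ψ / ψ)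
      (by rw [div_pow, ← map_pow, hψ, evH_invariant γ.2, div_self ((map_ne_zero _).mpr hf),
        map_one])
    exact ⟨a, ha, (div_eq_iff h0).mp hae⟩
  choose c hc1 hc using hex
  have hmul : ∀ γ γ' : Gamma0 N, c (γ * γ') = c γ * c γ' := fun γ γ' => by
    refine algC_cancel h0 ?_
    rw [← hc, Subgroup.coe_mul,
      show pullSL ((γ : SL(2, ℤ)) * (γ' : SL(2, ℤ))) ψ =
        pullSL (γ' : SL(2, ℤ)) (pullSL (γ : SL(2, ℤ)) ψ) from ?_, hc, map_mul, AlgHom.commutes, hc,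
      map_mul]
    · ring
    · obtain ⟨a, b, hb, e⟩ := exists_ofH_div ψ
      simp only [e, map_div₀, pullSL_ofH, mul_smul]
  have hone : c 1 = 1 := by
    have h1 := hmul 1 1
    rw [one_mul] at h1
    have hne : c 1 ≠ 0 := fun e => by simpa [e, hn.ne'] using hc1 1
    exact mul_left_cancel₀ hne (h1.symm.trans (mul_one _).symm)
  let χ : Gamma0 N →* ℂ := { toFun := c, map_one' := hone, map_mul' := hmul }
  refine ⟨χ, ⟨hc1, ?_⟩, ψ, hψ, hc⟩
  have hell : ∀ (γ : Gamma0 N) (τ : ℍ) (k : ℕ), HasEllType τ (γ : SL(2, ℤ)) k → c γ = 1 := by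
    intro γ τ k hk
    have hcinv : c γ⁻¹ = 1 := by
      rw [multiplier_fix h0 hk.smul_eq (hc γ⁻¹), (IsPrimitiveRoot.orderOf _).zpow_eq_one_iff_dvd,
        hk.orderOf_eq]
      obtain ⟨cj, hcj⟩ : ∃ cj : Qbar, embC cj = ModFun.jFun τ := by
        rcases hk with ⟨δ, rfl, -, -⟩ | ⟨δ, rfl, -, -⟩
        · exact ⟨1728, by rw [← ModFun.jFun_eq_iff.mpr ⟨δ, rfl⟩, ModFun.jFun_I, map_ofNat]⟩
        · exact ⟨0, by rw [← ModFun.jFun_eq_iff.mpr ⟨δ, rfl⟩, ModFun.jFun_rho, map_zero]⟩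
      obtain ⟨⟨w, -, hw | ⟨γ', k', hk', -, hw⟩⟩, -⟩ := interior_exact N τ cj hcj
      · exfalso
        obtain ⟨π, hπ⟩ := IsDiscreteValuationRing.exists_irreducible w.toValuationSubring
        have hπ0 : (π : FN N) ≠ 0 := by simpa using hπ.ne_zero
        have := hk.dvd_ordAt (y := evH N (π : FN N)) ((map_ne_zero _).mpr hπ0)
          (evH_invariant (inv_mem γ.2) _)
        rw [hw _ hπ0, w.ord_coe_irreducible hπ] at this
        have := Int.le_of_dvd one_pos this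
        have := hk.pos
        omega
      · obtain rfl := hk.k_unique hk'
        have h2 := hw f hf
        rw [← hψ, ordAt_pow] at h2
        obtain ⟨d, hd⟩ := hdiv w
        refine ⟨d, mul_left_cancel₀ (Int.natCast_ne_zero.mpr hn.ne') ?_⟩
        rw [h2, hd]; ring
    have h1 := hmul γ γ⁻¹
    rw [mul_inv_cancel, hone, hcinv, mul_one] at h1
    exact h1.symm
  rintro γ ⟨δ, g, hg, hγ⟩
  rcases hg with rfl | rfl | rfl | ⟨m, rfl⟩
  · exact hell γ (δ • UpperHalfPlane.I) 2 (Or.inl ⟨δ, rfl, hγ, rfl⟩)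
  · exact hell γ (δ • UpperHalfPlane.ρ) 3 (Or.inr ⟨δ, rfl, hγ, rfl⟩)
  · refine algC_cancel h0 ?_
    show algebraMap ℂ MeroH (c γ) * ψ = _
    rw [← hc, hγ, mul_neg, neg_mul, mul_one, mul_inv_cancel, pullSL_neg_one, map_one, one_mul]
  · show c γ = 1
    rw [cusp_multiplier hn hf hψ δ m (hγ ▸ γ.2) (c := c γ) (hγ ▸ hc γ)]
    set i : CosetSpace N := QuotientGroup.mk δ⁻¹
    obtain ⟨w, -, hw⟩ := (cusp_exact N).1 i
    obtain ⟨d, hd⟩ := hdiv w
    obtain ⟨l, hl⟩ : (Function.minimalPeriod (fun y => T • y) i : ℤ) ∣ m := by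
      refine (MulAction.zpow_smul_eq_iff_period_dvd (g := T) (a := i)).mp ?_
      show T ^ m • QuotientGroup.mk δ⁻¹ = (QuotientGroup.mk δ⁻¹ : CosetSpace N)
      rw [MulAction.Quotient.smul_mk, smul_eq_mul, QuotientGroup.eq, mul_inv_rev, inv_inv]
      have := inv_mem γ.2
      rwa [hγ, mul_inv_rev, mul_inv_rev, inv_inv, ← mul_assoc] at this
    have he := hw f hf
    rw [hd] at he
    rw [Complex.exp_eq_one_iff]
    refine ⟨l * d, ?_⟩
    set v := vlog (ordVal (0 : ℂ)) ((Genus.cuspChart N).sigma i f)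
    have hc' : ((v : ℤ) : ℂ) * (m : ℂ) = (N : ℂ) * n * (l * d) := by
      have : v * m = (N : ℤ) * n * (l * d) := by
        rw [hl]; linear_combination l * he
      exact_mod_cast this
    have hn0 : (n : ℂ) ≠ 0 := Nat.cast_ne_zero.mpr hn.ne'
    have hN0 : (N : ℂ) ≠ 0 := Nat.cast_ne_zero.mpr (NeZero.ne N)
    push_cast
    field_simp
    linear_combination hc'

/-- a multiplier from the lattice forces a divisible divisor -/
theorem dvd_ord_of_datum {n : ℕ} (hn : 0 < n) {φ : Lam N} {f : FN N} (hf : f ≠ 0)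
    (h : Datum n (expChar n φ) f) (v : Place Qbar (FN N)) : (n : ℤ) ∣ v.ord f := by
  obtain ⟨ψ, hψ, hc⟩ := h
  have h0 := root_ne_zero hn hf hψ
  by_cases hv : v.ord (ModFun.jBar N) < 0
  · obtain ⟨i, -, hi⟩ := (cusp_exact N).2 v hv
    set m := Function.minimalPeriod (fun y => T • y) i
    have hmem : i.out⁻¹ * T ^ (m : ℤ) * i.out⁻¹⁻¹ ∈ Gamma0 N := by
      have hfix : T ^ (m : ℤ) • i = i := by
        rw [zpow_natCast]; exact Genus.smul_pow_minimalPeriod T i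
      rw [← QuotientGroup.out_eq' i, MulAction.Quotient.smul_mk, smul_eq_mul, QuotientGroup.eq]
        at hfix
      have := inv_mem hfix
      rw [mul_inv_rev, inv_inv, ← mul_assoc] at this
      rwa [inv_inv]
    have h1 := cusp_multiplier hn hf hψ i.out⁻¹ (m : ℤ) hmem (hc ⟨_, hmem⟩)
    rw [expChar_conj_T n φ (δ := i.out⁻¹) (m := (m : ℤ)) rfl, inv_inv, QuotientGroup.out_eq',
      eq_comm, Complex.exp_eq_one_iff] at h1
    obtain ⟨l, hl⟩ := h1
    have he := hi f hf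
    refine ⟨l, mul_left_cancel₀ (Int.natCast_ne_zero.mpr (NeZero.ne N)) ?_⟩
    rw [← he]
    set b := vlog (ordVal (0 : ℂ)) ((Genus.cuspChart N).sigma i f)
    have hn0 : (n : ℂ) ≠ 0 := Nat.cast_ne_zero.mpr hn.ne'
    have hN0 : (N : ℂ) ≠ 0 := Nat.cast_ne_zero.mpr (NeZero.ne N)
    rw [div_eq_iff (mul_ne_zero hN0 hn0)] at hl
    have : ((m : ℤ) : ℂ) * (b : ℂ) = (((N : ℤ) * ((n : ℤ) * l) : ℤ) : ℂ) := by
      refine mul_left_cancel₀ Complex.two_pi_I_ne_zero ?_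
      push_cast at hl ⊢
      linear_combination hl
    exact_mod_cast this
  · obtain ⟨c, hc'⟩ := RR.exists_const_ord_pos (K := Qbar) (not_lt.mp hv)
    rcases hc' with hc' | hc'
    · exact absurd (hc' ▸ isAlgebraic_algebraMap c) (ModFun.transcendental_jBar N)
    obtain ⟨τ, hτ⟩ := ModFun.jFun_surjective (embC c)
    obtain ⟨δ, g, hg, hgv⟩ := (interior_exact N τ c hτ.symm).2 v hc'
    obtain ⟨⟨w, -, hw⟩, -⟩ := interior_exact N (δ • τ) c
      (hτ.symm.trans (ModFun.jFun_eq_iff.mpr ⟨δ, rfl⟩))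
    obtain ⟨g', hg', hg2⟩ : ∃ g' : ℕ, 0 < g' ∧
        ∀ x : FN N, x ≠ 0 → ordAt (δ • τ) (evH N x) = g' * w.ord x := by
      rcases hw with hw | ⟨γ, k, hk, -, hw⟩
      · exact ⟨1, one_pos, fun x hx => by rw [hw x hx]; simp⟩
      · exact ⟨k, by have := hk.pos; omega, hw⟩
    obtain ⟨gn, rfl⟩ := Int.eq_ofNat_of_zero_le hg.le
    have hvw : v = w := Genus.place_ext_of_vlog (g := gn) (g' := g') (by omega) hg' fun x hx => by
      rw [← hgv x hx, ← hg2 x hx]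
    subst hvw
    have hpow := ordAt_pow (δ • τ) ψ n
    rw [hψ] at hpow
    rcases hw with hw | ⟨γ, k, hk, hγ, hw⟩
    · rw [hw f hf] at hpow
      exact ⟨_, hpow⟩
    · rw [hw f hf] at hpow
      have h1 : expChar n φ (⟨γ, hγ⟩⁻¹) = 1 := by
        refine expChar_eq_one_of_eq_zero n φ (Lam.apply_eq_zero_of_finOrder φ
          (k := 2 * k) (by have := hk.pos; omega) ?_)
        rw [inv_pow, inv_eq_one]
        exact Subtype.ext hk.pow_eq_one
      have h2 := hc (⟨γ, hγ⟩⁻¹)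
      rw [h1, map_one, one_mul] at h2
      obtain ⟨d, hd⟩ := hk.dvd_ordAt h0 h2
      refine ⟨d, mul_left_cancel₀ (Int.natCast_ne_zero.mpr (show k ≠ 0 by have := hk.pos; omega)) ?_⟩
      rw [hpow, hd]; ring

end FLTAgent.JTors
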