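import Mathlib

/-!
A nonvanishing Poincaré series with a unitary multiplier.
-/

set_option autoImplicit false
set_option linter.all false

noncomputable section

open UpperHalfPlane Filter Topology Complex
open scoped MatrixGroups ModularForm Manifold

namespace FLTAgent.JTors.Poincare

/-- upper row -/
def row0 (g : SL(2, ℤ)) : Fin 2 → ℤ := ![g.1 0 0, g.1 0 1]

/-- lower row -/
def row1 (g : SL(2, ℤ)) : Fin 2 → ℤ := ![g.1 1 0, g.1 1 1]

/-- linear form -/
def lin (v : Fin 2 → ℤ) (z : ℂ) : ℂ := (v 0 : ℂ) * z + (v 1 : ℂ)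

theorem lin_row0 (g : SL(2, ℤ)) (z : ℂ) : lin (row0 g) z = g.1 0 0 * z + g.1 0 1 := rfl

theorem lin_row1 (g : SL(2, ℤ)) (z : ℂ) : lin (row1 g) z = g.1 1 0 * z + g.1 1 1 := rfl

theorem det_eq (g : SL(2, ℤ)) : g.1 0 0 * g.1 1 1 - g.1 0 1 * g.1 1 0 = 1 := by
  rw [← Matrix.det_fin_two]; exact g.2

theorem row0_ne_zero (g : SL(2, ℤ)) : row0 g ≠ 0 := by
  intro h
  have h0 : g.1 0 0 = 0 := congrFun h 0
  have h1 : g.1 0 1 = 0 := congrFun h 1
  have := det_eq g
  rw [h0, h1] at this; simp at this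

theorem row1_ne_zero (g : SL(2, ℤ)) : row1 g ≠ 0 := by
  intro h
  have h0 : g.1 1 0 = 0 := congrFun h 0
  have h1 : g.1 1 1 = 0 := congrFun h 1
  have := det_eq g
  rw [h0, h1] at this; simp at this

theorem lin_row1_ne_zero (g : SL(2, ℤ)) {z : ℂ} (hz : 0 < z.im) : lin (row1 g) z ≠ 0 := by
  intro h
  rw [lin_row1] at h
  have him := congrArg Complex.im h
  simp at him
  rcases him with him | him
  · have hd : g.1 1 1 = 0 := by rw [him] at h; simpa using h
    have := det_eq g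
    rw [him, hd] at this; simp at this
  · exact hz.ne' him

theorem smul_coe (g : SL(2, ℤ)) (z : ℍ) :
    ((g • z : ℍ) : ℂ) = lin (row0 g) z / lin (row1 g) z := by
  rw [coe_specialLinearGroup_apply]
  simp [lin, row0, row1]

theorem denom_eq (g : SL(2, ℤ)) (z : ℍ) : denom g (z : ℂ) = lin (row1 g) z := by
  rw [ModularGroup.denom_apply]; rfl

theorem rows_injective : Function.Injective fun g : SL(2, ℤ) => (row0 g, row1 g) := by
  intro g h e
  obtain ⟨e0, e1⟩ := Prod.mk.inj e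
  apply Subtype.ext
  ext i j
  fin_cases i <;> fin_cases j
  exacts [congrFun e0 0, congrFun e0 1, congrFun e1 0, congrFun e1 1]

/-- the majorant -/
def wt (v : Fin 2 → ℤ) : ℝ := (‖v‖ ^ 6)⁻¹

theorem summable_wt : Summable wt := by
  refine (EisensteinSeries.summable_one_div_norm_rpow (k := 6) (by norm_num)).congr fun v => ?_
  rw [Real.rpow_neg (norm_nonneg _), wt]
  norm_cast

theorem summable_wt_prod :
    Summable fun p : (Fin 2 → ℤ) × (Fin 2 → ℤ) => wt p.1 * wt p.2 :=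
  summable_wt.mul_of_nonneg summable_wt (fun v => by unfold wt; positivity)
    (fun v => by unfold wt; positivity)

/-- the majorant on the group -/
def wtG (g : SL(2, ℤ)) : ℝ := wt (row0 g) * wt (row1 g)

theorem wtG_nonneg (g : SL(2, ℤ)) : 0 ≤ wtG g := by unfold wtG wt; positivity

theorem summable_wtG {ι : Type*} {f : ι → SL(2, ℤ)} (hf : Function.Injective f) :
    Summable fun i => wtG (f i) := by
  have h : Function.Injective fun i => (row0 (f i), row1 (f i)) := rows_injective.comp hf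
  exact (summable_wt_prod.comp_injective h).congr fun i => rfl

/-- the total mass of the majorant -/
def mass : ℝ := ∑' p : (Fin 2 → ℤ) × (Fin 2 → ℤ), wt p.1 * wt p.2

theorem tsum_wtG_le {ι : Type*} {f : ι → SL(2, ℤ)} (hf : Function.Injective f) :
    ∑' i, wtG (f i) ≤ mass := by
  have h : Function.Injective fun i => (row0 (f i), row1 (f i)) := rows_injective.comp hf
  unfold mass
  refine Summable.tsum_le_tsum_of_inj (fun i => (row0 (f i), row1 (f i))) h
    (fun p _ => ?_) (fun i => ?_) (summable_wtG hf) summable_wt_prod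
  · unfold wt; positivity
  · exact le_rfl

variable (w : ℍ) (Ec : ℂ → ℂ)

/-- the seed on `ℂ` -/
def seed (ζ : ℂ) : ℂ := ((ζ + Complex.I) ^ 11)⁻¹ * dslope Ec (w : ℂ) ζ

/-- the translate of the seed by `g`, weight `24` -/
def kern (g : SL(2, ℤ)) (z : ℂ) : ℂ :=
  (lin (row1 g) z ^ 24)⁻¹ * seed w Ec (lin (row0 g) z / lin (row1 g) z)

/-- the seed on `ℍ` -/
def seedH : ℍ → ℂ := fun z => seed w Ec z

theorem slash_seedH (g : SL(2, ℤ)) : seedH w Ec ∣[(24 : ℤ)] g = fun z : ℍ => kern w Ec g z := by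
  funext z
  rw [ModularForm.SL_slash_apply, kern, seedH, smul_coe, denom_eq, zpow_neg, mul_comm]
  norm_cast

theorem kern_mul (g h : SL(2, ℤ)) (z : ℍ) :
    kern w Ec g (h • z : ℍ) * denom h (z : ℂ) ^ (-(24 : ℤ)) = kern w Ec (g * h) z := by
  have := congrFun (slash_seedH w Ec (g * h)) z
  rw [SlashAction.slash_mul, slash_seedH, ModularForm.SL_slash_apply] at this
  exact this

structure Data (k : ℂ → ℂ) : Prop where
  diff : DifferentiableOn ℂ k upperHalfPlaneSet
  zero : k (w : ℂ) = 0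
  mod : ∀ (g : SL(2, ℤ)) (z : ℍ), k (lin (row0 g) z / lin (row1 g) z) =
    lin (row1 g) z ^ 12 * k z
  bdd : IsBoundedAtImInfty fun z : ℍ => k z

variable {w Ec}

theorem differentiableOn_seed (hE : Data w Ec) :
    DifferentiableOn ℂ (seed w Ec) upperHalfPlaneSet := by
  refine DifferentiableOn.mul (fun ζ hζ => ?_) ?_
  · refine DifferentiableAt.differentiableWithinAt ?_
    refine (((differentiableAt_id).add_const Complex.I).pow 11).inv (pow_ne_zero 11 fun h => ?_)
    have := congrArg Complex.im h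
    have hζ' : 0 < ζ.im := hζ
    simp at this
    linarith
  · exact (Complex.differentiableOn_dslope (isOpen_upperHalfPlaneSet.mem_nhds w.im_pos)).2 hE.diff

theorem differentiableOn_kern (hE : Data w Ec) (g : SL(2, ℤ)) :
    DifferentiableOn ℂ (kern w Ec g) upperHalfPlaneSet := by
  intro z hz
  have hne := lin_row1_ne_zero g (z := z) hz
  have hlin : ∀ v, DifferentiableAt ℂ (lin v) z := fun v =>
    ((differentiableAt_id).const_mul _).add_const _
  refine (DifferentiableAt.mul (((hlin _).pow 24).inv (pow_ne_zero 24 hne)) ?_).differentiableWithinAt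
  have him : (lin (row0 g) z / lin (row1 g) z) ∈ upperHalfPlaneSet := by
    have := (g • (⟨z, hz⟩ : ℍ)).im_pos
    rw [← UpperHalfPlane.coe_im, smul_coe g ⟨z, hz⟩] at this
    exact this
  exact ((differentiableOn_seed hE).differentiableAt (isOpen_upperHalfPlaneSet.mem_nhds him)).comp z
    ((hlin _).div (hlin _) hne)

theorem norm_add_I_sq (g : SL(2, ℤ)) (z : ℍ) :
    ‖lin (row0 g) z‖ ^ 2 + ‖lin (row1 g) z‖ ^ 2 ≤ ‖lin (row0 g) z + Complex.I * lin (row1 g) z‖ ^ 2 := by
  have h := det_eq g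
  have h' : (g.1 0 0 : ℝ) * g.1 1 1 - g.1 0 1 * g.1 1 0 = 1 := by exact_mod_cast h
  simp only [← Complex.normSq_eq_norm_sq, lin_row0, lin_row1, Complex.normSq_apply]
  simp
  nlinarith [z.im_pos]

theorem exists_bound (hE : Data w Ec) : ∃ C : ℝ, 0 ≤ C ∧ ∀ (g : SL(2, ℤ)) (z : ℍ),
    ‖kern w Ec g z‖ ≤ C * (‖Ec z‖ + (EisensteinSeries.r z ^ 12)⁻¹) *
      (EisensteinSeries.r z ^ 12)⁻¹ * wtG g := by
  set ε : ℝ := (w : ℂ).im / 2 with hε
  have hε0 : 0 < ε := by rw [hε]; have := w.im_pos; positivity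
  have hsub : Metric.closedBall (w : ℂ) ε ⊆ upperHalfPlaneSet := by
    intro ζ hζ
    have h1 : |(ζ - w).im| ≤ ε := (Complex.abs_im_le_norm _).trans (by
      simpa [Metric.mem_closedBall, dist_eq_norm] using hζ)
    show 0 < ζ.im
    rw [Complex.sub_im] at h1
    have := w.im_pos
    have := (abs_le.1 h1).1
    simp only [UpperHalfPlane.coe_im, hε] at *
    linarith
  obtain ⟨M, hM⟩ := (isCompact_closedBall (w : ℂ) ε).exists_bound_of_continuousOn
    (((Complex.differentiableOn_dslope (isOpen_upperHalfPlaneSet.mem_nhds w.im_pos)).2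
      hE.diff).continuousOn.mono hsub)
  set R : ℝ := ‖(w : ℂ)‖ + ε with hR
  set c1 : ℝ := 1 + ‖(w : ℂ) + Complex.I‖ / ε with hc1
  set M' := max M 0 with hM'
  refine ⟨c1 + M' * R ^ 6, by positivity, fun g z => ?_⟩
  set a := lin (row0 g) (z : ℂ) with ha
  set b := lin (row1 g) (z : ℂ) with hb
  have hb0 : b ≠ 0 := lin_row1_ne_zero g z.im_pos
  have ha0 : a ≠ 0 := by
    intro h
    have h1 := (g • z).im_pos
    rw [← UpperHalfPlane.coe_im, smul_coe, ← ha, h, zero_div] at h1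
    simp at h1
  set r := EisensteinSeries.r z with hr
  have hr0 : 0 < r := EisensteinSeries.r_pos z
  have hbnd : ∀ v : Fin 2 → ℤ, v ≠ 0 → r ^ 6 * ‖v‖ ^ 6 ≤ ‖lin v z‖ ^ 6 := by
    intro v hv
    rw [← mul_pow]
    exact pow_le_pow_left₀ (by positivity) (EisensteinSeries.r_mul_max_le z hv) 6
  have hna : 0 < ‖row0 g‖ := norm_pos_iff.2 (row0_ne_zero g)
  have hnb : 0 < ‖row1 g‖ := norm_pos_iff.2 (row1_ne_zero g)
  have hab : (‖a‖ ^ 6 * ‖b‖ ^ 6)⁻¹ ≤ (r ^ 12)⁻¹ * wtG g := by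
    rw [wtG, wt, wt, ← mul_inv, ← mul_inv]
    refine inv_anti₀ (by positivity) ?_
    calc r ^ 12 * (‖row0 g‖ ^ 6 * ‖row1 g‖ ^ 6) = (r ^ 6 * ‖row0 g‖ ^ 6) * (r ^ 6 * ‖row1 g‖ ^ 6) := by
          ring
      _ ≤ ‖a‖ ^ 6 * ‖b‖ ^ 6 := by
          refine mul_le_mul (hbnd _ (row0_ne_zero g)) (hbnd _ (row1_ne_zero g)) (by positivity)
            (by positivity)
  have hQ : 0 < ‖a‖ ^ 6 * ‖b‖ ^ 6 := by positivity
  suffices h : ‖kern w Ec g z‖ ≤
      (c1 + M' * R ^ 6) * (‖Ec z‖ + (r ^ 12)⁻¹) * (‖a‖ ^ 6 * ‖b‖ ^ 6)⁻¹ by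
    refine h.trans ?_
    rw [mul_assoc _ (r ^ 12)⁻¹]
    exact mul_le_mul_of_nonneg_left hab (by positivity)
  by_cases hnear : ‖a / b - w‖ ≤ ε
  · have hmem : a / b ∈ Metric.closedBall (w : ℂ) ε := by
      simpa [Metric.mem_closedBall, dist_eq_norm] using hnear
    have hds : ‖dslope Ec w (a / b)‖ ≤ M' := (hM _ hmem).trans (le_max_left _ _)
    have him : 0 < (a / b).im := hsub hmem
    have hI : 1 ≤ ‖a / b + Complex.I‖ := le_trans (by simp; linarith) ((le_abs_self _).trans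
      (Complex.abs_im_le_norm _))
    have haR : ‖a‖ ≤ R * ‖b‖ := by
      have h1 : ‖a / b‖ ≤ R := by
        calc ‖a / b‖ ≤ ‖(a / b - w)‖ + ‖(w : ℂ)‖ := norm_le_norm_sub_add _ _
          _ ≤ R := by rw [hR]; linarith
      rwa [norm_div, div_le_iff₀ (norm_pos_iff.2 hb0)] at h1
    have hb6 : r ^ 6 ≤ ‖b‖ ^ 6 := by
      refine le_trans ?_ (hbnd _ (row1_ne_zero g))
      refine le_mul_of_one_le_right (by positivity) (one_le_pow₀ ?_)
      rw [EisensteinSeries.norm_eq_max_natAbs]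
      have : 1 ≤ max (row1 g 0).natAbs (row1 g 1).natAbs := by
        by_contra hh
        apply row1_ne_zero g
        ext i
        fin_cases i <;> simp <;> omega
      exact_mod_cast this
    calc ‖kern w Ec g z‖ = (‖b‖ ^ 24)⁻¹ * ((‖a / b + Complex.I‖ ^ 11)⁻¹ * ‖dslope Ec w (a / b)‖) := by
          simp only [kern, seed, ← ha, ← hb, norm_mul, norm_inv, norm_pow]
      _ ≤ (‖b‖ ^ 24)⁻¹ * (1 * M') := by
          gcongr
          exact inv_le_one_of_one_le₀ (one_le_pow₀ hI)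
      _ ≤ M' * R ^ 6 * (r ^ 12)⁻¹ * (‖a‖ ^ 6 * ‖b‖ ^ 6)⁻¹ := by
          have h1 : ‖a‖ ^ 6 ≤ R ^ 6 * ‖b‖ ^ 6 := by
            rw [← mul_pow]; exact pow_le_pow_left₀ (norm_nonneg _) haR 6
          have h2 : r ^ 12 ≤ ‖b‖ ^ 12 := by
            calc r ^ 12 = r ^ 6 * r ^ 6 := by ring
              _ ≤ ‖b‖ ^ 6 * ‖b‖ ^ 6 := mul_le_mul hb6 hb6 (by positivity) (by positivity)
              _ = _ := by ring
          have key : r ^ 12 * (‖a‖ ^ 6 * ‖b‖ ^ 6) ≤ R ^ 6 * ‖b‖ ^ 24 := by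
            calc r ^ 12 * (‖a‖ ^ 6 * ‖b‖ ^ 6) ≤ ‖b‖ ^ 12 * (R ^ 6 * ‖b‖ ^ 6 * ‖b‖ ^ 6) := by
                  gcongr
              _ = _ := by ring
          have hb24 : 0 < ‖b‖ ^ 24 := pow_pos (norm_pos_iff.2 hb0) 24
          have hr12 : 0 < r ^ 12 := pow_pos hr0 12
          rw [one_mul, show M' * R ^ 6 * (r ^ 12)⁻¹ * (‖a‖ ^ 6 * ‖b‖ ^ 6)⁻¹ =
            M' * (R ^ 6 / (r ^ 12 * (‖a‖ ^ 6 * ‖b‖ ^ 6))) by field_simp, mul_comm (‖b‖ ^ 24)⁻¹]
          refine mul_le_mul_of_nonneg_left ?_ (le_max_right _ _)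
          rw [inv_le_iff_one_le_mul₀' hb24, ← mul_div_assoc, one_le_div (mul_pos hr12 hQ)]
          linarith [key]
      _ ≤ _ := by
          refine mul_le_mul_of_nonneg_right ?_ (by positivity)
          exact mul_le_mul (le_add_of_nonneg_left (by positivity))
            (le_add_of_nonneg_left (norm_nonneg _)) (by positivity) (by positivity)
  · push Not at hnear
    have hne : a / b ≠ w := fun h => by rw [h, sub_self, norm_zero] at hnear; linarith
    have hval : kern w Ec g z = Ec z * ((b * (a / b + Complex.I)) ^ 11 * (b * (a / b - w)))⁻¹ := by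
      rw [kern, ← ha, ← hb, seed, dslope_of_ne _ hne, slope_def_field, hE.zero, sub_zero,
        hE.mod g z, ← hb]
      field_simp
    set q := ‖b * (a / b + Complex.I)‖ with hq
    have hq' : q = ‖a + Complex.I * b‖ := by
      rw [hq]; congr 1; field_simp
    have hsq := norm_add_I_sq g z
    rw [← ha, ← hb, ← hq'] at hsq
    have hq2 : ‖a‖ * ‖b‖ ≤ q ^ 2 := by nlinarith [sq_nonneg (‖a‖ - ‖b‖)]
    have hq12 : ‖a‖ ^ 6 * ‖b‖ ^ 6 ≤ q ^ 12 := by
      calc ‖a‖ ^ 6 * ‖b‖ ^ 6 = (‖a‖ * ‖b‖) ^ 6 := by ring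
        _ ≤ (q ^ 2) ^ 6 := pow_le_pow_left₀ (by positivity) hq2 6
        _ = _ := by ring
    have hq0 : 0 < q := norm_pos_iff.2 (by
      intro h
      rw [hq, h, norm_zero] at hq12
      simp at hq12
      linarith)
    have hqc : q ≤ c1 * ‖b * (a / b - w)‖ := by
      rw [hq, norm_mul, norm_mul, mul_comm c1, mul_assoc]
      refine mul_le_mul_of_nonneg_left ?_ (norm_nonneg _)
      calc ‖a / b + Complex.I‖ = ‖(a / b - w) + (w + Complex.I)‖ := by congr 1; ring
        _ ≤ ‖a / b - w‖ + ‖(w : ℂ) + Complex.I‖ := norm_add_le _ _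
        _ ≤ ‖a / b - w‖ * c1 := by
          rw [hc1, mul_add, mul_one, add_le_add_iff_left, mul_div_assoc', le_div_iff₀ hε0,
            mul_comm ‖a / b - w‖]
          exact mul_le_mul_of_nonneg_left hnear.le (norm_nonneg _)
    calc ‖kern w Ec g z‖ = ‖Ec z‖ * (q ^ 11 * ‖b * (a / b - w)‖)⁻¹ := by
          rw [hval, norm_mul, norm_inv, norm_mul, norm_pow]
      _ ≤ ‖Ec z‖ * (c1 * (‖a‖ ^ 6 * ‖b‖ ^ 6)⁻¹) := by
          refine mul_le_mul_of_nonneg_left ?_ (norm_nonneg _)
          have hc0 : 0 < c1 := by positivity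
          calc (q ^ 11 * ‖b * (a / b - w)‖)⁻¹ ≤ (q ^ 11 * (q / c1))⁻¹ := by
                refine inv_anti₀ (by positivity) (mul_le_mul_of_nonneg_left ?_ (by positivity))
                rw [div_le_iff₀ hc0, mul_comm]; exact hqc
            _ = c1 * (q ^ 12)⁻¹ := by field_simp
            _ ≤ _ := mul_le_mul_of_nonneg_left (inv_anti₀ hQ hq12) hc0.le
      _ = c1 * ‖Ec z‖ * (‖a‖ ^ 6 * ‖b‖ ^ 6)⁻¹ := by ring
      _ ≤ _ := by
          refine mul_le_mul_of_nonneg_right ?_ (by positivity)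
          exact mul_le_mul (le_add_of_nonneg_right (by positivity))
            (le_add_of_nonneg_right (by positivity)) (norm_nonneg _) (by positivity)

variable (w Ec) {Γ : Subgroup SL(2, ℤ)} (χ : Γ →* ℂ)

/-- the translated series -/
def series (g : SL(2, ℤ)) (z : ℂ) : ℂ :=
  ∑' γ : Γ, χ γ⁻¹ * kern w Ec ((γ : SL(2, ℤ)) * g) z

/-- the series on `ℍ` -/
def seriesH : ℍ → ℂ := fun z => series w Ec χ 1 z

theorem slash_seriesH (g : SL(2, ℤ)) :
    seriesH w Ec χ ∣[(24 : ℤ)] g = fun z : ℍ => series w Ec χ g z := by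
  funext z
  rw [ModularForm.SL_slash_apply, seriesH, series, series, ← tsum_mul_right]
  refine tsum_congr fun γ => ?_
  rw [mul_one, mul_assoc, kern_mul]

theorem series_mul (γ₀ : Γ) (z : ℂ) :
    series w Ec χ (γ₀ : SL(2, ℤ)) z = χ γ₀ * series w Ec χ 1 z := by
  rw [series, series, ← tsum_mul_left, ← (Equiv.mulRight γ₀⁻¹).tsum_eq]
  refine tsum_congr fun γ => ?_
  simp only [Equiv.coe_mulRight, mul_inv_rev, inv_inv, map_mul, Subgroup.coe_mul, Subgroup.coe_inv,
    mul_assoc, inv_mul_cancel, mul_one]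

variable {w Ec} {χ}

theorem norm_term_le (hχ : ∀ γ, ‖χ γ‖ = 1) {C : ℝ} {g : SL(2, ℤ)} {z : ℂ}
    (h : ‖kern w Ec g z‖ ≤ C) (γ : Γ) : ‖χ γ * kern w Ec g z‖ ≤ C := by
  rwa [norm_mul, hχ, one_mul]

theorem differentiableOn_series (hE : Data w Ec) (hχ : ∀ γ, ‖χ γ‖ = 1) (g : SL(2, ℤ)) :
    DifferentiableOn ℂ (series w Ec χ g) upperHalfPlaneSet := by
  obtain ⟨C, hC, hb⟩ := exists_bound hE
  intro x hx
  have hx' : 0 < x.im := hx
  set U := Metric.ball x (x.im / 2) with hU
  have hUsub : U ⊆ upperHalfPlaneSet ∧ ∀ y ∈ U, x.im / 2 ≤ y.im ∧ |y.re| ≤ |x.re| + x.im / 2 := by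
    have key : ∀ y ∈ U, x.im / 2 ≤ y.im ∧ |y.re| ≤ |x.re| + x.im / 2 := by
      intro y hy
      rw [hU, Metric.mem_ball, dist_eq_norm] at hy
      have h1 := (Complex.abs_im_le_norm (y - x)).trans hy.le
      have h2 := (Complex.abs_re_le_norm (y - x)).trans hy.le
      rw [Complex.sub_im] at h1
      rw [Complex.sub_re] at h2
      exact ⟨by linarith [(abs_le.1 h1).1], by linarith [abs_sub_abs_le_abs_sub y.re x.re]⟩
    exact ⟨fun y hy => lt_of_lt_of_le (half_pos hx') (key y hy).1, key⟩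
  obtain ⟨ME, hME⟩ := (isCompact_closedBall x (x.im / 2)).exists_bound_of_continuousOn
    (hE.diff.continuousOn.mono fun y hy => by
      rw [Metric.mem_closedBall, dist_eq_norm] at hy
      have h1 := (Complex.abs_im_le_norm (y - x)).trans hy
      rw [Complex.sub_im] at h1
      show 0 < y.im
      linarith [(abs_le.1 h1).1])
  set r0 := EisensteinSeries.r ⟨⟨|x.re| + x.im / 2, x.im / 2⟩, half_pos hx'⟩ with hr0
  have hr0p : 0 < r0 := EisensteinSeries.r_pos _
  set K := C * (max ME 0 + (r0 ^ 12)⁻¹) * (r0 ^ 12)⁻¹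
  have hKle : ∀ (γ : Γ) (y : ℂ), y ∈ U →
      ‖χ γ⁻¹ * kern w Ec ((γ : SL(2, ℤ)) * g) y‖ ≤ K * wtG ((γ : SL(2, ℤ)) * g) := by
    intro γ y hy
    refine norm_term_le hχ ?_ γ⁻¹
    have hy0 : 0 < y.im := hUsub.1 hy
    have hstrip : (⟨y, hy0⟩ : ℍ) ∈ verticalStrip (|x.re| + x.im / 2) (x.im / 2) :=
      ⟨(hUsub.2 y hy).2, (hUsub.2 y hy).1⟩
    have hrle := EisensteinSeries.r_lower_bound_on_verticalStrip ⟨y, hy0⟩ (half_pos hx') hstrip
    have hinv : (EisensteinSeries.r ⟨y, hy0⟩ ^ 12)⁻¹ ≤ (r0 ^ 12)⁻¹ :=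
      inv_anti₀ (by positivity) (pow_le_pow_left₀ hr0p.le hrle 12)
    refine (hb _ ⟨y, hy0⟩).trans (mul_le_mul_of_nonneg_right ?_ (wtG_nonneg _))
    refine mul_le_mul (mul_le_mul_of_nonneg_left (add_le_add ?_ hinv) hC) hinv (by positivity)
      (by positivity)
    exact (hME y (Metric.ball_subset_closedBall hy)).trans (le_max_left _ _)
  have hdiff : DifferentiableOn ℂ (series w Ec χ g) U :=
    Complex.differentiableOn_tsum_of_summable_norm
      ((summable_wtG (f := fun γ : Γ => (γ : SL(2, ℤ)) * g)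
        (fun a b h => Subtype.ext (mul_right_cancel h))).mul_left K)
      (fun γ => ((differentiableOn_kern hE _).mono hUsub.1).const_mul _) Metric.isOpen_ball hKle
  exact (hdiff.differentiableAt
    (Metric.ball_mem_nhds x (half_pos hx'))).differentiableWithinAt

theorem exists_bound_series (hE : Data w Ec) (hχ : ∀ γ, ‖χ γ‖ = 1) :
    ∃ A B : ℝ, ∀ (g : SL(2, ℤ)) (z : ℍ), A ≤ z.im → ‖series w Ec χ g z‖ ≤ B := by
  obtain ⟨C, hC, hb⟩ := exists_bound hE
  obtain ⟨ME, A0, hME⟩ := UpperHalfPlane.isBoundedAtImInfty_iff.1 hE.bdd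
  set r0 := EisensteinSeries.r ⟨⟨1, 1⟩, one_pos⟩
  have hr0p : 0 < r0 := EisensteinSeries.r_pos _
  set K := C * (max ME 0 + (r0 ^ 12)⁻¹) * (r0 ^ 12)⁻¹
  have hK0 : 0 ≤ K := by positivity
  have strip : ∀ (g : SL(2, ℤ)) (z : ℍ), max A0 1 ≤ z.im → |z.re| ≤ 1 →
      ‖series w Ec χ g z‖ ≤ K * mass := by
    intro g z hz hre
    have hinj : Function.Injective fun γ : Γ => (γ : SL(2, ℤ)) * g :=
      fun a b h => Subtype.ext (mul_right_cancel h)
    have hinv : (EisensteinSeries.r z ^ 12)⁻¹ ≤ (r0 ^ 12)⁻¹ :=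
      inv_anti₀ (by positivity) (pow_le_pow_left₀ hr0p.le
        (EisensteinSeries.r_lower_bound_on_verticalStrip z one_pos
          ⟨hre, (le_max_right _ _).trans hz⟩) 12)
    refine (tsum_of_norm_bounded ((summable_wtG hinj).mul_left K).hasSum fun γ => ?_).trans ?_
    · refine norm_term_le hχ ((hb _ z).trans (mul_le_mul_of_nonneg_right ?_ (wtG_nonneg _))) γ⁻¹
      refine mul_le_mul (mul_le_mul_of_nonneg_left (add_le_add ?_ hinv) hC) hinv (by positivity)
        (by positivity)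
      exact (hME z ((le_max_left _ _).trans hz)).trans (le_max_left _ _)
    · rw [tsum_mul_left]
      exact mul_le_mul_of_nonneg_left (tsum_wtG_le hinj) hK0
  refine ⟨max A0 1, K * mass, fun g z hz => ?_⟩
  set n : ℤ := ⌊z.re⌋
  set z' : ℍ := ModularGroup.T ^ (-n) • z with hz'
  have him : z'.im = z.im := by
    rw [hz', ModularGroup.im_T_zpow_smul]
  have hre : |z'.re| ≤ 1 := by
    rw [hz', ModularGroup.re_T_zpow_smul]
    push_cast
    have h1 := Int.floor_le z.re
    have h2 := Int.lt_floor_add_one z.re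
    rw [abs_le]
    constructor <;> linarith
  have e : series w Ec χ g z = series w Ec χ (g * ModularGroup.T ^ n) z' := by
    have h1 := congrFun (slash_seriesH w Ec χ (g * ModularGroup.T ^ n)) z'
    rw [SlashAction.slash_mul, slash_seriesH, ModularForm.SL_slash_apply] at h1
    rw [← h1, hz', smul_smul, ← zpow_add, add_neg_cancel, zpow_zero, one_smul, denom_eq,
      lin_row1, ModularGroup.coe_T_zpow]
    simp
  rw [e]
  exact strip _ _ (him ▸ hz) hre

/-- the weight twelve Eisenstein series -/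
def E12 : ModularForm 𝒮ℒ (12 : ℕ) := ModularForm.E (k := 12) (by norm_num)

theorem E12_not_mul (C : ℂ) : ¬ ∀ z : ℍ, E12 z = C * ModularForm.discriminant z := by
  intro h
  have h0 : (qExpansion 1 E12).coeff 0 = 0 := by
    have e : (E12 : ℍ → ℂ) = C • (CuspForm.discriminant : ℍ → ℂ) := by
      funext z; simpa using h z
    rw [e, UpperHalfPlane.qExpansion_smul
      (ModularFormClass.analyticAt_cuspFunction_zero CuspForm.discriminant one_pos
        one_mem_strictPeriods_SL), map_smul,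
      CuspFormClass.qExpansion_coeff_zero CuspForm.discriminant one_pos one_mem_strictPeriods_SL,
      smul_zero]
  exact one_ne_zero ((EisensteinSeries.E_qExpansion_coeff_zero (k := 12) (by norm_num)
    ⟨6, rfl⟩).symm.trans h0)

theorem mdiff_form {k : ℤ} (f : ModularForm 𝒮ℒ k) :
    DifferentiableOn ℂ ((f : ℍ → ℂ) ∘ ofComplex) upperHalfPlaneSet :=
  UpperHalfPlane.mdifferentiable_iff.1 (ModularFormClass.holo f)

theorem diff_disc : DifferentiableOn ℂ (ModularForm.discriminant ∘ ofComplex) upperHalfPlaneSet :=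
  UpperHalfPlane.mdifferentiable_iff.1 (CuspFormClass.holo CuspForm.discriminant)

theorem exists_data : ∃ (w : ℍ) (Ec : ℂ → ℂ), Data w Ec ∧ deriv Ec w ≠ 0 ∧
    ∀ g : SL(2, ℤ), g • w = w → g = 1 ∨ g = -1 := by
  set U : Set ℂ := Metric.ball (2 * Complex.I) (1 / 4) with hU
  have key : ∀ y ∈ U, 7 / 4 < y.im ∧ |y.re| < 1 / 4 := by
    intro y hy
    rw [hU, Metric.mem_ball, dist_eq_norm] at hy
    have h1 := (Complex.abs_im_le_norm (y - 2 * Complex.I)).trans_lt hy
    have h2 := (Complex.abs_re_le_norm (y - 2 * Complex.I)).trans_lt hy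
    simp at h1 h2
    exact ⟨by linarith [(abs_lt.1 h1).1], by simpa using h2⟩
  have hUH : U ⊆ upperHalfPlaneSet := fun y hy => show 0 < y.im by linarith [(key y hy).1]
  have hfdo : ∀ y (hy : y ∈ U), (⟨y, hUH hy⟩ : ℍ) ∈ ModularGroup.fdo := by
    intro y hy
    obtain ⟨h1, h2⟩ := key y hy
    refine ⟨?_, ?_⟩
    · show 1 < Complex.normSq y
      rw [Complex.normSq_apply]; nlinarith
    · show |y.re| < 1 / 2
      linarith
  set f1 := (E12 : ℍ → ℂ) ∘ ofComplex with hf1
  set f2 := ModularForm.discriminant ∘ ofComplex with hf2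
  have d1 : DifferentiableOn ℂ f1 upperHalfPlaneSet := mdiff_form E12
  have d2 : DifferentiableOn ℂ f2 upperHalfPlaneSet := diff_disc
  have h2ne : ∀ y, f2 y ≠ 0 := fun y => ModularForm.discriminant_ne_zero _
  obtain ⟨y, hy, hW⟩ : ∃ y ∈ U, deriv (fun z => f1 z / f2 z) y ≠ 0 := by
    by_contra hcon
    push Not at hcon
    set q := fun z => f1 z / f2 z
    have dq : DifferentiableOn ℂ q upperHalfPlaneSet := d1.div d2 fun y _ => h2ne y
    have hc : (2 : ℂ) * Complex.I ∈ U := Metric.mem_ball_self (by norm_num)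
    have hconst : ∀ z ∈ U, q z = q (2 * Complex.I) := fun z hz =>
      IsOpen.is_const_of_deriv_eq_zero Metric.isOpen_ball (convex_ball _ _).isPreconnected
        (dq.mono hUH) (fun u hu => hcon u hu) hz hc
    have hev : q =ᶠ[𝓝 (2 * Complex.I)] fun _ => q (2 * Complex.I) :=
      Filter.eventuallyEq_of_mem (Metric.isOpen_ball.mem_nhds hc) hconst
    have heq := (dq.analyticOnNhd isOpen_upperHalfPlaneSet).eqOn_of_preconnected_of_eventuallyEq
      analyticOnNhd_const (convex_halfSpace_im_gt 0).isPreconnected (hUH hc) hev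
    refine E12_not_mul (q (2 * Complex.I)) fun z => ?_
    have := heq (show (z : ℂ) ∈ upperHalfPlaneSet from z.im_pos)
    simp only [q, hf1, hf2, Function.comp_apply, ofComplex_apply] at this
    rw [div_eq_iff (ModularForm.discriminant_ne_zero z)] at this
    exact this
  set w : ℍ := ⟨y, hUH hy⟩ with hw
  set Ec : ℂ → ℂ := fun z => f2 y * f1 z - f1 y * f2 z with hEc
  refine ⟨w, Ec, ⟨(d1.const_mul _).sub (d2.const_mul _), ?_, fun g z => ?_, ?_⟩, ?_, fun g hg => ?_⟩
  · show f2 y * f1 y - f1 y * f2 y = 0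
    ring
  · have hz : ofComplex (lin (row0 g) z / lin (row1 g) z) = g • z := by
      rw [← smul_coe, ofComplex_apply]
    have m1 : E12 (g • z) = lin (row1 g) z ^ 12 * E12 z := by
      have := SlashInvariantForm.slash_action_eqn'' E12 (MonoidHom.mem_range.2 ⟨g, rfl⟩ :
        Matrix.SpecialLinearGroup.mapGL ℝ g ∈ 𝒮ℒ) z
      rw [← denom_eq]
      exact this
    have m2 : ModularForm.discriminant (g • z) =
        lin (row1 g) z ^ 12 * ModularForm.discriminant z := by
      have := SlashInvariantForm.slash_action_eqn'' CuspForm.discriminant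
        (MonoidHom.mem_range.2 ⟨g, rfl⟩ : Matrix.SpecialLinearGroup.mapGL ℝ g ∈ 𝒮ℒ) z
      rw [← denom_eq]
      exact this
    simp only [hEc, hf1, hf2, Function.comp_apply, hz, ofComplex_apply, m1, m2]
    ring
  · have b1 : IsBoundedAtImInfty (E12 : ℍ → ℂ) := ModularFormClass.bdd_at_infty E12
    have b2 : IsBoundedAtImInfty ModularForm.discriminant :=
      (CuspFormClass.zero_at_infty CuspForm.discriminant).isBoundedAtImInfty
    have : (fun z : ℍ => Ec z) = fun z : ℍ =>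
        f2 y * E12 z - f1 y * ModularForm.discriminant z := by
      funext z; simp [hEc, hf1, hf2]
    rw [this]
    exact (b1.const_mul_left _).sub (b2.const_mul_left _)
  · have hy1 := d1.differentiableAt (isOpen_upperHalfPlaneSet.mem_nhds (hUH hy))
    have hy2 := d2.differentiableAt (isOpen_upperHalfPlaneSet.mem_nhds (hUH hy))
    show deriv Ec y ≠ 0
    rw [hEc, deriv_fun_sub (hy1.const_mul _) (hy2.const_mul _), deriv_const_mul _ hy1,
      deriv_const_mul _ hy2]
    intro h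
    apply hW
    rw [deriv_fun_div hy1 hy2 (h2ne y), div_eq_zero_iff]
    left
    linear_combination h
  · exact ModularGroup.eq_one_or_neg_one_of_mem_fdo_mem_fdo (hfdo y hy) (by rw [hg]; exact hfdo y hy)

theorem exists_form (Γ : Subgroup SL(2, ℤ)) (hneg : (-1 : SL(2, ℤ)) ∈ Γ) (χ : Γ →* ℂ)
    (hχ : ∀ γ, ‖χ γ‖ = 1) (hχneg : χ ⟨-1, hneg⟩ = 1) :
    ∃ G : ℍ → ℂ, MDiff G ∧ G ≠ 0 ∧
      (∀ γ : Γ, G ∣[(36 : ℤ)] (γ : SL(2, ℤ)) = χ γ • G) ∧
      ∀ δ : SL(2, ℤ), IsZeroAtImInfty (G ∣[(36 : ℤ)] δ) := by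
  obtain ⟨w, Ec, hE, hderiv, hstab⟩ := exists_data
  set F := seriesH w Ec χ with hF
  set D := ModularForm.discriminant with hD
  have hDslash : ∀ g : SL(2, ℤ), D ∣[(12 : ℤ)] g = D := fun g =>
    SlashInvariantForm.slash_action_eqn CuspForm.discriminant _ (MonoidHom.mem_range.2 ⟨g, rfl⟩)
  have hmul : ∀ g : SL(2, ℤ), (D * F) ∣[(36 : ℤ)] g = D * fun z : ℍ => series w Ec χ g z := by
    intro g
    rw [show (36 : ℤ) = 12 + 24 from rfl, ModularForm.mul_slash_SL2, hDslash, hF, slash_seriesH]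
  refine ⟨D * F, ?_, ?_, fun γ => ?_, fun δ => ?_⟩
  · rw [UpperHalfPlane.mdifferentiable_iff]
    refine DifferentiableOn.congr (diff_disc.mul (differentiableOn_series hE hχ 1)) fun z hz => ?_
    simp [hD, hF, seriesH, ofComplex_apply_of_im_pos (show 0 < z.im from hz)]
  · intro h
    have h1 := congrFun h w
    simp only [Pi.mul_apply, Pi.zero_apply, mul_eq_zero, hD,
      ModularForm.discriminant_ne_zero, false_or, hF, seriesH] at h1
    have hseed : seed w Ec w ≠ 0 := by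
      rw [seed, dslope_same]
      refine mul_ne_zero (inv_ne_zero (pow_ne_zero 11 fun h => ?_)) hderiv
      have := congrArg Complex.im h
      simp at this
      linarith [w.im_pos]
    have hterm : ∀ γ : Γ, χ γ⁻¹ * kern w Ec ((γ : SL(2, ℤ)) * 1) w =
        if (γ : SL(2, ℤ)) = 1 ∨ (γ : SL(2, ℤ)) = -1 then seed w Ec w else 0 := by
      intro γ
      rw [mul_one]
      split_ifs with hγ
      · have e : χ γ⁻¹ = 1 := by
          rcases hγ with hγ | hγ
          · rw [show γ = 1 from Subtype.ext hγ, inv_one, map_one]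
          · rw [show γ⁻¹ = (⟨-1, hneg⟩ : Γ) from Subtype.ext (by simp [hγ]), hχneg]
        rw [e, one_mul]
        rcases hγ with hγ | hγ <;>
          simp [kern, hγ, lin, row0, row1, Even.neg_pow (⟨12, rfl⟩ : Even 24)]
      · have hne : ((γ : SL(2, ℤ)) • w : ℍ) ≠ w := fun e => hγ (hstab _ e)
        have hne' : lin (row0 (γ : SL(2, ℤ))) w / lin (row1 (γ : SL(2, ℤ))) w ≠ (w : ℂ) := by
          rw [← smul_coe]; exact fun e => hne (UpperHalfPlane.ext e)
        rw [kern, seed, dslope_of_ne _ hne', slope_def_field, hE.mod, hE.zero]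
        simp
    rw [series, tsum_congr hterm,
      tsum_eq_sum (s := {1, (⟨-1, hneg⟩ : Γ)}) (fun γ hγ => if_neg ?_),
      Finset.sum_pair] at h1
    · simp only [OneMemClass.coe_one, true_or, if_true, or_true] at h1
      exact hseed (by linear_combination h1 / 2)
    · intro e
      have := congrArg (fun u : Γ => ((u : SL(2, ℤ)).1 0 0)) e
      simp at this
    · simp only [Finset.mem_insert, Finset.mem_singleton, not_or] at hγ
      rintro (e | e)
      · exact hγ.1 (Subtype.ext e)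
      · exact hγ.2 (Subtype.ext e)
  · rw [hmul]
    funext z
    simp only [Pi.mul_apply, Pi.smul_apply, hF, seriesH, series_mul, smul_eq_mul]
    ring
  · rw [hmul]
    obtain ⟨A, B, hB⟩ := exists_bound_series hE hχ
    rw [mul_comm]
    have hb := UpperHalfPlane.isBoundedAtImInfty_iff.2 ⟨B, A, fun z hz => hB δ z hz⟩
    refine Asymptotics.IsBigO.trans_tendsto (Asymptotics.IsBigO.mul hb (Asymptotics.isBigO_refl D atImInfty).norm_right) ?_
    simpa using tendsto_zero_iff_norm_tendsto_zero.1 (CuspFormClass.zero_at_infty CuspForm.discriminant)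

end FLTAgent.JTors.Poincare
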