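import Fermat.Agent.JTors.Defs
import Fermat.Agent.JTors.PoincareSeries

/-!
Existence of automorphic forms with a given torsion multiplier (Poincaré series).
-/

set_option autoImplicit false

noncomputable section

open UpperHalfPlane CongruenceSubgroup
open scoped MatrixGroups ModularForm Manifold

namespace FLTAgent.JTors

variable {N : ℕ} [NeZero N]

theorem exists_automorphic {n : ℕ} (hn : 0 < n) {χ : Gamma0 N →* ℂ} (hχ : IsTorsChar n χ) :
    ∃ G : ℍ → ℂ, MDiff G ∧ G ≠ 0 ∧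
      (∀ γ : Gamma0 N, G ∣[(36 : ℤ)] (γ : SL(2, ℤ)) = χ γ • G) ∧
      ∀ δ : SL(2, ℤ), IsZeroAtImInfty (G ∣[(36 : ℤ)] δ) := by
  have hneg : (-1 : SL(2, ℤ)) ∈ Gamma0 N := by simp [Gamma0_mem]
  exact Poincare.exists_form (Gamma0 N) hneg χ
    (fun γ => Complex.norm_eq_one_of_pow_eq_one (hχ.pow_eq_one γ) hn.ne')
    (hχ.special _ ⟨1, -1, Or.inr (Or.inr (Or.inl rfl)), by simp⟩)

end FLTAgent.JTors
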