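import Fermat.Agent.JTors.MeroH
import Fermat.Agent.ModFun.Integral

/-!
Coefficientwise twists of q-expansions commute with the symmetric functions of the conjugates.
-/

set_option autoImplicit false

noncomputable section

open UpperHalfPlane CongruenceSubgroup ModularForm Filter
open scoped MatrixGroups Manifold Topology

namespace FLTAgent.JTors

open ModFun (Good IsMF IsCF RatMF IntQ qx conjF esum interpA interpD charC gN idx Cosets q₁ cperm)

variable {σ : ℂ →+* ℂ} {f g f' g' h : ℍ → ℂ}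

/-- `g` has the `σ`-conjugate q-expansion of `f` -/
structure IsTwist (σ : ℂ →+* ℂ) (f g : ℍ → ℂ) : Prop where
  fst : Good f
  snd : Good g
  eq : qx g = (qx f).map σ

namespace IsTwist

theorem unique (h1 : IsTwist σ f g) (h2 : IsTwist σ f h) : g = h :=
  Good.qx_inj h1.snd h2.snd (h1.eq.trans h2.eq.symm)

theorem symm {σ : ℂ ≃+* ℂ} (h1 : IsTwist (σ : ℂ →+* ℂ) f g) :
    IsTwist (σ.symm : ℂ →+* ℂ) g f := by
  refine ⟨h1.snd, h1.fst, ?_⟩
  rw [h1.eq]
  ext m
  simp

theorem add (h1 : IsTwist σ f g) (h2 : IsTwist σ f' g') : IsTwist σ (f + f') (g + g') :=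
  ⟨h1.fst.add h2.fst, h1.snd.add h2.snd, by
    rw [Good.qx_add h1.snd h2.snd, Good.qx_add h1.fst h2.fst, h1.eq, h2.eq, map_add]⟩

theorem sub (h1 : IsTwist σ f g) (h2 : IsTwist σ f' g') : IsTwist σ (f - f') (g - g') :=
  ⟨h1.fst.sub h2.fst, h1.snd.sub h2.snd, by
    rw [Good.qx_sub h1.snd h2.snd, Good.qx_sub h1.fst h2.fst, h1.eq, h2.eq, map_sub]⟩

theorem mul (h1 : IsTwist σ f g) (h2 : IsTwist σ f' g') : IsTwist σ (f * f') (g * g') :=
  ⟨h1.fst.mul h2.fst, h1.snd.mul h2.snd, by
    rw [Good.qx_mul h1.snd h2.snd, Good.qx_mul h1.fst h2.fst, h1.eq, h2.eq, map_mul]⟩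

theorem pow (h1 : IsTwist σ f g) (j : ℕ) : IsTwist σ (f ^ j) (g ^ j) :=
  ⟨h1.fst.pow j, h1.snd.pow j, by rw [Good.qx_pow h1.snd, Good.qx_pow h1.fst, h1.eq, map_pow]⟩

theorem smul (c : ℂ) (h1 : IsTwist σ f g) : IsTwist σ (c • f) (σ c • g) :=
  ⟨h1.fst.smul c, h1.snd.smul _, by
    rw [Good.qx_smul _ h1.snd, Good.qx_smul _ h1.fst, h1.eq]
    ext m; simp⟩

theorem zero : IsTwist σ (0 : ℍ → ℂ) 0 :=
  ⟨Good.zero, Good.zero, by simp [qx, qExpansion_zero]⟩

theorem of_intQ (hf : Good f) (h : IntQ f) : IsTwist σ f f := by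
  refine ⟨hf, hf, ?_⟩
  obtain ⟨Z, hZ⟩ := h
  rw [hZ]; ext m; simp

theorem one : IsTwist σ (1 : ℍ → ℂ) 1 := of_intQ Good.one IntQ.one

theorem sum {ι : Type*} (s : Finset ι) {F G : ι → ℍ → ℂ} (h : ∀ i ∈ s, IsTwist σ (F i) (G i)) :
    IsTwist σ (∑ i ∈ s, F i) (∑ i ∈ s, G i) := by
  classical
  induction s using Finset.induction_on with
  | empty => simpa using IsTwist.zero
  | insert a s ha ih =>
    rw [Finset.sum_insert ha, Finset.sum_insert ha]
    exact (h a (Finset.mem_insert_self _ _)).add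
      (ih fun i hi => h i (Finset.mem_insert_of_mem hi))

theorem eq_zero_iff (h1 : IsTwist σ f g) : f = 0 ↔ g = 0 := by
  constructor <;> intro e
  · subst e; exact (h1.unique IsTwist.zero)
  · subst e
    refine Good.qx_inj h1.fst Good.zero (PowerSeries.map_injective σ σ.injective ?_)
    rw [← h1.eq]; simp [qx, qExpansion_zero]

theorem delta : IsTwist σ discriminant discriminant := by
  have h4 : IsTwist σ (E₄ : ℍ → ℂ) E₄ := of_intQ (ModFun.RatMF.isMF ModFun.E4_mem).good ModFun.intQ_E4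
  have h6 : IsTwist σ (E₆ : ℍ → ℂ) E₆ := of_intQ (ModFun.RatMF.isMF ModFun.E6_mem).good ModFun.intQ_E6
  have he : discriminant = (1 / 1728 : ℂ) • ((E₄ : ℍ → ℂ) ^ 3 - (E₆ : ℍ → ℂ) ^ 2) := by
    funext z
    rw [discriminant_eq_E₄_cube_sub_E₆_sq]
    simp only [Pi.smul_apply, Pi.sub_apply, Pi.pow_apply, smul_eq_mul]
    ring
  have h := ((h4.pow 3).sub (h6.pow 2)).smul (1 / 1728 : ℂ)
  rw [map_div₀, map_one, map_ofNat, ← he] at h
  exact h

theorem gN' (N : ℕ) [NeZero N] : IsTwist σ (gN N) (gN N) := by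
  refine ⟨(ModFun.isMF_gN N).good, (ModFun.isMF_gN N).good, ?_⟩
  ext m
  have hd := ModFun.qx_dil (ModFun.RatMF.isMF ModFun.delta_mem) N
  rw [PowerSeries.coeff_map, show ModFun.gN N = ModFun.dil N discriminant from rfl, hd]
  split_ifs
  · have := congrArg (PowerSeries.coeff (m / N)) (IsTwist.delta (σ := σ)).eq
    rwa [PowerSeries.coeff_map] at this
  · rw [map_zero]

theorem neg_one_pow_smul (m : ℕ) (h1 : IsTwist σ f g) :
    IsTwist σ (((-1 : ℂ) ^ m) • f) (((-1 : ℂ) ^ m) • g) := by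
  have := h1.smul ((-1 : ℂ) ^ m)
  rwa [map_pow, map_neg, map_one] at this

end IsTwist

variable {N : ℕ} [NeZero N] {k : ℤ}

theorem esum_zero_eq {ι : Type*} (g : ι → ℍ → ℂ) (s : Finset ι) : esum g s 0 = 1 := by
  simp [esum]

theorem gN_conj_sep {q r : Cosets N} (h : conjF 12 (gN N) q = conjF 12 (gN N) r) : q = r := by
  have h' := congrArg (fun F => F ∣[(12 : ℤ)] r.out) h
  simp only [conjF, ← SlashAction.slash_mul, inv_mul_cancel, SlashAction.slash_one] at h'
  rw [← QuotientGroup.out_eq' q, ← QuotientGroup.out_eq' r, QuotientGroup.eq]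
  exact ModFun.gN_stab N h'

/-- coefficients in an expansion in powers of `Δ(Nτ)` are unique -/
theorem gN_coeff_unique {w : ℤ} {c : ℕ → ℍ → ℂ} (hd : ∀ m, MDiff (c m))
    (hinv : ∀ (m : ℕ) (γ : SL(2, ℤ)), c m ∣[w + 12 * (m : ℤ)] γ = c m)
    (h : ∑ m ∈ Finset.range (idx N), c m * gN N ^ (idx N - 1 - m) = 0) :
    ∀ m < idx N, c m = 0 := by
  classical
  have hg := ModFun.isMF_gN N
  have hq : ∀ q : Cosets N, ∀ τ,
      ∑ m ∈ Finset.range (idx N), c m τ * conjF 12 (gN N) q τ ^ (idx N - 1 - m) = 0 := by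
    intro q τ
    have hs := congrArg (fun F => F ∣[w + 12 * ((idx N - 1 : ℕ) : ℤ)] q.out⁻¹) h
    simp only [SlashAction.sum_slash, SlashAction.zero_slash] at hs
    have := congrFun hs τ
    rw [Finset.sum_apply, Pi.zero_apply] at this
    refine Eq.trans (Finset.sum_congr rfl fun m hm => ?_) this
    have hm' : m ≤ idx N - 1 := by have := Finset.mem_range.mp hm; omega
    rw [show w + 12 * ((idx N - 1 : ℕ) : ℤ) =
        (w + 12 * (m : ℤ)) + ((idx N - 1 - m : ℕ) : ℤ) * 12 by rw [Nat.cast_sub hm']; ring,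
      mul_slash_SL2, hinv, ModFun.pow_slash]
    rfl
  let cH : ℕ → HolH := fun m => ⟨c m, hd m⟩
  let gH : Cosets N → HolH := fun q => ⟨conjF 12 (gN N) q, ModFun.mdiff_slash hg.holo 12 _⟩
  let Pr : HolH := ∏ q, ∏ r ∈ Finset.univ.erase q, (gH q - gH r)
  have hPr : Pr ≠ 0 := by
    refine Finset.prod_ne_zero_iff.mpr fun q _ => Finset.prod_ne_zero_iff.mpr fun r hr e => ?_
    exact Finset.ne_of_mem_erase hr (gN_conj_sep (congrArg Subtype.val (sub_eq_zero.mp e))).symm
  intro m hm
  have hz : cH m * Pr = 0 := by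
    refine Subtype.ext (funext fun τ => ?_)
    show c m τ * (Pr : ℍ → ℂ) τ = 0
    by_cases hP : (Pr : ℍ → ℂ) τ = 0
    · rw [hP, mul_zero]
    have hinj : Function.Injective fun q : Cosets N => conjF 12 (gN N) q τ := by
      intro q r e
      by_contra hne
      apply hP
      show ((∏ q, ∏ r ∈ Finset.univ.erase q, (gH q - gH r) : HolH) : ℍ → ℂ) τ = 0
      simp only [SubmonoidClass.coe_finsetProd, Finset.prod_apply]
      refine Finset.prod_eq_zero (Finset.mem_univ q) ?_
      refine Finset.prod_eq_zero (Finset.mem_erase.mpr ⟨Ne.symm hne, Finset.mem_univ r⟩) ?_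
      show conjF 12 (gN N) q τ - conjF 12 (gN N) r τ = 0
      rw [sub_eq_zero]; exact e
    set p : Polynomial ℂ := ∑ j ∈ Finset.range (idx N),
      Polynomial.C (c j τ) * Polynomial.X ^ (idx N - 1 - j) with hp
    have hp0 : p = 0 := by
      refine p.eq_zero_of_natDegree_lt_card_of_eval_eq_zero hinj (fun q => ?_) ?_
      · simpa [hp, Polynomial.eval_finsetSum] using hq q τ
      · show _ < idx N
        refine lt_of_le_of_lt (Polynomial.natDegree_sum_le_of_forall_le _ _ (n := idx N - 1)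
          fun j _ => ?_) (by have := ModFun.idx_pos N; omega)
        exact (Polynomial.natDegree_C_mul_X_pow_le _ _).trans (Nat.sub_le _ _)
    have := congrArg (fun P => Polynomial.coeff P (idx N - 1 - m)) hp0
    simp only [hp, Polynomial.finsetSum_coeff, Polynomial.coeff_C_mul_X_pow,
      Polynomial.coeff_zero] at this
    rw [Finset.sum_eq_single_of_mem m (Finset.mem_range.mpr hm) (fun j hj hne => if_neg (by
      have := Finset.mem_range.mp hj; omega)), if_pos rfl] at this
    rw [this, zero_mul]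
  exact congrArg Subtype.val ((mul_eq_zero.mp hz).resolve_right hPr)

theorem levelOne_inv {w : ℤ} {F : ℍ → ℂ} (hF : F ∈ RatMF 1 w) (γ : SL(2, ℤ)) : F ∣[w] γ = F :=
  (ModFun.RatMF.isMF hF).inv γ (ModFun.mem_Gamma0_one γ)

theorem isTwist_charC_gN (σ : ℂ →+* ℂ) {m : ℕ} (hm : m ≤ idx N) :
    IsTwist σ (charC N 12 (gN N) m) (charC N 12 (gN N) m) := by
  have hg := ModFun.isMF_gN N
  have hmem := fun m => ModFun.charC_mem (N := N) hg m
  choose c hc ec using fun m => ModFun.RatMF.twist (hmem m) σ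
  have ht : ∀ m, IsTwist σ (charC N 12 (gN N) m) (c m) := fun m =>
    ⟨(ModFun.RatMF.isMF (hmem m)).good, (ModFun.RatMF.isMF (hc m)).good, ec m⟩
  have h0 : c 0 = 1 := (ht 0).unique (by rw [ModFun.charC_zero_eq]; exact IsTwist.one)
  have hrel : ∑ j ∈ Finset.range (idx N + 1), c j * gN N ^ (idx N - j) = 0 := by
    have h := IsTwist.sum (Finset.range (idx N + 1))
      fun j _ => (ht j).mul ((IsTwist.gN' (σ := σ) N).pow (idx N - j))
    rw [ModFun.charC_rel hg] at h
    exact h.unique IsTwist.zero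
  have key := gN_coeff_unique (N := N) (w := 12)
    (c := fun j => c (j + 1) - charC N 12 (gN N) (j + 1))
    (fun j => (ModFun.RatMF.isMF (hc _)).holo.sub (ModFun.RatMF.isMF (hmem _)).holo)
    (fun (j : ℕ) γ => by
      rw [show (12 : ℤ) + 12 * (j : ℤ) = ((j + 1 : ℕ) : ℤ) * 12 by push_cast; ring]
      exact levelOne_inv (Submodule.sub_mem _ (hc _) (hmem _)) γ) ?_
  · rcases Nat.eq_zero_or_pos m with rfl | hpos
    · rw [ModFun.charC_zero_eq]; exact IsTwist.one
    · obtain ⟨j, rfl⟩ : ∃ j, m = j + 1 := ⟨m - 1, by omega⟩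
      have := key j (by omega)
      have := ht (j + 1)
      rwa [sub_eq_zero.mp (key j (by omega))] at this
  · have h2 := ModFun.charC_rel (N := N) hg
    rw [Finset.sum_range_succ'] at hrel h2
    rw [h0] at hrel
    rw [ModFun.charC_zero_eq] at h2
    simp only [sub_mul, Finset.sum_sub_distrib, Nat.sub_sub, Nat.add_comm 1]
    rw [sub_eq_zero]
    exact add_right_cancel (hrel.trans h2.symm)

theorem interpD_eq : interpD N = ∑ m ∈ Finset.range (idx N),
    ((idx N - m : ℕ) : ℂ) • (charC N 12 (gN N) m * gN N ^ (idx N - m - 1)) := by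
  classical
  have hg := ModFun.isMF_gN N
  funext τ
  let v : Cosets N → ℂ := fun q => conjF 12 (gN N) q τ
  have hv : v (q₁ N) = gN N τ := congrFun (ModFun.conjF_q₁ hg.inv) τ
  have hP : ∏ q, (Polynomial.X - Polynomial.C (v q)) = ∑ m ∈ Finset.range (idx N + 1),
      Polynomial.C (charC N 12 (gN N) m τ) * Polynomial.X ^ (idx N - m) := by
    refine Polynomial.funext fun x => ?_
    have e := congrFun (ModFun.prod_sub_eq (conjF 12 (gN N)) (fun _ => x)
      (Finset.univ : Finset (Cosets N))) τ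
    simp only [Finset.prod_apply, Pi.sub_apply, Finset.sum_apply, Pi.smul_apply, Pi.mul_apply,
      Pi.pow_apply, smul_eq_mul, Finset.card_univ] at e
    simp only [Polynomial.eval_prod, Polynomial.eval_sub, Polynomial.eval_X, Polynomial.eval_C,
      Polynomial.eval_finsetSum, Polynomial.eval_mul, Polynomial.eval_pow, v]
    rw [e]
    refine Finset.sum_congr rfl fun m _ => ?_
    show _ = ((-1 : ℂ) ^ m * esum (conjF 12 (gN N)) Finset.univ m τ) * _
    rw [idx]
    ring
  have hd := congrArg (fun P => (Polynomial.derivative P).eval (gN N τ)) hP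
  simp only [Polynomial.derivative_prod_finset, Polynomial.derivative_sum, Polynomial.eval_finsetSum,
    Polynomial.eval_mul, Polynomial.eval_prod, Polynomial.eval_sub, Polynomial.derivative_sub,
    Polynomial.derivative_X, Polynomial.derivative_C, sub_zero, Polynomial.eval_one, mul_one,
    Polynomial.eval_X, Polynomial.eval_C, Polynomial.derivative_C_mul_X_pow,
    Polynomial.eval_pow] at hd
  rw [Finset.sum_eq_single_of_mem (q₁ N) (Finset.mem_univ _) (fun q _ hq =>
      Finset.prod_eq_zero (Finset.mem_erase.mpr ⟨Ne.symm hq, Finset.mem_univ _⟩)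
        (by rw [hv, sub_self])), Finset.sum_range_succ] at hd
  simp only [Nat.sub_self, Nat.cast_zero, mul_zero, zero_mul, add_zero] at hd
  rw [interpD, Finset.prod_apply, Finset.sum_apply]
  simp only [Pi.sub_apply, Pi.smul_apply, Pi.mul_apply, Pi.pow_apply, smul_eq_mul]
  refine hd.trans (Finset.sum_congr rfl fun m _ => ?_)
  ring

theorem isTwist_interpD (σ : ℂ →+* ℂ) : IsTwist σ (interpD N) (interpD N) := by
  rw [interpD_eq]
  refine IsTwist.sum _ fun m hm => ?_
  have := ((isTwist_charC_gN (N := N) σ (le_of_lt (Finset.mem_range.mp hm))).mul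
    ((IsTwist.gN' N).pow (idx N - m - 1))).smul ((idx N - m : ℕ) : ℂ)
  rwa [map_natCast] at this

theorem isTwist_interpA (hf : IsMF N k f) (hh : IsMF N k h) (ht : IsTwist σ f h) {m : ℕ}
    (hm : m < idx N) : IsTwist σ (interpA N k f m) (interpA N k h m) := by
  have hA := fun m => ModFun.interpA_mem (N := N) hf m
  choose A hAm eA using fun m => ModFun.RatMF.twist (hA m) σ
  have hAt : ∀ m, IsTwist σ (interpA N k f m) (A m) := fun m =>
    ⟨(ModFun.RatMF.isMF (hA m)).good, (ModFun.RatMF.isMF (hAm m)).good, eA m⟩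
  have h1 := IsTwist.sum (Finset.range (idx N)) fun j _ =>
    (((IsTwist.gN' (σ := σ) N).pow (idx N - 1 - j)).mul (hAt j)).neg_one_pow_smul j
  rw [← ModFun.interp_eq hf] at h1
  have e := h1.unique (ht.mul (isTwist_interpD σ))
  rw [ModFun.interp_eq hh] at e
  have key := gN_coeff_unique (N := N) (w := k)
    (c := fun j => ((-1 : ℂ) ^ j) • (A j - interpA N k h j))
    (fun j => ((ModFun.RatMF.isMF (hAm j)).holo.sub
      (ModFun.RatMF.isMF (ModFun.interpA_mem hh j)).holo).const_smul _)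
    (fun (j : ℕ) γ => by
      rw [show k + 12 * (j : ℤ) = k + (j : ℤ) * 12 by ring]
      exact levelOne_inv (Submodule.smul_mem _ _
        (Submodule.sub_mem _ (hAm j) (ModFun.interpA_mem hh j))) γ) (by
      simp only [smul_mul_assoc, sub_mul, smul_sub, Finset.sum_sub_distrib, sub_eq_zero]
      simp only [mul_comm (gN N ^ _)] at e
      exact e) m hm
  rw [smul_eq_zero_iff_right (pow_ne_zero _ (neg_ne_zero.mpr one_ne_zero)), sub_eq_zero] at key
  rw [← key]
  exact hAt m

theorem isTwist_trace (hf : IsMF N k f) (hh : IsMF N k h) (ht : IsTwist σ f h) :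
    IsTwist σ (∑ q : Cosets N, conjF k f q) (∑ q : Cosets N, conjF k h q) := by
  simpa [interpA, esum_zero_eq] using isTwist_interpA hf hh ht (ModFun.idx_pos N)

theorem isTwist_psum (hf : IsMF N k f) (hh : IsMF N k h) (ht : IsTwist σ f h) (j : ℕ) :
    IsTwist σ (∑ q : Cosets N, conjF k f q ^ j) (∑ q : Cosets N, conjF k h q ^ j) := by
  have := isTwist_trace (hf.pow j) (hh.pow j) (ht.pow j)
  simpa [conjF, ModFun.pow_slash] using this

theorem newton_esum {ι : Type*} [Fintype ι] (g : ι → ℍ → ℂ) (m : ℕ) :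
    (m : ℂ) • esum g Finset.univ m = ((-1 : ℂ) ^ (m + 1)) •
      ∑ a ∈ Finset.HasAntidiagonal.antidiagonal m with a.1 < m,
        ((-1 : ℂ) ^ a.1) • (esum g Finset.univ a.1 * ∑ i, g i ^ a.2) := by
  have h := congrArg (MvPolynomial.aeval g) (MvPolynomial.mul_esymm_eq_sum ι ℂ m)
  simp only [map_mul, map_natCast, map_pow, map_neg, map_one, map_sum, MvPolynomial.esymm,
    map_prod, MvPolynomial.aeval_X, MvPolynomial.psum] at h
  have e : ∀ (j : ℕ) (F : ℍ → ℂ), ((-1 : ℂ) ^ j) • F = (-1 : ℍ → ℂ) ^ j * F := fun j F => by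
    funext τ; simp
  have e' : ∀ (F : ℍ → ℂ), (m : ℂ) • F = (m : ℍ → ℂ) * F := fun F => by
    funext τ; simp
  simp only [e, e', esum, ← mul_assoc]
  exact h

/-- twists commute with the elementary symmetric functions of the conjugates -/
theorem isTwist_esum (hf : IsMF N k f) (hh : IsMF N k h) (ht : IsTwist σ f h) (m : ℕ) :
    IsTwist σ (esum (conjF k f) (Finset.univ : Finset (Cosets N)) m)
      (esum (conjF k h) (Finset.univ : Finset (Cosets N)) m) := by
  induction m using Nat.strong_induction_on with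
  | _ m ih =>
  rcases Nat.eq_zero_or_pos m with rfl | hm
  · rw [esum_zero_eq, esum_zero_eq]; exact IsTwist.one
  have h1 := (IsTwist.sum ((Finset.HasAntidiagonal.antidiagonal m).filter fun a => a.1 < m) fun a ha =>
    (((ih a.1 (Finset.mem_filter.mp ha).2).mul (isTwist_psum hf hh ht a.2)).neg_one_pow_smul
      a.1)).neg_one_pow_smul (m + 1)
  rw [← newton_esum, ← newton_esum] at h1
  have h2 := h1.smul ((m : ℂ)⁻¹)
  rwa [map_inv₀, map_natCast, inv_smul_smul₀ (Nat.cast_ne_zero.mpr hm.ne'),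
    inv_smul_smul₀ (Nat.cast_ne_zero.mpr hm.ne')] at h2

end FLTAgent.JTors
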