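import Fermat.Agent.JTors.Forms
import Fermat.Agent.JTors.Twist
import Fermat.Agent.ModFun.JOrder

/-!
Divisibility of all orders of vanishing is stable under twisting q-expansions.
-/

set_option autoImplicit false

noncomputable section

open UpperHalfPlane CongruenceSubgroup ModularForm Filter
open scoped MatrixGroups Manifold Topology WithZero

namespace FLTAgent.JTors

open Genus (ordVal vlog)
open ModFun (Good IsMF IsCF RatMF qx conjF esum idx Cosets q₁)

/-- the valuation at a point -/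
def valAt (τ : ℍ) : Valuation MeroH ℤᵐ⁰ := (ordVal (τ : ℂ)).comap (germAt τ).toRingHom

theorem valAt_eq_exp (τ : ℍ) {x : MeroH} (hx : x ≠ 0) :
    valAt τ x = WithZero.exp (-ordAt τ x) := by
  have h : valAt τ x ≠ 0 := (Valuation.ne_zero_iff _).mpr hx
  show valAt τ x = WithZero.exp (- -(WithZero.log (valAt τ x)))
  rw [neg_neg, WithZero.exp_log h]

theorem valAt_const (τ : ℍ) {c : ℂ} (hc : c ≠ 0) : valAt τ (algebraMap ℂ MeroH c) = 1 := by
  show ordVal (τ : ℂ) (germAt τ (algebraMap ℂ MeroH c)) = 1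
  rw [AlgHom.commutes]
  exact Genus.ordVal_algebraMap hc

/-- a coordinate at `τ` -/
def coordH (τ : ℍ) : HolH :=
  ⟨fun z => (z : ℂ) - (τ : ℂ), by
    show MDiff (fun z : ℍ => (z : ℂ) - (τ : ℂ))
    exact UpperHalfPlane.mdifferentiable_coe.sub mdifferentiable_const⟩

theorem valAt_coordH (τ : ℍ) : valAt τ (ofH (coordH τ)) = WithZero.exp (-1 : ℤ) := by
  have hne : coordH τ ≠ 0 := fun h => by
    have := congrFun (congrArg Subtype.val h)
      ⟨(τ : ℂ) + 1, by simpa using τ.im_pos⟩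
    simp [coordH] at this
  obtain ⟨m, hm, he⟩ := ordAt_ofH τ hne
  rw [valAt_eq_exp τ (ofH_ne_zero hne), he]
  have h1 : analyticOrderAt (fun z : ℂ => z - (τ : ℂ)) (τ : ℂ) = 1 := by
    have : AnalyticAt ℂ (fun z : ℂ => z - (τ : ℂ)) (τ : ℂ) := analyticAt_id.sub analyticAt_const
    rw [show (1 : ℕ∞) = ((1 : ℕ) : ℕ∞) from rfl, this.analyticOrderAt_eq_natCast]
    exact ⟨fun _ => 1, analyticAt_const, one_ne_zero, Eventually.of_forall fun z => by simp⟩
  rw [analyticOrderAt_congr (f := fun z => (coordH τ : ℍ → ℂ) (ofComplex z))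
    (g := fun z : ℂ => z - (τ : ℂ))] at hm
  · rw [h1] at hm
    have : m = 1 := by exact_mod_cast hm.symm
    rw [this]; rfl
  · filter_upwards [isOpen_upperHalfPlaneSet.mem_nhds τ.im_pos] with z hz
    show ((ofComplex z : ℍ) : ℂ) - _ = _
    rw [ofComplex_apply_of_im_pos hz]

section Generic

variable {M : Type*} [Field M] [Algebra ℂ M] {ν : Valuation M ℤᵐ⁰}

/-- `∑ tⁱ yᵢ` has maximal valuation for all but finitely many `t` -/
theorem finite_val_sum_ne (hC : ∀ c : ℂ, c ≠ 0 → ν (algebraMap ℂ M c) = 1) (d : ℕ)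
    (y : Fin (d + 1) → M) (hy : ∃ i, y i ≠ 0) :
    {t : ℂ | ν (∑ i : Fin (d + 1), algebraMap ℂ M (t ^ (i : ℕ)) * y i) ≠
      Finset.univ.sup' Finset.univ_nonempty fun i => ν (y i)}.Finite := by
  classical
  set γ := Finset.univ.sup' Finset.univ_nonempty fun i => ν (y i) with hγ
  have hC' : ∀ c : ℂ, ν (algebraMap ℂ M c) ≤ 1 := fun c => by
    rcases eq_or_ne c 0 with rfl | hc
    · simp
    · exact (hC c hc).le
  have hle : ∀ t : ℂ, ν (∑ i : Fin (d + 1), algebraMap ℂ M (t ^ (i : ℕ)) * y i) ≤ γ := fun t =>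
    ν.map_sum_le fun i _ => by
      rw [map_mul]
      exact (mul_le_of_le_one_left' (hC' _)).trans
        (Finset.le_sup' (fun i => ν (y i)) (Finset.mem_univ i))
  have hγ0 : γ ≠ 0 := by
    obtain ⟨i, hi⟩ := hy
    intro h0
    have := Finset.le_sup' (fun i => ν (y i)) (Finset.mem_univ i)
    rw [← hγ, h0] at this
    exact (Valuation.ne_zero_iff ν).mpr hi (le_zero_iff.mp this)
  by_contra hinf
  let t : Fin (d + 1) → ℂ := fun j => (Set.Infinite.natEmbedding _ hinf (j : ℕ) : ℂ)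
  have htinj : Function.Injective t := fun a b e =>
    Fin.ext ((Set.Infinite.natEmbedding _ hinf).injective (Subtype.ext e))
  have hbad : ∀ j, ν (∑ i : Fin (d + 1), algebraMap ℂ M (t j ^ (i : ℕ)) * y i) < γ := fun j =>
    lt_of_le_of_ne (hle _) (Set.Infinite.natEmbedding _ hinf (j : ℕ)).2
  let W := (Matrix.vandermonde t)⁻¹
  have hW : W * Matrix.vandermonde t = 1 := Matrix.nonsing_inv_mul _
    (isUnit_iff_ne_zero.mpr (Matrix.det_vandermonde_ne_zero_iff.mpr htinj))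
  have hyW : ∀ i, y i = ∑ j, algebraMap ℂ M (W i j) *
      ∑ l : Fin (d + 1), algebraMap ℂ M (t j ^ (l : ℕ)) * y l := by
    intro i
    simp only [Finset.mul_sum, ← mul_assoc, ← map_mul]
    rw [Finset.sum_comm]
    simp only [← Finset.sum_mul, ← map_sum]
    have : ∀ l : Fin (d + 1), ∑ j, W i j * t j ^ (l : ℕ) = (1 : Matrix (Fin (d + 1)) (Fin (d + 1)) ℂ) i l :=
      fun l => by rw [← hW]; rfl
    simp only [this, Matrix.one_apply]
    rw [Finset.sum_eq_single_of_mem i (Finset.mem_univ _) (fun l _ hl => by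
      rw [if_neg (Ne.symm hl), map_zero, zero_mul]), if_pos rfl, map_one, one_mul]
  obtain ⟨i, -, hi⟩ := Finset.exists_mem_eq_sup' Finset.univ_nonempty fun i => ν (y i)
  rw [← hγ] at hi
  have : ν (y i) < γ := by
    rw [hyW i]
    refine ν.map_sum_lt hγ0 fun j _ => ?_
    rw [map_mul]
    exact lt_of_le_of_lt (mul_le_of_le_one_left' (hC' _)) (hbad j)
  exact absurd hi.symm this.ne

/-- products of maxima from the symmetric functions -/
theorem prod_max_eq (hC : ∀ c : ℂ, c ≠ 0 → ν (algebraMap ℂ M c) = 1) {ι : Type*} [Fintype ι]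
    (x : ι → M) (z : M) (hz : z ≠ 0) :
    ∏ i, max (ν (x i)) (ν z) = Finset.univ.sup' Finset.univ_nonempty
      fun j : Fin (Fintype.card ι + 1) =>
        ν z ^ (j : ℕ) * ν (∑ S ∈ Finset.univ.powersetCard (Fintype.card ι - (j : ℕ)), ∏ i ∈ S, x i) := by
  classical
  set d := Fintype.card ι
  set y : Fin (d + 1) → M := fun j =>
    z ^ (j : ℕ) * ∑ S ∈ Finset.univ.powersetCard (d - (j : ℕ)), ∏ i ∈ S, x i with hy
  have hexp : ∀ t : ℂ, ∏ i, (x i + algebraMap ℂ M t * z) =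
      ∑ j : Fin (d + 1), algebraMap ℂ M (t ^ (j : ℕ)) * y j := by
    intro t
    rw [Fin.sum_univ_eq_sum_range (fun j => algebraMap ℂ M (t ^ j) *
      (z ^ j * ∑ S ∈ Finset.univ.powersetCard (d - j), ∏ i ∈ S, x i)), ← Finset.sum_range_reflect,
      Finset.prod_add, Finset.sum_powerset, Finset.card_univ]
    refine Finset.sum_congr rfl fun m hm => ?_
    have hm' : m ≤ d := Nat.lt_succ_iff.mp (Finset.mem_range.mp hm)
    rw [show d + 1 - 1 - m = d - m by omega, show d - (d - m) = m by omega, Finset.mul_sum,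
      Finset.mul_sum]
    refine Finset.sum_congr rfl fun S hS => ?_
    obtain ⟨-, h2⟩ := Finset.mem_powersetCard.mp hS
    rw [Finset.prod_const, Finset.card_sdiff_of_subset (Finset.subset_univ _), h2, Finset.card_univ,
      mul_pow, map_pow]
    ring
  have hy0 : ∃ j, y j ≠ 0 := ⟨Fin.last d, by simp [hy, hz]⟩
  have hone : ∀ i, {t : ℂ | ν (x i + algebraMap ℂ M t * z) ≠ max (ν (x i)) (ν z)}.Finite := by
    intro i
    have h := finite_val_sum_ne hC 1 ![x i, z] ⟨1, by simpa using hz⟩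
    refine h.subset fun t ht => ?_
    have e : Finset.univ.sup' Finset.univ_nonempty (fun j => ν ((![x i, z] : Fin 2 → M) j)) =
        max (ν (x i)) (ν z) := by
      apply le_antisymm
      · refine Finset.sup'_le _ _ fun j _ => ?_
        fin_cases j <;> simp
      · exact max_le (Finset.le_sup' (fun j => ν ((![x i, z] : Fin 2 → M) j)) (Finset.mem_univ 0))
          (Finset.le_sup' (fun j => ν ((![x i, z] : Fin 2 → M) j)) (Finset.mem_univ 1))
    simpa [e, Fin.sum_univ_two] using ht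
  obtain ⟨t, ht⟩ := (((Set.finite_iUnion hone).union
    (finite_val_sum_ne hC d y hy0)).infinite_compl).nonempty
  simp only [Set.mem_compl_iff, Set.mem_union, Set.mem_iUnion, Set.mem_setOf_eq, not_or,
    not_exists, not_not] at ht
  calc ∏ i, max (ν (x i)) (ν z) = ∏ i, ν (x i + algebraMap ℂ M t * z) :=
        Finset.prod_congr rfl fun i _ => (ht.1 i).symm
    _ = ν (∑ j : Fin (d + 1), algebraMap ℂ M (t ^ (j : ℕ)) * y j) := by rw [← map_prod, hexp]
    _ = _ := by
        rw [ht.2]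
        exact congrArg _ (funext fun j => by rw [hy, map_mul, map_pow])

end Generic

theorem max_exp (a b : ℤ) : max (WithZero.exp a) (WithZero.exp b) = WithZero.exp (max a b) := by
  rcases le_total a b with h | h
  · rw [max_eq_right h, max_eq_right (WithZero.exp_le_exp.mpr h)]
  · rw [max_eq_left h, max_eq_left (WithZero.exp_le_exp.mpr h)]

theorem prod_exp {ι : Type*} (s : Finset ι) (a : ι → ℤ) :
    ∏ i ∈ s, WithZero.exp (a i) = WithZero.exp (∑ i ∈ s, a i) := by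
  classical
  induction s using Finset.induction_on with
  | empty => simp
  | insert i s hi ih => rw [Finset.prod_insert hi, Finset.sum_insert hi, WithZero.exp_add, ih]

/-- a family of integers is determined, up to order, by `b ↦ ∑ max (aᵢ) b` -/
theorem exists_eq_of_sum_max {ι : Type*} [Fintype ι] {a a' : ι → ℤ}
    (h : ∀ b : ℤ, ∑ i, max (a i) b = ∑ i, max (a' i) b) (i₀ : ι) : ∃ i, a i = a' i₀ := by
  by_contra hne
  push Not at hne
  have key : ∀ (c : ι → ℤ) (b : ℤ), ∑ i, (max (c i) (b + 1) + max (c i) (b - 1) - 2 * max (c i) b) =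
      (∑ i, max (c i) (b + 1)) + (∑ i, max (c i) (b - 1)) - 2 * ∑ i, max (c i) b := fun c b => by
    rw [Finset.sum_sub_distrib, Finset.sum_add_distrib, Finset.mul_sum]
  have h1 : ∑ i, (max (a i) (a' i₀ + 1) + max (a i) (a' i₀ - 1) - 2 * max (a i) (a' i₀)) = 0 :=
    Finset.sum_eq_zero fun i _ => by have := hne i; omega
  rw [key, h, h, h, ← key] at h1
  have h2 := (Finset.sum_eq_zero_iff_of_nonneg (fun i _ => by omega)).mp h1 i₀ (Finset.mem_univ _)
  omega

variable {N : ℕ} [NeZero N]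

/-- `j` as a holomorphic function -/
def jH : HolH := ⟨ModFun.jFun, ModFun.mdiff_jFun⟩

theorem aeval_jH_apply (P : Polynomial ℂ) (τ : ℍ) :
    (Polynomial.aeval jH P : HolH).1 τ = P.eval (ModFun.jFun τ) := by
  induction P using Polynomial.induction_on' with
  | add p q hp hq => simp [hp, hq]
  | monomial m c => simp [Polynomial.aeval_monomial, jH]

theorem analyticOrder_jdiff_eq {τ τ' : ℍ} (h0 : ModFun.jFun τ = 0 ↔ ModFun.jFun τ' = 0)
    (h1 : ModFun.jFun τ = 1728 ↔ ModFun.jFun τ' = 1728) :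
    analyticOrderAt (fun z => ModFun.jFun (ofComplex z) - ModFun.jFun τ) (τ : ℂ) =
      analyticOrderAt (fun z => ModFun.jFun (ofComplex z) - ModFun.jFun τ') (τ' : ℂ) := by
  have key : ∀ τ : ℍ, analyticOrderAt (fun z => ModFun.jFun (ofComplex z) - ModFun.jFun τ) (τ : ℂ) =
      if ModFun.jFun τ = 0 then 3 else if ModFun.jFun τ = 1728 then 2 else 1 := by
    intro τ
    split_ifs with a b
    · obtain ⟨γ, rfl⟩ := ModFun.jFun_eq_iff.mp (ModFun.jFun_rho.trans a.symm)
      simp only [a, sub_zero]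
      exact ModFun.analyticOrderAt_jFun_sub_rho γ
    · obtain ⟨γ, rfl⟩ := ModFun.jFun_eq_iff.mp (ModFun.jFun_I.trans b.symm)
      simp only [b]
      exact ModFun.analyticOrderAt_jFun_sub_I γ
    · exact ModFun.analyticOrderAt_jFun_sub_generic a b
  rw [key, key]
  simp only [h0, h1]

theorem valAt_jdiff_eq {τ τ' : ℍ} (h0 : ModFun.jFun τ = 0 ↔ ModFun.jFun τ' = 0)
    (h1 : ModFun.jFun τ = 1728 ↔ ModFun.jFun τ' = 1728) :
    valAt τ (ofH (jH - algebraMap ℂ HolH (ModFun.jFun τ))) =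
      valAt τ' (ofH (jH - algebraMap ℂ HolH (ModFun.jFun τ'))) := by
  have hne : ∀ c : ℂ, jH - algebraMap ℂ HolH c ≠ 0 := fun c h =>
    ModFun.jFun_not_constant ⟨c, fun z => sub_eq_zero.mp (congrFun (congrArg Subtype.val h) z)⟩
  obtain ⟨m, hm, he⟩ := ordAt_ofH τ (hne (ModFun.jFun τ))
  obtain ⟨m', hm', he'⟩ := ordAt_ofH τ' (hne (ModFun.jFun τ'))
  rw [valAt_eq_exp τ (ofH_ne_zero (hne _)), valAt_eq_exp τ' (ofH_ne_zero (hne _)), he, he']
  change analyticOrderAt (fun z => ModFun.jFun (ofComplex z) - ModFun.jFun τ) (τ : ℂ) = m at hm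
  change analyticOrderAt (fun z => ModFun.jFun (ofComplex z) - ModFun.jFun τ') (τ' : ℂ) = m' at hm'
  rw [analyticOrder_jdiff_eq h0 h1, hm'] at hm
  have : m' = m := by exact_mod_cast hm
  rw [this]

theorem valAt_ofH_eq_one (τ : ℍ) {f : HolH} (h : (f : ℍ → ℂ) τ ≠ 0) : valAt τ (ofH f) = 1 := by
  have hf : f ≠ 0 := by rintro rfl; exact h rfl
  rw [valAt_eq_exp τ (ofH_ne_zero hf), ordAt_ofH_eq_zero τ h, neg_zero, WithZero.exp_zero]

theorem valAt_aeval_jH {P : Polynomial ℂ} (hP : P ≠ 0) (τ : ℍ) :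
    valAt τ (ofH (Polynomial.aeval jH P)) =
      valAt τ (ofH (jH - algebraMap ℂ HolH (ModFun.jFun τ))) ^
        P.rootMultiplicity (ModFun.jFun τ) := by
  obtain ⟨Q, hQ, hQr⟩ := Polynomial.exists_eq_pow_rootMultiplicity_mul_and_not_dvd P hP
    (ModFun.jFun τ)
  rw [Polynomial.dvd_iff_isRoot] at hQr
  conv_lhs => rw [hQ]
  rw [map_mul, map_pow, map_mul, map_pow, map_mul, map_pow, map_sub, Polynomial.aeval_X,
    Polynomial.aeval_C, valAt_ofH_eq_one τ (f := Polynomial.aeval jH Q)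
      (by rw [aeval_jH_apply]; exact hQr), mul_one]

theorem exists_polyJ_twist {σ : ℂ →+* ℂ} {r : ℕ} {F G : ℍ → ℂ}
    (hF : IsMF 1 (12 * (r : ℤ)) F) (ht : IsTwist σ F G) :
    ∃ P : Polynomial ℂ, (∀ τ, F τ = P.eval (ModFun.jFun τ) * discriminant τ ^ r) ∧
      ∀ τ, G τ = (P.map σ).eval (ModFun.jFun τ) * discriminant τ ^ r := by
  obtain ⟨P, hdeg, hP⟩ := ModFun.levelOne_polyJ r F hF
  refine ⟨P, hP, ?_⟩
  have hb : ∀ i, i ≤ r → (fun τ => ModFun.jFun τ ^ i * discriminant τ ^ r) =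
      (ModularForm.E₄ : ℍ → ℂ) ^ (3 * i) * discriminant ^ (r - i) := by
    intro i hi
    funext τ
    have e := congrFun ModFun.jFun_mul_delta τ
    simp only [Pi.mul_apply, Pi.pow_apply] at e ⊢
    rw [pow_mul, ← e, mul_pow, mul_assoc, ← pow_add, Nat.add_sub_cancel' hi]
  have hsum : ∀ (Q : Polynomial ℂ), Q.natDegree ≤ r →
      (fun τ => Q.eval (ModFun.jFun τ) * discriminant τ ^ r) = ∑ i ∈ Finset.range (r + 1),
        Q.coeff i • ((ModularForm.E₄ : ℍ → ℂ) ^ (3 * i) * discriminant ^ (r - i)) := by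
    intro Q hQ
    funext τ
    rw [Finset.sum_apply, Polynomial.eval_eq_sum_range' (Nat.lt_succ_of_le hQ), Finset.sum_mul]
    refine Finset.sum_congr rfl fun i hi => ?_
    rw [Pi.smul_apply, ← hb i (Nat.lt_succ_iff.mp (Finset.mem_range.mp hi)), smul_eq_mul]
    ring
  have h4 : IsTwist σ (ModularForm.E₄ : ℍ → ℂ) ModularForm.E₄ :=
    IsTwist.of_intQ (ModFun.RatMF.isMF ModFun.E4_mem).good ModFun.intQ_E4
  have h1 := IsTwist.sum (Finset.range (r + 1)) fun i _ =>
    ((h4.pow (3 * i)).mul ((IsTwist.delta (σ := σ)).pow (r - i))).smul (P.coeff i)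
  rw [← hsum P hdeg, ← funext hP] at h1
  intro τ
  rw [ht.unique h1]
  refine Eq.trans ?_ (congrFun (hsum (P.map σ) ((Polynomial.natDegree_map_le).trans hdeg)) τ).symm
  simp only [Polynomial.coeff_map]

theorem valAt_levelOne_twist {σ : ℂ ≃+* ℂ} {r : ℕ} {F G : HolH}
    (hF : IsMF 1 (12 * (r : ℤ)) (F : ℍ → ℂ)) (ht : IsTwist (σ : ℂ →+* ℂ) F G) {τ τ' : ℍ}
    (hj : ModFun.jFun τ = σ (ModFun.jFun τ')) : valAt τ (ofH G) = valAt τ' (ofH F) := by
  obtain ⟨P, hP, hP'⟩ := exists_polyJ_twist hF ht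
  have eF : F = Polynomial.aeval jH P * deltaH ^ r := Subtype.ext (funext fun z => by
    show (F : ℍ → ℂ) z = (Polynomial.aeval jH P : HolH).1 z * discriminant z ^ r
    rw [aeval_jH_apply, hP])
  have eG : G = Polynomial.aeval jH (P.map (σ : ℂ →+* ℂ)) * deltaH ^ r :=
    Subtype.ext (funext fun z => by
      show (G : ℍ → ℂ) z = (Polynomial.aeval jH (P.map (σ : ℂ →+* ℂ)) : HolH).1 z * discriminant z ^ r
      rw [aeval_jH_apply, hP'])
  rcases eq_or_ne P 0 with rfl | hP0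
  · simp [eF, eG]
  have hΔ : ∀ z : ℍ, valAt z (ofH (deltaH ^ r)) = 1 := fun z =>
    valAt_ofH_eq_one z (pow_ne_zero r (discriminant_ne_zero z))
  have hroot : (P.map (σ : ℂ →+* ℂ)).rootMultiplicity (ModFun.jFun τ) =
      P.rootMultiplicity (ModFun.jFun τ') := by
    rw [hj]
    exact (Polynomial.eq_rootMultiplicity_map σ.injective _).symm
  rw [eF, eG, map_mul ofH, map_mul (valAt τ), hΔ, map_mul ofH, map_mul (valAt τ'), hΔ,
    valAt_aeval_jH ((Polynomial.map_ne_zero_iff σ.injective).mpr hP0), valAt_aeval_jH hP0, hroot,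
    valAt_jdiff_eq (τ := τ) (τ' := τ')]
  · rw [hj]; exact map_eq_zero_iff σ σ.injective
  · rw [hj]
    exact ⟨fun h => σ.injective (h.trans (map_ofNat σ 1728).symm), fun h => by rw [h, map_ofNat]⟩

/-- the conjugates as holomorphic functions -/
def conjH (k : ℤ) (f : HolH) (q : Cosets N) : HolH :=
  ⟨conjF k (f : ℍ → ℂ) q, ModFun.mdiff_slash f.2 k _⟩

theorem valAt_conjH (k : ℤ) {f : HolH} (hf : f ≠ 0) (τ : ℍ) (q : Cosets N) :
    valAt τ (ofH (conjH k f q)) = WithZero.exp (-ordAt (q.out⁻¹ • τ) (ofH f)) := by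
  let u : HolH := ⟨(1 : ℍ → ℂ) ∣[k] q.out⁻¹, ModFun.mdiff_slash mdifferentiable_const k _⟩
  let g : HolH := ⟨fun z => (f : ℍ → ℂ) (q.out⁻¹ • z), mdiff_smul_SL _ f.2⟩
  have e : conjH k f q = g * u := Subtype.ext (funext fun z => by
    show conjF k (f : ℍ → ℂ) q z = (f : ℍ → ℂ) (q.out⁻¹ • z) * ((1 : ℍ → ℂ) ∣[k] q.out⁻¹) z
    rw [conjF, SL_slash_apply, SL_slash_apply, Pi.one_apply, one_mul])
  have hu : (u : ℍ → ℂ) τ ≠ 0 := by
    show ((1 : ℍ → ℂ) ∣[k] q.out⁻¹) τ ≠ 0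
    rw [SL_slash_apply, Pi.one_apply, one_mul]
    exact zpow_ne_zero _ (denom_ne_zero _ τ)
  have hg : ofH g = pullSL q.out⁻¹ (ofH f) := (pullSL_ofH _ _).symm
  rw [e, map_mul, map_mul, valAt_ofH_eq_one τ hu, mul_one, hg,
    valAt_eq_exp τ ((map_ne_zero _).mpr (ofH_ne_zero hf)), ordAt_pullSL _ _ (ofH_ne_zero hf)]

/-- if all orders of `f` are divisible by `n`, so are those of a twist -/
theorem dvd_ordAt_twist {σ : ℂ ≃+* ℂ} {s n : ℕ} {f h : HolH}
    (hf : IsMF N ((12 * s : ℕ) : ℤ) (f : ℍ → ℂ)) (hh : IsMF N ((12 * s : ℕ) : ℤ) (h : ℍ → ℂ))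
    (ht : IsTwist (σ : ℂ →+* ℂ) f h) (hf0 : f ≠ 0)
    (hdiv : ∀ τ : ℍ, (n : ℤ) ∣ ordAt τ (ofH f)) (τ : ℍ) : (n : ℤ) ∣ ordAt τ (ofH h) := by
  classical
  set k : ℤ := ((12 * s : ℕ) : ℤ) with hk
  have hh0 : h ≠ 0 := fun e => hf0 (Subtype.ext (ht.eq_zero_iff.mpr (congrArg Subtype.val e)))
  obtain ⟨τ', hτ'⟩ := ModFun.jFun_surjective (σ.symm (ModFun.jFun τ))
  have hj : ModFun.jFun τ = σ (ModFun.jFun τ') := by rw [hτ', RingEquiv.apply_symm_apply]
  let E : HolH → ℕ → HolH := fun F m =>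
    ∑ S ∈ (Finset.univ : Finset (Cosets N)).powersetCard m, ∏ q ∈ S, conjH (N := N) k F q
  have hE : ∀ F m, ((E F m : HolH) : ℍ → ℂ) = esum (conjF k (F : ℍ → ℂ)) (Finset.univ : Finset (Cosets N)) m := by
    intro F m
    simp only [E, esum, AddSubmonoidClass.coe_finsetSum, SubmonoidClass.coe_finsetProd]
    rfl
  have hEmem : ∀ m, IsMF 1 (12 * ((m * s : ℕ) : ℤ)) ((E f m : HolH) : ℍ → ℂ) := by
    intro m
    have h1 := Submodule.smul_mem (RatMF 1 ((m : ℤ) * k)) ((-1 : ℂ) ^ m)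
      (ModFun.charC_mem (N := N) hf m)
    rw [ModFun.charC, smul_smul, ← mul_pow, neg_one_mul, neg_neg, one_pow, one_smul] at h1
    rw [hE]
    exact (ModFun.RatMF.isMF h1).cast (by rw [hk]; push_cast; ring)
  have hval : ∀ m, valAt τ (ofH (E h m)) = valAt τ' (ofH (E f m)) := fun m =>
    valAt_levelOne_twist (r := m * s) (hEmem m) (by
      rw [hE, hE]
      exact isTwist_esum hf hh ht m) hj
  have hz : ∀ (t : ℍ) (b : ℤ), valAt t (ofH (coordH t) ^ (-b)) = WithZero.exp b := fun t b => by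
    rw [map_zpow₀, valAt_coordH, ← WithZero.exp_zsmul]
    congr 1
    ring
  have hz0 : ∀ (t : ℍ) (b : ℤ), ofH (coordH t) ^ b ≠ 0 := fun t b => zpow_ne_zero _ fun e => by
    have := congrArg (valAt t) e
    rw [valAt_coordH, map_zero] at this
    exact WithZero.exp_ne_zero this
  have hsum : ∀ b : ℤ,
      ∑ q : Cosets N, max (-ordAt (q.out⁻¹ • τ') (ofH f)) b =
        ∑ q : Cosets N, max (-ordAt (q.out⁻¹ • τ) (ofH h)) b := by
    intro b
    have h1 := prod_max_eq (M := MeroH) (ν := valAt τ') (fun c hc => valAt_const τ' hc)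
      (fun q => ofH (conjH (N := N) k f q)) _ (hz0 τ' (-b))
    have h2 := prod_max_eq (M := MeroH) (ν := valAt τ) (fun c hc => valAt_const τ hc)
      (fun q => ofH (conjH (N := N) k h q)) _ (hz0 τ (-b))
    simp only [valAt_conjH k hf0, valAt_conjH k hh0, hz, max_exp, prod_exp, ← map_prod ofH,
      ← map_sum ofH] at h1 h2
    apply WithZero.exp_injective
    rw [h1, h2]
    refine congrArg _ (funext fun j => ?_)
    congr 1
    exact (hval _).symm
  obtain ⟨q, hq⟩ := exists_eq_of_sum_max hsum (q₁ N)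
  have : ordAt ((q₁ N).out⁻¹ • τ) (ofH h) = ordAt τ (ofH h) := by
    have e := valAt_conjH k hh0 τ (q₁ N)
    rw [show conjH k h (q₁ N) = h from Subtype.ext (ModFun.conjF_q₁ hh.inv),
      valAt_eq_exp τ (ofH_ne_zero hh0)] at e
    exact (neg_injective (WithZero.exp_injective e)).symm
  rw [← this, ← neg_injective hq]
  exact hdiv _

end FLTAgent.JTors
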