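import Fermat.Agent.JTors.DescentAux
import Fermat.Agent.JTors.TwistOrd
import Fermat.Agent.JTors.Monodromy
import Fermat.Agent.JTors.LatticeAPI
import Fermat.Agent.JTors.PoincareAPI

/-!
Every torsion character is the multiplier of a root of an element of the function field over `ℚ̄`,
and a trivial multiplier means an `n`-th power.
-/

set_option autoImplicit false

noncomputable section

open UpperHalfPlane Filter Topology ModularCurve CongruenceSubgroup ModularForm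
open scoped MatrixGroups Manifold

namespace FLTAgent.JTors

open Genus (Qbar embC FN gen)
open ModFun (Good IsMF IsCF qx qp)
open scoped Genus

variable {N : ℕ} [NeZero N] {n : ℕ}

/-- the weight of the `n`-th powers -/
abbrev wt (n : ℕ) : ℤ := ((12 * (3 * n) : ℕ) : ℤ)

theorem wt_eq (n : ℕ) : wt n = (n : ℤ) * 36 := by simp [wt]; ring

/-- cusp forms of weight 36 with multiplier -/
structure Auto (χ : Gamma0 N →* ℂ) (G : ℍ → ℂ) : Prop where
  holo : MDiff G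
  slash : ∀ γ : Gamma0 N, G ∣[(36 : ℤ)] (γ : SL(2, ℤ)) = χ γ • G
  zero : ∀ δ : SL(2, ℤ), IsZeroAtImInfty (G ∣[(36 : ℤ)] δ)

/-- multipliers of order dividing `n`, trivial on translations -/
structure IsMult (n : ℕ) (χ : Gamma0 N →* ℂ) : Prop where
  pow_eq_one : ∀ γ, χ γ ^ n = 1
  T_one : χ ⟨ModularGroup.T, ModFun.T_mem_Gamma0 N⟩ = 1

theorem IsTorsChar.isMult {χ : Gamma0 N →* ℂ} (h : IsTorsChar n χ) : IsMult n χ :=
  ⟨h.pow_eq_one, h.special _ ⟨1, ModularGroup.T, Or.inr (Or.inr (Or.inr ⟨1, (zpow_one _).symm⟩)),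
    by simp⟩⟩

theorem Auto.apply_T {χ : Gamma0 N →* ℂ} {G : ℍ → ℂ} (h : Auto χ G) (τ : ℍ) :
    G (((1 : ℤ) : ℝ) +ᵥ τ) = χ ⟨ModularGroup.T, ModFun.T_mem_Gamma0 N⟩ * G τ := by
  have e := congrFun (h.slash ⟨ModularGroup.T, ModFun.T_mem_Gamma0 N⟩) τ
  rw [SL_slash_apply, Pi.smul_apply, smul_eq_mul] at e
  have hd : denom (ModularGroup.T : GL (Fin 2) ℝ) (τ : ℂ) = 1 := by
    rw [ModularGroup.denom_apply]; simp [ModularGroup.T]
  rw [hd, one_zpow, mul_one] at e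
  rw [← UpperHalfPlane.modular_T_zpow_smul, zpow_one]
  exact e

theorem Auto.good {χ : Gamma0 N →* ℂ} {G : ℍ → ℂ} (hχ : IsMult n χ) (h : Auto χ G) : Good G where
  per := ModFun.periodic_ofComplex_of fun z hz hz' => by
    have e := h.apply_T ⟨z, hz⟩
    rw [hχ.T_one, one_mul] at e
    refine Eq.trans (congrArg G (UpperHalfPlane.ext ?_)) e
    simp [add_comm]
  holo := h.holo
  bdd := by
    have := (h.zero 1).boundedAtFilter
    rw [SlashAction.slash_one] at this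
    exact this

theorem Auto.sub {χ : Gamma0 N →* ℂ} {G G' : ℍ → ℂ} (h : Auto χ G) (h' : Auto χ G') :
    Auto χ (G - G') :=
  ⟨h.holo.sub h'.holo, fun γ => by
    rw [sub_eq_add_neg, SlashAction.add_slash, SlashAction.neg_slash, h.slash, h'.slash, smul_add,
      smul_neg], fun δ => by
    rw [sub_eq_add_neg, SlashAction.add_slash, SlashAction.neg_slash, ← sub_eq_add_neg]
    have := (h.zero δ).sub (h'.zero δ)
    rwa [sub_zero] at this⟩

theorem Auto.smul {χ : Gamma0 N →* ℂ} {G : ℍ → ℂ} (c : ℂ) (h : Auto χ G) : Auto χ (c • G) :=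
  ⟨h.holo.const_smul c, fun γ => by rw [SL_smul_slash, h.slash, smul_comm], fun δ => by
    rw [SL_smul_slash]
    have := (h.zero δ).const_smul c
    rwa [smul_zero] at this⟩

theorem Auto.mult_eq {χ χ' : Gamma0 N →* ℂ} {G : ℍ → ℂ} (h : Auto χ G) (h' : Auto χ' G)
    (hG : G ≠ 0) : χ = χ' :=
  MonoidHom.ext fun γ => smul_left_injective ℂ hG ((h.slash γ).symm.trans (h'.slash γ))

theorem Auto.mul_pow_isCF (hn : 0 < n) {χ : Gamma0 N →* ℂ} (hχ : ∀ γ, χ γ ^ n = 1) {G G' : ℍ → ℂ}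
    (h : Auto χ G) (h' : Auto χ G') : IsCF N (wt n) (G * G' ^ (n - 1)) := by
  have hw : wt n = 36 + ((n - 1 : ℕ) : ℤ) * 36 := by
    rw [wt_eq, Nat.cast_sub (Nat.one_le_iff_ne_zero.mpr hn.ne')]; ring
  refine ⟨h.holo.mul (h'.holo.pow _), fun γ hγ => ?_, fun δ => ?_⟩
  · rw [hw, mul_slash_SL2, ModFun.pow_slash, h.slash ⟨γ, hγ⟩, h'.slash ⟨γ, hγ⟩]
    funext τ
    have e : χ ⟨γ, hγ⟩ * χ ⟨γ, hγ⟩ ^ (n - 1) = 1 := by
      rw [← pow_succ', Nat.sub_add_cancel hn, hχ]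
    simp only [Pi.mul_apply, Pi.pow_apply, Pi.smul_apply, smul_eq_mul, mul_pow]
    linear_combination (G τ * G' τ ^ (n - 1)) * e
  · rw [hw, mul_slash_SL2, ModFun.pow_slash]
    have := Filter.Tendsto.mul (h.zero δ) (Filter.Tendsto.pow (h'.zero δ) (n - 1))
    rwa [zero_mul] at this

theorem Auto.pow_isCF (hn : 0 < n) {χ : Gamma0 N →* ℂ} (hχ : ∀ γ, χ γ ^ n = 1) {G : ℍ → ℂ}
    (h : Auto χ G) : IsCF N (wt n) (G ^ n) := by
  have := h.mul_pow_isCF hn hχ h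
  rwa [← pow_succ', Nat.sub_add_cancel hn] at this

theorem exists_multiplier (hn : 0 < n) {G : HolH} (hG : G ≠ 0)
    (hH : IsCF N (wt n) ((G : ℍ → ℂ) ^ n)) :
    ∃ χ : Gamma0 N →* ℂ, (∀ γ, χ γ ^ n = 1) ∧ Auto χ (G : ℍ → ℂ) := by
  let sl : SL(2, ℤ) → HolH := fun γ =>
    ⟨(G : ℍ → ℂ) ∣[(36 : ℤ)] γ, ModFun.mdiff_slash G.2 36 γ⟩
  have hex : ∀ γ : Gamma0 N, ∃ c : ℂ, c ^ n = 1 ∧
      (G : ℍ → ℂ) ∣[(36 : ℤ)] (γ : SL(2, ℤ)) = c • (G : ℍ → ℂ) := by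
    intro γ
    have hp : sl γ ^ n = G ^ n := Subtype.ext (by
      show ((G : ℍ → ℂ) ∣[(36 : ℤ)] (γ : SL(2, ℤ))) ^ n = (G : ℍ → ℂ) ^ n
      rw [← ModFun.pow_slash, ← wt_eq]
      exact hH.inv _ γ.2)
    obtain ⟨a, ha, hae⟩ := exists_const_of_pow_eq hn (c := 1) (y := ofH (sl γ) / ofH G)
      (by rw [div_pow, ← map_pow, ← map_pow, hp,
        div_self (ofH_ne_zero (pow_ne_zero n hG)), map_one])
    rw [div_eq_iff (ofH_ne_zero hG), ← AlgHom.commutes (ofH), ← map_mul,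
      ofH_injective.eq_iff] at hae
    refine ⟨a, ha, (congrArg Subtype.val hae).trans ?_⟩
    funext τ
    simp
  choose c hc1 hc using hex
  have hG' : (G : ℍ → ℂ) ≠ 0 := fun e => hG (Subtype.ext e)
  have hone : c 1 = 1 := smul_left_injective ℂ hG' (by
    show c 1 • (G : ℍ → ℂ) = (1 : ℂ) • (G : ℍ → ℂ)
    rw [← hc, one_smul]
    exact SlashAction.slash_one _ _)
  refine ⟨⟨⟨c, hone⟩, fun γ γ' => smul_left_injective ℂ hG' ?_⟩, hc1, G.2, hc, fun δ => ?_⟩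
  · show c (γ * γ') • (G : ℍ → ℂ) = (c γ * c γ') • (G : ℍ → ℂ)
    rw [← hc, Subgroup.coe_mul, SlashAction.slash_mul, hc, SL_smul_slash, hc, smul_smul]
  · refine isZeroAtImInfty_of_pow hn ?_
    rw [← ModFun.pow_slash, ← wt_eq]
    exact hH.zero δ

theorem exists_lead {A : PowerSeries ℂ} (hA : A ≠ 0) :
    ∃ a, (∀ i < a, A.coeff i = 0) ∧ A.coeff a ≠ 0 := by
  classical
  have h : ∃ a, A.coeff a ≠ 0 := by
    by_contra hc
    push Not at hc
    exact hA (PowerSeries.ext fun m => by rw [hc m, map_zero])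
  exact ⟨Nat.find h, fun i hi => not_not.mp (Nat.find_min h hi), Nat.find_spec h⟩

theorem mult_T_one (hn : 0 < n) {χ : Gamma0 N →* ℂ} {G : ℍ → ℂ} (h : Auto χ G)
    (hq : Good (G ^ n)) {A : PowerSeries ℂ} (hA : A ≠ 0) (he : qx (G ^ n) = A ^ n) :
    χ ⟨ModularGroup.T, ModFun.T_mem_Gamma0 N⟩ = 1 := by
  obtain ⟨a, hlow, hlead⟩ := exists_lead hA
  obtain ⟨B, hB⟩ := (PowerSeries.X_pow_dvd_iff).mpr hlow
  have hB0 : PowerSeries.constantCoeff B ≠ 0 := by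
    rw [hB] at hlead
    rwa [PowerSeries.coeff_X_pow_mul', if_pos le_rfl, Nat.sub_self,
      PowerSeries.coeff_zero_eq_constantCoeff_apply] at hlead
  have hAn : A ^ n = PowerSeries.X ^ (a * n) * B ^ n := by rw [hB, mul_pow, ← pow_mul]
  have h1 := tendsto_div_qp_pow hq (a := a * n) (fun i hi => by
    rw [he, hAn, PowerSeries.coeff_X_pow_mul', if_neg (by omega)])
  rw [he, hAn, PowerSeries.coeff_X_pow_mul', if_pos le_rfl, Nat.sub_self,
    PowerSeries.coeff_zero_eq_constantCoeff_apply, map_pow] at h1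
  rw [multiplier_cusp (W := G) h.holo.continuous hn (N := 1) ((a * n : ℕ) : ℤ) 1
    (pow_ne_zero n hB0) h.apply_T (h1.congr fun τ => by simp [qN_eq_zpow, qp]; rw [← Nat.cast_mul, zpow_natCast]),
    Complex.exp_eq_one_iff]
  refine ⟨(a : ℤ), ?_⟩
  have hn0 : (n : ℂ) ≠ 0 := Nat.cast_ne_zero.mpr hn.ne'
  push_cast
  field_simp

/-- twist of a cusp form with multiplier -/
theorem exists_twist (hn : 0 < n) {χ : Gamma0 N →* ℂ} (hχ : IsMult n χ) {G : ℍ → ℂ}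
    (h : Auto χ G) (hG : G ≠ 0) (σ : ℂ ≃+* ℂ) :
    ∃ (χ' : Gamma0 N →* ℂ) (G' : ℍ → ℂ), IsMult n χ' ∧ Auto χ' G' ∧
      IsTwist (σ : ℂ →+* ℂ) G G' := by
  have hgood := h.good hχ
  let GH : HolH := ⟨G, h.holo⟩
  have hGH : GH ≠ 0 := fun e => hG (congrArg Subtype.val e)
  have hcf := h.pow_isCF hn hχ.pow_eq_one
  obtain ⟨H', hH', eH⟩ := ModFun.cusp_twist hcf (σ : ℂ →+* ℂ)
  let HH : HolH := ⟨H', hH'.holo⟩
  have htw : IsTwist (σ : ℂ →+* ℂ) (G ^ n) H' := ⟨hcf.isMF.good, hH'.isMF.good, eH⟩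
  have hHH : HH ≠ 0 := fun e => by
    have : G ^ n = 0 := htw.eq_zero_iff.mpr (congrArg Subtype.val e)
    exact pow_ne_zero n hGH (Subtype.ext this)
  obtain ⟨G₁, hG₁⟩ := exists_holRoot hn hHH (dvd_ordAt_twist (f := GH ^ n) (h := HH) hcf.isMF
    hH'.isMF htw (pow_ne_zero n hGH) fun τ => ⟨ordAt τ (ofH GH), by rw [map_pow, ordAt_pow]⟩)
  have hG₁0 : G₁ ≠ 0 := fun e => hHH (by rw [← hG₁, e, zero_pow hn.ne'])
  have e₁ : (G₁ : ℍ → ℂ) ^ n = H' := congrArg Subtype.val hG₁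
  obtain ⟨χ', hχ', h'⟩ := exists_multiplier (N := N) hn hG₁0 (by rw [e₁]; exact hH')
  have hA : (qx G).map (σ : ℂ →+* ℂ) ≠ 0 := by
    intro e
    refine hG (Good.qx_inj hgood Good.zero ?_)
    rw [PowerSeries.map_injective (σ : ℂ →+* ℂ) σ.injective (e.trans (map_zero _).symm)]
    simp [qx, qExpansion_zero]
  have heq : qx ((G₁ : ℍ → ℂ) ^ n) = ((qx G).map (σ : ℂ →+* ℂ)) ^ n := by
    rw [e₁, eH, Good.qx_pow hgood, map_pow]
  have hm : IsMult n χ' := ⟨hχ', mult_T_one hn h' (by rw [e₁]; exact hH'.isMF.good) hA heq⟩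
  have hg₁ := h'.good hm
  rw [Good.qx_pow hg₁] at heq
  obtain ⟨ζ, hζn, hζ⟩ := exists_scalar_of_pow_eq hn hA heq
  have hζ0 : ζ ≠ 0 := fun e => by simp [e, hn.ne'] at hζn
  refine ⟨χ', ζ⁻¹ • (G₁ : ℍ → ℂ), hm, h'.smul _, hgood, hg₁.smul _, ?_⟩
  rw [Good.qx_smul _ hg₁, hζ, smul_smul, inv_mul_cancel₀ hζ0, one_smul]

theorem twist_mult_eq (hn : 0 < n) {σ : ℂ →+* ℂ} {χ χ₁ χ₂ : Gamma0 N →* ℂ}
    {G₁ G₂ G₁' G₂' : ℍ → ℂ} (hχ : IsMult n χ) (hχ₁ : IsMult n χ₁) (hχ₂ : IsMult n χ₂)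
    (h₁ : Auto χ G₁) (h₂ : Auto χ G₂) (h₁' : Auto χ₁ G₁') (h₂' : Auto χ₂ G₂')
    (t₁ : IsTwist σ G₁ G₁') (t₂ : IsTwist σ G₂ G₂') (hne₁ : G₁' ≠ 0) (hne₂ : G₂' ≠ 0) :
    χ₁ = χ₂ := by
  obtain ⟨K, hK, eK⟩ := ModFun.cusp_twist (h₁.mul_pow_isCF hn hχ.pow_eq_one h₂) σ
  have e : K = G₁' * G₂' ^ (n - 1) :=
    IsTwist.unique ⟨(h₁.mul_pow_isCF hn hχ.pow_eq_one h₂).isMF.good, hK.isMF.good, eK⟩
      (t₁.mul (t₂.pow _))
  have hK0 : G₁' * G₂' ^ (n - 1) ≠ 0 := by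
    intro h0
    have h0' : (⟨G₁', h₁'.holo⟩ : HolH) * (⟨G₂', h₂'.holo⟩ : HolH) ^ (n - 1) = 0 := Subtype.ext h0
    rcases mul_eq_zero.mp h0' with h | h
    · exact hne₁ (congrArg Subtype.val h)
    · exact hne₂ (congrArg Subtype.val (pow_eq_zero_iff'.mp h).1)
  refine MonoidHom.ext fun γ => ?_
  have hinv := hK.inv _ γ.2
  rw [e, show wt n = 36 + ((n - 1 : ℕ) : ℤ) * 36 by
    rw [wt_eq, Nat.cast_sub (Nat.one_le_iff_ne_zero.mpr hn.ne')]; ring,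
    mul_slash_SL2, ModFun.pow_slash, h₁'.slash, h₂'.slash] at hinv
  have h1 : χ₁ γ * χ₂ γ ^ (n - 1) = 1 := by
    refine smul_left_injective ℂ hK0 ?_
    show _ • (G₁' * G₂' ^ (n - 1)) = (1 : ℂ) • (G₁' * G₂' ^ (n - 1))
    rw [one_smul]
    conv_rhs => rw [← hinv]
    funext τ
    simp [mul_pow]; ring
  calc χ₁ γ = χ₁ γ * χ₂ γ ^ n := by rw [hχ₂.pow_eq_one, mul_one]
    _ = χ₁ γ * χ₂ γ ^ (n - 1) * χ₂ γ := by rw [mul_assoc, ← pow_succ, Nat.sub_add_cancel hn]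
    _ = χ₂ γ := by rw [h1, one_mul]

/-- normalised with maximal order at `∞` -/
structure Best (χ : Gamma0 N →* ℂ) (G : ℍ → ℂ) (a : ℕ) : Prop where
  auto : Auto χ G
  low : ∀ i < a, (qx G).coeff i = 0
  lead : (qx G).coeff a = 1
  max : ∀ G', Auto χ G' → (∀ i ≤ a, (qx G').coeff i = 0) → G' = 0

theorem Best.ne_zero {χ : Gamma0 N →* ℂ} {G : ℍ → ℂ} {a : ℕ} (h : Best χ G a) : G ≠ 0 := fun e => by
  have := h.lead
  rw [e] at this
  simp [qx, qExpansion_zero] at this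

theorem Best.unique {χ : Gamma0 N →* ℂ} (hχ : IsMult n χ) {G G' : ℍ → ℂ} {a a' : ℕ}
    (h : Best χ G a) (h' : Best χ G' a') : G = G' ∧ a = a' := by
  have hle : ∀ {G G' : ℍ → ℂ} {a a' : ℕ}, Best χ G a → Best χ G' a' → a' ≤ a :=
    fun {G G' a a'} h h' => le_of_not_gt fun hlt =>
      h'.ne_zero (h.max G' h'.auto fun i hi => h'.low i (by omega))
  obtain rfl : a = a' := le_antisymm (hle h' h) (hle h h')
  refine ⟨sub_eq_zero.mp (h.max _ (h.auto.sub h'.auto) fun i hi => ?_), rfl⟩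
  rw [Good.qx_sub (h.auto.good hχ) (h'.auto.good hχ), map_sub]
  rcases hi.lt_or_eq with hi | rfl
  · rw [h.low i hi, h'.low i hi, sub_zero]
  · rw [h.lead, h'.lead, sub_self]

theorem exists_bound (N : ℕ) [NeZero N] (k : ℤ) :
    ∃ B : ℕ, ∀ f : ℍ → ℂ, IsCF N k f → (∀ i < B, (qx f).coeff i = 0) → f = 0 :=
  ⟨(k * (Gamma0 N).index).toNat / 12 + 1, fun f hf h0 => by
    have : hf.toForm = 0 := ModFun.truncC_injective N k (by
      rw [map_zero]
      funext i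
      show (qx ⇑hf.toForm).coeff (i : ℕ) = 0
      rw [IsCF.coe_toForm]
      exact h0 i i.2)
    rw [← IsCF.coe_toForm hf, this]
    rfl⟩

theorem exists_best (hn : 0 < n) {χ : Gamma0 N →* ℂ} (hχ : IsMult n χ) {G : ℍ → ℂ}
    (h : Auto χ G) (hG : G ≠ 0) : ∃ G₀ a, Best χ G₀ a := by
  classical
  obtain ⟨B, hB⟩ := exists_bound N (wt n)
  have hbound : ∀ F : ℍ → ℂ, Auto χ F → (∀ i < B, (qx F).coeff i = 0) → F = 0 := by
    intro F hF h0
    have hg := hF.good hχ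
    have hz : F ^ n = 0 := by
      refine hB _ (hF.pow_isCF hn hχ.pow_eq_one) ?_
      rw [Good.qx_pow hg]
      exact PowerSeries.X_pow_dvd_iff.mp
        (dvd_pow (PowerSeries.X_pow_dvd_iff.mpr h0) hn.ne')
    funext τ
    exact pow_eq_zero_iff hn.ne' |>.mp (congrFun hz τ)
  have hne : ∀ F : ℍ → ℂ, Auto χ F → F ≠ 0 → ∃ F₁ a, Auto χ F₁ ∧
      (∀ i < a, (qx F₁).coeff i = 0) ∧ (qx F₁).coeff a = 1 ∧ a < B ∧
      (∀ i < a, (qx F).coeff i = 0) ∧ (qx F).coeff a ≠ 0 := by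
    intro F hF hF0
    have hg := hF.good hχ
    obtain ⟨a, hlow, hlead⟩ := exists_lead (A := qx F) fun e => hF0 (Good.qx_inj hg Good.zero
      (e.trans (qExpansion_zero 1).symm))
    refine ⟨((qx F).coeff a)⁻¹ • F, a, hF.smul _, ?_, ?_, ?_, hlow, hlead⟩
    · intro i hi
      rw [Good.qx_smul _ hg, map_smul, hlow i hi, smul_zero]
    · rw [Good.qx_smul _ hg, map_smul, smul_eq_mul, inv_mul_cancel₀ hlead]
    · by_contra hle
      exact hF0 (hbound F hF fun i hi => hlow i (by omega))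
  let S := (Finset.range B).filter fun a => ∃ F, Auto χ F ∧
    (∀ i < a, (qx F).coeff i = 0) ∧ (qx F).coeff a = 1
  obtain ⟨F₁, a₁, hF₁, hl₁, hc₁, hlt, -, -⟩ := hne G h hG
  have hS : S.Nonempty := ⟨a₁, Finset.mem_filter.mpr ⟨Finset.mem_range.mpr hlt, F₁, hF₁, hl₁, hc₁⟩⟩
  obtain ⟨-, G₀, hG₀, hl, hc⟩ := Finset.mem_filter.mp (S.max'_mem hS)
  refine ⟨G₀, S.max' hS, hG₀, hl, hc, fun F hF h0 => ?_⟩
  by_contra hF0
  obtain ⟨F₂, a₂, hF₂, hl₂, hc₂, hlt₂, -, hne₂⟩ := hne F hF hF0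
  have hgt : S.max' hS < a₂ := lt_of_not_ge fun hle => hne₂ (h0 a₂ hle)
  exact absurd (S.le_max' a₂ (Finset.mem_filter.mpr ⟨Finset.mem_range.mpr hlt₂, F₂, hF₂, hl₂, hc₂⟩))
    (not_le.mpr hgt)

theorem Best.twist (hn : 0 < n) {σ : ℂ ≃+* ℂ} {χ χ' : Gamma0 N →* ℂ} {G G' : ℍ → ℂ} {a : ℕ}
    (hχ : IsMult n χ) (hχ' : IsMult n χ') (h : Best χ G a) (h' : Auto χ' G')
    (ht : IsTwist (σ : ℂ →+* ℂ) G G') : Best χ' G' a := by
  refine ⟨h', fun i hi => ?_, ?_, fun F hF h0 => ?_⟩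
  · rw [ht.eq, PowerSeries.coeff_map, h.low i hi, map_zero]
  · rw [ht.eq, PowerSeries.coeff_map, h.lead, map_one]
  · by_contra hF0
    obtain ⟨χ'', F', hχ'', hF', htF⟩ := exists_twist hn hχ' hF hF0 σ.symm
    have hF'0 : F' ≠ 0 := fun e => hF0 (htF.eq_zero_iff.mpr e)
    obtain rfl : χ = χ'' := twist_mult_eq hn hχ' hχ hχ'' h' hF h.auto hF' ht.symm htF h.ne_zero hF'0
    refine hF'0 (h.max F' hF' fun i hi => ?_)
    rw [htF.eq, PowerSeries.coeff_map, h0 i hi, map_zero]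

theorem finite_mults (hn : 0 < n) :
    {χ : Gamma0 N →* ℂ | ∀ γ, χ γ ^ n = 1}.Finite := by
  classical
  haveI := groupFG_Gamma0 (N := N)
  obtain ⟨T, hT⟩ := Group.FG.out (G := Gamma0 N)
  have hf : (Set.univ.pi fun _ : T => {y : ℂ | y ^ n = 1}).Finite := Set.Finite.pi fun _ => by
    refine Set.Finite.subset (Polynomial.nthRoots n (1 : ℂ)).toFinset.finite_toSet ?_
    intro y hy
    simpa [Polynomial.mem_nthRoots hn] using hy
  refine Set.Finite.of_finite_image (f := fun χ : Gamma0 N →* ℂ => fun t : T => χ t.1)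
    (hf.subset ?_) ?_
  · rintro _ ⟨χ, hχ, rfl⟩ t -
    exact hχ t.1
  · intro χ hχ χ' hχ' e
    refine MonoidHom.ext fun γ => ?_
    have hγ : γ ∈ Subgroup.closure (T : Set (Gamma0 N)) := by simp [hT]
    induction hγ using Subgroup.closure_induction with
    | mem g hg => exact congrFun e ⟨g, hg⟩
    | one => simp
    | mul g g' _ _ ih ih' => rw [map_mul, map_mul, ih, ih']
    | inv g _ ih =>
      have h1 : χ g⁻¹ * χ g = 1 := by rw [← map_mul, inv_mul_cancel, map_one]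
      have h2 : χ' g⁻¹ * χ g = 1 := by rw [ih, ← map_mul, inv_mul_cancel, map_one]
      exact mul_right_cancel₀ (right_ne_zero_of_mul_eq_one h1) (h1.trans h2.symm)

theorem Best.coeff_mem_range (hn : 0 < n) {χ : Gamma0 N →* ℂ} (hχ : IsMult n χ) {G : ℍ → ℂ} {a : ℕ}
    (h : Best χ G a) (m : ℕ) : (qx G).coeff m ∈ Set.range embC := by
  refine mem_range_embC_of_finite_orbit (Set.Finite.subset
    (s := ⋃ χ' ∈ {χ' : Gamma0 N →* ℂ | ∀ γ, χ' γ ^ n = 1},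
      {c : ℂ | ∃ G' a', IsMult n χ' ∧ Best χ' G' a' ∧ c = (qx G').coeff m})
    ((finite_mults hn).biUnion fun χ' _ => Set.Subsingleton.finite ?_) ?_)
  · rintro _ ⟨G₁, a₁, hm, hb₁, rfl⟩ _ ⟨G₂, a₂, -, hb₂, rfl⟩
    rw [(hb₁.unique hm hb₂).1]
  · rintro y ⟨σ, -, rfl⟩
    obtain ⟨χ', G', hχ', hG', ht⟩ := exists_twist hn hχ h.auto h.ne_zero σ
    refine Set.mem_biUnion (show χ' ∈ _ from hχ'.pow_eq_one) ⟨G', a, hχ', h.twist hn hχ hχ' hG' ht, ?_⟩
    rw [ht.eq, PowerSeries.coeff_map]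
    rfl

theorem delta_pow_coeff_mem (M m : ℕ) : (qx (discriminant ^ M)).coeff m ∈ Set.range embC := by
  refine mem_range_embC_of_finite_orbit ((Set.finite_singleton ((qx (discriminant ^ M)).coeff m)).subset ?_)
  rintro y ⟨σ, -, rfl⟩
  have h := congrArg (PowerSeries.coeff m) ((IsTwist.delta (σ := (σ : ℂ →+* ℂ))).pow M).eq
  rw [PowerSeries.coeff_map] at h
  exact h.symm

/-- existence: every torsion character is a multiplier -/
theorem exists_datum_of_torsChar (hn : 0 < n) {χ : Gamma0 N →* ℂ} (hχ : IsTorsChar n χ) :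
    ∃ f : FN N, f ≠ 0 ∧ Datum n χ f := by
  obtain ⟨G, hd, hG, hs, hz⟩ := exists_automorphic hn hχ
  have hm := hχ.isMult
  obtain ⟨G₀, a, hb⟩ := exists_best hn hm ⟨hd, hs, hz⟩ hG
  obtain ⟨P₀, hP₀⟩ := exists_map_embC (hb.coeff_mem_range hn hm)
  obtain ⟨D₀, hD₀⟩ := exists_map_embC (delta_pow_coeff_mem (3 * n))
  have hgood := hb.auto.good hm
  have hcf := hb.auto.pow_isCF hn hm.pow_eq_one
  have hDne : discriminant ^ (3 * n) ≠ 0 := fun e =>
    deltaH_pow_ne (3 * n) (Subtype.ext e)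
  have hD₀ne : HahnSeries.ofPowerSeries ℤ Qbar D₀ ≠ 0 := by
    rw [map_ne_zero_iff _ HahnSeries.ofPowerSeries_injective]
    intro e
    refine hDne (Good.qx_inj (isMF_delta_pow (N := N) (3 * n)).good Good.zero ?_)
    rw [← hD₀, e]
    simp [qx, qExpansion_zero]
  set X : LaurentSeries Qbar :=
    HahnSeries.ofPowerSeries ℤ Qbar (P₀ ^ n) / HahnSeries.ofPowerSeries ℤ Qbar D₀ with hX
  have hser : coeffMap embC X * HahnSeries.ofPowerSeries ℤ ℂ (qx (discriminant ^ (3 * n))) =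
      HahnSeries.ofPowerSeries ℤ ℂ (qx (G₀ ^ n)) := by
    have h0 : coeffMap embC (HahnSeries.ofPowerSeries ℤ Qbar D₀) ≠ 0 :=
      (map_ne_zero_iff _ coeffMap_embC_injective).mpr hD₀ne
    rw [Good.qx_pow hgood, ← hD₀, ← hP₀, ← map_pow, ← ModFun.coeffMap_ofPowerSeries,
      ← ModFun.coeffMap_ofPowerSeries, hX, map_div₀, div_mul_cancel₀ _ h0]
  have hmem := mem_field_of_series hcf.isMF (isMF_delta_pow (N := N) (3 * n)) hDne hser
  let GH : HolH := ⟨G₀, hb.auto.holo⟩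
  have hGH : GH ≠ 0 := fun e => hb.ne_zero (congrArg Subtype.val e)
  have hev : evH N ⟨X, hmem⟩ = ofH (GH ^ n) / ofH (deltaH ^ (3 * n)) :=
    (evH_eq_iff (⟨X, hmem⟩ : FN N) (F := GH ^ n) (M := 3 * n) hcf.isMF).mpr hser
  refine ⟨⟨X, hmem⟩, fun e => ?_, ofH GH / ofH (deltaH ^ 3), ?_, fun γ => ?_⟩
  · rw [e, map_zero, eq_comm, div_eq_zero_iff] at hev
    rcases hev with h | h
    · exact ofH_ne_zero (pow_ne_zero n hGH) h
    · exact ofH_ne_zero (deltaH_pow_ne _) h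
  · rw [hev, div_pow, ← map_pow, ← map_pow, ← pow_mul]
  · rw [pullSL_quot_iff, show ((12 * 3 : ℕ) : ℤ) = 36 by norm_num]
    exact hb.auto.slash γ

/-- injectivity: a root with trivial multiplier is a function -/
theorem exists_pow_of_datum_one (hn : 0 < n) {f : FN N} (hf : f ≠ 0)
    (h : Datum n (1 : Gamma0 N →* ℂ) f) : ∃ g : FN N, f = g ^ n := by
  obtain ⟨ψ, hψ, hinv⟩ := h
  obtain ⟨P, Q, hQ, hfe⟩ := Genus.exists_repr N f
  have hP : MvPolynomial.aeval (gen N) P ≠ 0 := fun h => hf (by rw [hfe, h, zero_div])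
  have hQ' : ofH (thetaH N Q) ≠ 0 := by rw [← evH_aeval']; exact (map_ne_zero _).mpr hQ
  set R := P * Q ^ (n - 1) with hRdef
  have hR : MvPolynomial.aeval (gen N) R ≠ 0 := by
    rw [hRdef, map_mul, map_pow]
    exact mul_ne_zero hP (pow_ne_zero _ hQ)
  have hW : (ψ * ofH (thetaH N Q)) ^ n = ofH (thetaH N R) := by
    rw [mul_pow, hψ, hfe, map_div₀, evH_aeval', evH_aeval']
    rw [← evH_aeval' R, hRdef, map_mul, map_pow, map_mul, map_pow, evH_aeval', evH_aeval',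
      show ofH (thetaH N Q) ^ n = ofH (thetaH N Q) * ofH (thetaH N Q) ^ (n - 1) by
        rw [← pow_succ', Nat.sub_add_cancel hn],
      ← mul_assoc, div_mul_cancel₀ _ hQ']
  obtain ⟨G, hG⟩ := exists_hol_of_pow hn (fun e => hR ((map_eq_zero (evH N)).mp (by
    rw [evH_aeval', e, map_zero]))) hW
  rw [hG, ← map_pow, ofH_injective.eq_iff] at hW
  have hGinv : ∀ γ ∈ Gamma0 N, ∀ τ : ℍ, (G : ℍ → ℂ) (γ • τ) = (G : ℍ → ℂ) τ := by
    intro γ hγ τ
    have h1 : pullSL γ (ofH G) = ofH G := by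
      rw [← hG, map_mul, hinv ⟨γ, hγ⟩, MonoidHom.one_apply, map_one, one_mul, ← evH_aeval',
        evH_invariant hγ]
    rw [pullSL_ofH, ofH_injective.eq_iff] at h1
    exact congrFun (congrArg Subtype.val h1) τ
  have hGmod : ModAll (G : ℍ → ℂ) := by
    obtain ⟨M, hM⟩ := modAll_thetaH R
    refine ⟨M, fun δ => isBoundedAtImInfty_of_pow hn ?_⟩
    have e : ((fun τ => (G : ℍ → ℂ) (δ • τ)) * qp ^ M) ^ n =
        ((fun τ => (thetaH N R : ℍ → ℂ) (δ • τ)) * qp ^ M) * qp ^ (M * (n - 1)) := by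
      funext τ
      simp only [Pi.mul_apply, Pi.pow_apply, mul_pow, ← pow_mul]
      rw [← hW, mul_assoc, ← pow_add]
      congr 2
      conv_lhs => rw [← Nat.sub_add_cancel hn]
      ring
    rw [e]
    exact (hM δ).mul ((ModFun.good_qp.pow _).bdd)
  obtain ⟨M₁, hM₁⟩ := hGmod.exists_isCF G.2 hGinv
  obtain ⟨M₂, hM₂⟩ := (modAll_thetaH Q).exists_isCF (thetaH N Q).2
    (fun γ hγ => thetaH_invariant Q hγ)
  set F : HolH := G * deltaH ^ (M₁ + M₂) with hF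
  set D : HolH := thetaH N Q * deltaH ^ (M₁ + M₂) with hD
  have hFcf : IsCF N ((12 * (M₁ + M₂) : ℕ) : ℤ) (F : ℍ → ℂ) := hM₁ _ (by omega)
  have hDcf : IsCF N ((12 * (M₁ + M₂) : ℕ) : ℤ) (D : ℍ → ℂ) := hM₂ _ (by omega)
  have hD0 : D ≠ 0 := mul_ne_zero (fun e => hQ' (by rw [e, map_zero])) (deltaH_pow_ne _)
  have hψe : ψ = ofH F / ofH D := by
    rw [hF, hD, map_mul, map_mul, ← hG, mul_div_mul_right _ _ (ofH_ne_zero (deltaH_pow_ne _)),
      mul_div_cancel_right₀ _ hQ']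
  have hFg := hFcf.isMF.good
  have hDg := hDcf.isMF.good
  have hser := (evH_eq_quot_iff f (F := F ^ n) (G := D ^ n) (hFg.pow n) (hDg.pow n)
    (pow_ne_zero n hD0)).mp (by rw [← hψ, hψe, div_pow, map_pow, map_pow])
  have hser' : coeffMap embC (f : LaurentSeries Qbar) *
      HahnSeries.ofPowerSeries ℤ ℂ (qx ((D : ℍ → ℂ) ^ n)) =
      HahnSeries.ofPowerSeries ℤ ℂ (qx ((F : ℍ → ℂ) ^ n)) := hser
  rw [Good.qx_pow hFg, Good.qx_pow hDg, map_pow, map_pow] at hser'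
  set A := HahnSeries.ofPowerSeries ℤ ℂ (qx (F : ℍ → ℂ))
  set B := HahnSeries.ofPowerSeries ℤ ℂ (qx (D : ℍ → ℂ))
  have hB : B ≠ 0 := by
    rw [map_ne_zero_iff _ HahnSeries.ofPowerSeries_injective]
    intro e
    exact hD0 (Subtype.ext (Good.qx_inj hDg Good.zero (e.trans (qExpansion_zero 1).symm)))
  set Y := A / B
  have hY : Y ^ n = coeffMap embC (f : LaurentSeries Qbar) := by
    rw [div_pow, ← hser', mul_div_cancel_right₀ _ (pow_ne_zero n hB)]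
  classical
  obtain ⟨Y₀, hY₀⟩ := exists_coeffMap_embC (Y := Y) fun m => by
    refine mem_range_embC_of_finite_orbit (Set.Finite.subset
      (s := (fun Z : LaurentSeries ℂ => Z.coeff m) ''
        {Z | Z ^ n = coeffMap embC (f : LaurentSeries Qbar)}) ?_ ?_)
    · refine Set.Finite.image _ (Set.Finite.subset
        (Polynomial.nthRoots n (coeffMap embC (f : LaurentSeries Qbar))).toFinset.finite_toSet ?_)
      intro Z hZ
      simpa [Polynomial.mem_nthRoots hn] using hZ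
    · rintro y ⟨σ, hσ, rfl⟩
      refine ⟨coeffMap (σ : ℂ →+* ℂ) Y, ?_, coeffMap_coeff _ _ _⟩
      show _ ^ n = _
      rw [← map_pow, hY]
      ext j
      simp only [coeffMap_coeff]
      exact hσ _
  have hmem := mem_field_of_series hFcf.isMF hDcf.isMF (fun e => hD0 (Subtype.ext e)) (X := Y₀)
    (by rw [hY₀]; exact div_mul_cancel₀ _ hB)
  exact ⟨⟨Y₀, hmem⟩, Subtype.ext (coeffMap_embC_injective (by
    rw [← hY, ← hY₀, ← map_pow]; rfl))⟩

end FLTAgent.JTors
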