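import Fermat.Agent.JTors.Monodromy

/-!
Conjugation by the Fricke element, and the matrices of the transposed Hecke correspondences.
-/

set_option autoImplicit false

noncomputable section

open UpperHalfPlane ModularCurve CongruenceSubgroup Matrix Matrix.SpecialLinearGroup
open scoped MatrixGroups

namespace FLTAgent.JTors

variable (N : ℕ) [NeZero N]

/-- the Fricke element -/
def wGL : GL (Fin 2) ℝ :=
  Matrix.GeneralLinearGroup.mkOfDetNeZero !![0, -1; (N : ℝ), 0]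
    (by rw [Matrix.det_fin_two_of]; simp [NeZero.ne N])

theorem val_wGL : ((wGL N : GL (Fin 2) ℝ) : Matrix (Fin 2) (Fin 2) ℝ) = !![0, -1; (N : ℝ), 0] := rfl

theorem det_wGL_pos : 0 < (wGL N).det.val := by
  simp [wGL, Matrix.det_fin_two_of, Nat.pos_of_ne_zero (NeZero.ne N)]

variable {N}

theorem dvd_lower (γ : Gamma0 N) : (N : ℤ) ∣ (γ : SL(2, ℤ)) 1 0 :=
  (ZMod.intCast_zmod_eq_zero_iff_dvd _ _).mp (Gamma0_mem.mp γ.2)

/-- the conjugate by the Fricke element -/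
def wElt (γ : Gamma0 N) : Gamma0 N :=
  ⟨⟨!![(γ : SL(2, ℤ)) 1 1, -((γ : SL(2, ℤ)) 1 0 / N); -(N * (γ : SL(2, ℤ)) 0 1), (γ : SL(2, ℤ)) 0 0], by
    obtain ⟨c, hc⟩ := dvd_lower γ
    have h := (γ : SL(2, ℤ)).prop
    rw [Matrix.det_fin_two] at h
    rw [Matrix.det_fin_two_of, hc, Int.mul_ediv_cancel_left _ (by exact_mod_cast NeZero.ne N)]
    rw [hc] at h
    linear_combination h⟩, by
    rw [Gamma0_mem]
    simp⟩

theorem wElt_apply (γ : Gamma0 N) :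
    ((wElt γ : SL(2, ℤ)) : Matrix (Fin 2) (Fin 2) ℤ) =
      !![(γ : SL(2, ℤ)) 1 1, -((γ : SL(2, ℤ)) 1 0 / N);
        -(N * (γ : SL(2, ℤ)) 0 1), (γ : SL(2, ℤ)) 0 0] := rfl

theorem wElt_00 (γ : Gamma0 N) : (wElt γ : SL(2, ℤ)) 0 0 = (γ : SL(2, ℤ)) 1 1 := rfl

theorem wElt_01 (γ : Gamma0 N) : (wElt γ : SL(2, ℤ)) 0 1 = -((γ : SL(2, ℤ)) 1 0 / (N : ℤ)) := rfl

theorem wElt_10 (γ : Gamma0 N) : (wElt γ : SL(2, ℤ)) 1 0 = -((N : ℤ) * (γ : SL(2, ℤ)) 0 1) := rfl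

theorem wElt_11 (γ : Gamma0 N) : (wElt γ : SL(2, ℤ)) 1 1 = (γ : SL(2, ℤ)) 0 0 := rfl

theorem mapGL_wElt (γ : Gamma0 N) :
    mapGL ℝ (wElt γ : SL(2, ℤ)) * wGL N = wGL N * mapGL ℝ (γ : SL(2, ℤ)) := by
  obtain ⟨c, hc⟩ := dvd_lower γ
  refine Units.ext ?_
  rw [Units.val_mul, Units.val_mul, mapGL_coe_matrix, mapGL_coe_matrix, val_wGL]
  ext i j
  have hdiv : (γ : SL(2, ℤ)) 1 0 / (N : ℤ) = c := by
    rw [hc, Int.mul_ediv_cancel_left _ (by exact_mod_cast NeZero.ne N)]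
  simp only [Matrix.mul_apply, Fin.sum_univ_two]
  fin_cases i <;> fin_cases j <;> simp [wElt_00, wElt_01, wElt_10, wElt_11, hdiv]
  all_goals first
    | ring1
    | (rw [hc]; push_cast; ring1)

theorem wElt_wElt (γ : Gamma0 N) : wElt (wElt γ) = γ := by
  obtain ⟨c, hc⟩ := dvd_lower γ
  refine Subtype.ext (Subtype.ext ?_)
  have hN : (N : ℤ) ≠ 0 := by exact_mod_cast NeZero.ne N
  rw [wElt_apply]
  ext i j
  fin_cases i <;> fin_cases j <;>
    simp [wElt_apply, hc, Int.mul_ediv_cancel_left _ hN, ← mul_neg]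

theorem mapGL_wElt' (γ : Gamma0 N) :
    mapGL ℝ (γ : SL(2, ℤ)) * wGL N = wGL N * mapGL ℝ (wElt γ : SL(2, ℤ)) := by
  have h := mapGL_wElt (wElt γ)
  rwa [wElt_wElt] at h

theorem wElt_mul (γ δ : Gamma0 N) : wElt (γ * δ) = wElt γ * wElt δ := by
  refine Subtype.ext ((mapGL_injective (R := ℤ) (S := ℝ) (n := Fin 2)) (mul_right_cancel (b := wGL N) ?_))
  rw [mapGL_wElt, Subgroup.coe_mul, Subgroup.coe_mul, map_mul, map_mul, ← mul_assoc, ← mapGL_wElt,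
    mul_assoc, ← mapGL_wElt, mul_assoc]

theorem wElt_one : wElt (1 : Gamma0 N) = 1 :=
  mul_left_cancel (a := wElt (1 : Gamma0 N)) (by rw [← wElt_mul, one_mul, mul_one])

/-- conjugation as a homomorphism -/
def wHom : Gamma0 N →* Gamma0 N where
  toFun := wElt
  map_one' := wElt_one
  map_mul' := wElt_mul

theorem trace_wElt (γ : Gamma0 N) :
    ((wElt γ : SL(2, ℤ)) : Matrix (Fin 2) (Fin 2) ℤ).trace =
      ((γ : SL(2, ℤ)) : Matrix (Fin 2) (Fin 2) ℤ).trace := by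
  rw [Matrix.trace_fin_two, Matrix.trace_fin_two, wElt_apply]
  simp [add_comm]

/-- `φ ↦ φ(w · w⁻¹)` -/
def conjW : Lam N →+ Lam N :=
  AddMonoidHom.mk' (fun φ => ⟨φ.1.comp wHom.toAdditive, fun γ hγ =>
    φ.2 (wElt γ) (by rw [trace_wElt]; exact hγ)⟩)
    (fun φ ψ => Subtype.ext (AddMonoidHom.ext fun γ => by simp))

theorem conjW_apply (φ : Lam N) (γ : Gamma0 N) :
    (conjW φ).1 (Additive.ofMul γ) = φ.1 (Additive.ofMul (wElt γ)) := rfl

theorem conjW_conjW (φ : Lam N) : conjW (conjW φ) = φ := by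
  refine Subtype.ext (AddMonoidHom.ext fun γ => ?_)
  show φ.1 (Additive.ofMul (wElt (wElt (Additive.toMul γ)))) = φ.1 γ
  rw [wElt_wElt, ofMul_toMul]

theorem det_pos_mul {a b : GL (Fin 2) ℝ} (ha : 0 < a.det.val) (hb : 0 < b.det.val) :
    0 < (a * b).det.val := by
  rw [map_mul, Units.val_mul]
  exact mul_pos ha hb

theorem pull_congr {g g' : GL (Fin 2) ℝ} (hg : 0 < g.det.val) (hg' : 0 < g'.det.val) (h : g = g') :
    pull g hg = pull g' hg' := by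
  subst h; rfl

theorem pull_mul {a b : GL (Fin 2) ℝ} (ha : 0 < a.det.val) (hb : 0 < b.det.val) (x : MeroH) :
    pull (a * b) (det_pos_mul ha hb) x = pull b hb (pull a ha x) := by
  obtain ⟨f, g, hg, rfl⟩ := exists_ofH_div x
  simp only [map_div₀, pull_ofH]
  congr 2 <;> exact Subtype.ext (funext fun τ => by simp [pullHol, mul_smul])

theorem det_diag_pos (ℓ : ℕ) : 0 < (ModularForm.heckeDiagMatrix ℓ).det.val :=
  ModularForm.det_heckeDiagMatrix_pos ℓ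

/-- matrices of the transposed correspondence -/
theorem wGL_conj_heckeMatrix (ℓ : ℕ) [NeZero ℓ] (b : ℕ) :
    ∃ h : Gamma0 N, ((h : SL(2, ℤ)) : Matrix (Fin 2) (Fin 2) ℤ) = !![1, 0; -((N : ℤ) * b), 1] ∧
      wGL N * ModularForm.heckeMatrix ℓ b =
        ModularForm.heckeDiagMatrix ℓ * mapGL ℝ (h : SL(2, ℤ)) * wGL N := by
  refine ⟨⟨⟨!![1, 0; -((N : ℤ) * b), 1], by simp [Matrix.det_fin_two_of]⟩, ?_⟩, rfl, ?_⟩
  · rw [Gamma0_mem]; simp
  · refine Units.ext ?_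
    rw [Units.val_mul, Units.val_mul, Units.val_mul, mapGL_coe_matrix, val_wGL,
      ModularForm.val_heckeMatrix (NeZero.ne ℓ), ModularForm.val_heckeDiagMatrix (NeZero.ne ℓ)]
    ext i j
    simp only [Matrix.mul_apply, Fin.sum_univ_two, Matrix.map_apply]
    fin_cases i <;> fin_cases j <;> simp <;> ring

theorem wGL_conj_heckeDiag {ℓ : ℕ} [NeZero ℓ] (hℓ : Nat.Coprime ℓ N) :
    ∃ g h : Gamma0 N, (∃ x : ℤ, ((h : SL(2, ℤ)) 1 0) = -(N : ℤ) ∧ (h : SL(2, ℤ)) 1 1 = ℓ * x) ∧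
      wGL N * ModularForm.heckeDiagMatrix ℓ =
        mapGL ℝ (g : SL(2, ℤ)) * (ModularForm.heckeDiagMatrix ℓ * mapGL ℝ (h : SL(2, ℤ))) * wGL N := by
  obtain ⟨x, y, hxy⟩ : ∃ x y : ℤ, (ℓ : ℤ) * x - y * N = 1 := by
    obtain ⟨u, v, huv⟩ := Int.isCoprime_iff_nat_coprime.mpr (show Nat.Coprime (ℓ : ℤ).natAbs (N : ℤ).natAbs from hℓ)
    exact ⟨u, -v, by linear_combination huv⟩
  refine ⟨⟨⟨!![x, y; (N : ℤ), ℓ], by simp [Matrix.det_fin_two_of]; linear_combination hxy⟩, ?_⟩,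
    ⟨⟨!![1, -y; -(N : ℤ), ℓ * x], by simp [Matrix.det_fin_two_of]; linear_combination hxy⟩, ?_⟩,
    ⟨x, rfl, rfl⟩, ?_⟩
  · rw [Gamma0_mem]; simp
  · rw [Gamma0_mem]; simp
  · refine Units.ext ?_
    rw [Units.val_mul, Units.val_mul, Units.val_mul, Units.val_mul, mapGL_coe_matrix,
      mapGL_coe_matrix, val_wGL, ModularForm.val_heckeDiagMatrix (NeZero.ne ℓ)]
    have hc : (ℓ : ℝ) * x - y * N = 1 := by exact_mod_cast hxy
    ext i j
    simp only [Matrix.mul_apply, Fin.sum_univ_two, Matrix.map_apply]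
    fin_cases i <;> fin_cases j <;> simp <;> try linear_combination hc
    all_goals first
      | ring1
      | exact Or.inl (by ring)
      | linear_combination (N : ℝ) * hc
      | linear_combination -hc
      | linear_combination (ℓ : ℝ) * hc
      | linear_combination ((ℓ : ℝ) * N) * hc
      | linear_combination -((ℓ : ℝ) * N) * hc
      | exact Or.inl trivial
      | linear_combination -(N : ℝ) * (ℓ : ℝ) * hc

end FLTAgent.JTors
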