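import Fermat.Agent.JTors.LocalChar
import Fermat.Agent.ModFun.Descent
import Fermat.Agent.ModFun.Integral

/-!
Auxiliary facts for the descent: algebraicity from finite orbits, leading coefficients, roots.
-/

set_option autoImplicit false

noncomputable section

open UpperHalfPlane Filter Topology ModularCurve
open scoped MatrixGroups Manifold

namespace FLTAgent.JTors

open Genus (Qbar embC)
open ModFun (Good qx qp)

theorem exists_extend_equiv {K : Type*} [Field K] [Algebra K ℂ] {ι : Type*} {v : ι → ℂ}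
    (hv : IsTranscendenceBasis K v) (e : MvPolynomial ι K ≃+* MvPolynomial ι K) :
    ∃ σ : ℂ ≃+* ℂ, ∀ p, σ (MvPolynomial.aeval v p) = MvPolynomial.aeval v (e p) := by
  letI := IsAlgClosed.isAlgClosure_of_transcendence_basis v hv
  let e' : Algebra.adjoin K (Set.range v) ≃+* Algebra.adjoin K (Set.range v) :=
    (hv.1.aevalEquiv.symm.toRingEquiv.trans e).trans hv.1.aevalEquiv.toRingEquiv
  refine ⟨IsAlgClosure.equivOfEquiv ℂ ℂ e', fun p => ?_⟩
  have h := IsAlgClosure.equivOfEquiv_algebraMap ℂ ℂ e' (hv.1.aevalEquiv p)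
  simp only [e', RingEquiv.trans_apply, AlgEquiv.toRingEquiv_eq_coe, AlgEquiv.coe_ringEquiv,
    AlgEquiv.symm_apply_apply, AlgebraicIndependent.algebraMap_aevalEquiv] at h
  exact h

/-- translation of the variables -/
def shiftVars (K : Type*) [CommRing K] {ι : Type*} (k : ι → K) :
    MvPolynomial ι K ≃ₐ[K] MvPolynomial ι K :=
  AlgEquiv.ofAlgHom (MvPolynomial.aeval fun i => MvPolynomial.X i + MvPolynomial.C (k i))
    (MvPolynomial.aeval fun i => MvPolynomial.X i - MvPolynomial.C (k i))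
    (by ext i; simp) (by ext i; simp)

/-- a number with finitely many conjugates over `ℚ̄` lies in `ℚ̄` -/
theorem mem_range_embC_of_finite_orbit {x : ℂ}
    (h : {y : ℂ | ∃ σ : ℂ ≃+* ℂ, (∀ c, σ (embC c) = embC c) ∧ y = σ x}.Finite) :
    x ∈ Set.range embC := by
  let A := algebraicClosure ℚ ℂ
  by_cases hx : x ∈ A
  · have halg : IsAlgebraic ℚ x := mem_algebraicClosure_iff.mp hx
    set p := minpoly ℚ x
    have hp0 : p ≠ 0 := minpoly.ne_zero halg.isIntegral
    refine Polynomial.Splits.mem_range_of_isRoot (i := embC)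
      (f := p.map (algebraMap ℚ Qbar)) (IsAlgClosed.splits _)
      ((Polynomial.map_ne_zero_iff (algebraMap ℚ Qbar).injective).mpr hp0) ?_
    rw [Polynomial.map_map, Subsingleton.elim (embC.comp (algebraMap ℚ Qbar)) (algebraMap ℚ ℂ),
      Polynomial.IsRoot.def, Polynomial.eval_map_algebraMap]
    exact minpoly.aeval ℚ x
  · exfalso
    haveI : Algebra.IsAlgebraic ℚ A := algebraicClosure.isAlgebraic ℚ ℂ
    have hind : AlgebraicIndepOn A id ({x} : Set ℂ) := by
      show AlgebraicIndependent A (fun i : ({x} : Set ℂ) => (i : ℂ))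
      refine algebraicIndependent_unique_type_iff.mpr fun halg => ?_
      exact hx (mem_algebraicClosure_iff.mpr (IsAlgebraic.restrictScalars ℚ halg))
    obtain ⟨s, hs, hv⟩ := exists_isTranscendenceBasis_superset hind
    classical
    let i₀ : s := ⟨x, hs rfl⟩
    refine h.not_infinite (Set.infinite_of_injective_forall_mem (f := fun k : ℕ => x + (k : ℂ))
      (fun a b e => by simpa using e) fun k => ?_)
    obtain ⟨σ, hσ⟩ := exists_extend_equiv hv
      (shiftVars A (fun i => if i = i₀ then (k : A) else 0)).toRingEquiv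
    refine ⟨σ, fun c => ?_, ?_⟩
    · haveI : Algebra.IsAlgebraic ℚ Qbar := AlgebraicClosure.isAlgebraic ℚ
      have hc : embC c ∈ A := mem_algebraicClosure_iff.mpr
        ((Algebra.IsAlgebraic.isAlgebraic c).algHom embC.toRatAlgHom)
      have h1 := hσ (MvPolynomial.C ⟨embC c, hc⟩)
      simp [shiftVars] at h1
      exact h1
    · have h1 := hσ (MvPolynomial.X i₀)
      simp [shiftVars, i₀] at h1
      exact h1.symm

theorem exists_map_embC {P : PowerSeries ℂ} (h : ∀ m, P.coeff m ∈ Set.range embC) :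
    ∃ P₀ : PowerSeries Qbar, P₀.map embC = P := by
  choose c hc using h
  exact ⟨PowerSeries.mk c, PowerSeries.ext fun m => by simp [hc]⟩

theorem exists_coeffMap_embC {Y : LaurentSeries ℂ} (h : ∀ m, Y.coeff m ∈ Set.range embC) :
    ∃ Y₀ : LaurentSeries Qbar, coeffMap embC Y₀ = Y := by
  choose c hc using h
  refine ⟨⟨c, Y.isPWO_support.mono fun m hm => ?_⟩, ?_⟩
  · intro h0
    refine hm (embC.injective ?_)
    rw [hc, h0, map_zero]
  · ext m
    rw [coeffMap_coeff]
    exact hc m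

/-- leading term at `∞` -/
theorem tendsto_div_qp_pow {f : ℍ → ℂ} (hf : Good f) {a : ℕ}
    (h0 : ∀ i < a, (qx f).coeff i = 0) :
    Tendsto (fun τ => f τ / qp τ ^ a) atImInfty (𝓝 ((qx f).coeff a)) := by
  have hp := hf.analytic.hasFPowerSeriesAt
  have hval : ∀ i, (Function.swap dslope (0 : ℂ))^[i] (cuspFunction 1 f) 0 = (qx f).coeff i := by
    intro i
    rw [← (hp.has_fpower_series_iterate_dslope_fslope i).coeff_zero 1,
      ← FormalMultilinearSeries.coeff, FormalMultilinearSeries.coeff_iterate_fslope, zero_add,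
      FormalMultilinearSeries.coeff_ofScalars, qx, qExpansion_coeff]
    simp [div_eq_inv_mul]
  have hG : ContinuousAt ((Function.swap dslope (0 : ℂ))^[a] (cuspFunction 1 f)) 0 :=
    (hp.has_fpower_series_iterate_dslope_fslope a).analyticAt.continuousAt
  have h1 := hG.tendsto.comp (qParam_tendsto_atImInfty one_pos)
  rw [hval a] at h1
  refine h1.congr fun τ => ?_
  have e := pow_sub_smul_iterate_dslope_of_zero (n := a) (f := cuspFunction 1 f) (a := (0 : ℂ))
    (fun i hi => (hval i).trans (h0 i hi)) (Function.Periodic.qParam 1 (τ : ℂ))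
  rw [eq_cuspFunction τ one_ne_zero (by simpa using hf.per)] at e
  simp only [sub_zero, smul_eq_mul] at e
  rw [Function.comp_apply, eq_div_iff (pow_ne_zero _ (ModFun.qp_ne_zero τ)), mul_comm]
  exact e

theorem isBoundedAtImInfty_of_pow {f : ℍ → ℂ} {n : ℕ} (hn : 0 < n)
    (h : IsBoundedAtImInfty (f ^ n)) : IsBoundedAtImInfty f := by
  rw [UpperHalfPlane.isBoundedAtImInfty_iff] at h ⊢
  obtain ⟨M, A, hM⟩ := h
  refine ⟨max M 1, A, fun τ hτ => ?_⟩
  have h1 := hM τ hτ
  rw [Pi.pow_apply, norm_pow] at h1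
  by_contra h2
  push Not at h2
  have h3 : ‖f τ‖ ≤ ‖f τ‖ ^ n := le_self_pow₀ (le_of_lt ((le_max_right M 1).trans_lt h2)) hn.ne'
  linarith [le_max_left M 1]

theorem isZeroAtImInfty_of_pow {f : ℍ → ℂ} {n : ℕ} (hn : 0 < n)
    (h : IsZeroAtImInfty (f ^ n)) : IsZeroAtImInfty f := by
  rw [isZeroAtImInfty_iff] at h ⊢
  intro ε hε
  obtain ⟨A, hA⟩ := h ((ε / 2) ^ n) (pow_pos (half_pos hε) n)
  refine ⟨A, fun τ hτ => ?_⟩
  by_contra h2
  push Not at h2
  have h1 := hA τ hτ
  rw [Pi.pow_apply, norm_pow] at h1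
  linarith [pow_lt_pow_left₀ (show ε / 2 < ‖f τ‖ by linarith) (half_pos hε).le hn.ne']

theorem isZeroAtImInfty_pow {f : ℍ → ℂ} {n : ℕ} (hn : 0 < n) (h : IsZeroAtImInfty f) :
    IsZeroAtImInfty (f ^ n) := by
  have := Filter.Tendsto.pow h n
  rwa [zero_pow hn.ne'] at this

theorem exists_scalar_of_pow_eq {n : ℕ} (hn : 0 < n) {P A : PowerSeries ℂ} (hA : A ≠ 0)
    (h : P ^ n = A ^ n) : ∃ ζ : ℂ, ζ ^ n = 1 ∧ P = ζ • A := by
  let ι := HahnSeries.ofPowerSeries ℤ ℂ
  have hA' : ι A ≠ 0 := fun e =>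
    hA (HahnSeries.ofPowerSeries_injective (e.trans (map_zero ι).symm))
  have hne : (Polynomial.X ^ n - Polynomial.C (1 : ℂ)) ≠ 0 := Polynomial.X_pow_sub_C_ne_zero hn 1
  have hy : ι P / ι A ∈ (algebraMap ℂ (LaurentSeries ℂ)).range := by
    refine (IsAlgClosed.splits (Polynomial.X ^ n - Polynomial.C (1 : ℂ))).mem_range_of_isRoot
      (i := algebraMap ℂ (LaurentSeries ℂ)) hne ?_
    rw [Polynomial.IsRoot.def, Polynomial.eval_map_algebraMap]
    rw [map_sub, map_pow, Polynomial.aeval_X, Polynomial.aeval_C, map_one, div_pow, ← map_pow ι,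
      ← map_pow ι, h, div_self (by rw [map_pow]; exact pow_ne_zero n hA'), sub_self]
  obtain ⟨ζ, hζ⟩ := hy
  rw [eq_div_iff hA'] at hζ
  have hP : P = ζ • A := by
    refine HahnSeries.ofPowerSeries_injective (Γ := ℤ) ?_
    rw [PowerSeries.smul_eq_C_mul, map_mul, HahnSeries.ofPowerSeries_C, ← hζ,
      algebraMap_laurentSeries_eq_single]
    rfl
  refine ⟨ζ, ?_, hP⟩
  rw [hP, smul_pow] at h
  by_contra hne1
  refine pow_ne_zero n hA ?_
  have : (ζ ^ n - 1) • A ^ n = 0 := by rw [sub_smul, one_smul, h, sub_self]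
  exact (smul_eq_zero.mp this).resolve_left (sub_ne_zero.mpr hne1)

end FLTAgent.JTors
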