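import Fermat.Agent.JTors.MeroH

/-!
Elements of the function field as quotients of cusp forms; q-expansions.
-/

set_option autoImplicit false

noncomputable section

open UpperHalfPlane Filter Topology ModularCurve CongruenceSubgroup ModularForm
open scoped MatrixGroups Manifold

namespace FLTAgent.JTors

open Genus (Qbar embC FN gen jgen)
open ModFun (IsMF IsCF Good qx qp M1 lx jdM jM Mod1)
open scoped Genus

/-- the discriminant -/
def deltaH : HolH := ⟨discriminant, (ModFun.RatMF.isMF ModFun.delta_mem).holo⟩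

theorem deltaH_ne : deltaH ≠ 0 := fun h =>
  discriminant_ne_zero UpperHalfPlane.I (congrFun (congrArg Subtype.val h) UpperHalfPlane.I)

theorem deltaH_pow_ne (M : ℕ) : deltaH ^ M ≠ 0 := pow_ne_zero _ deltaH_ne

theorem coe_deltaH_pow (M : ℕ) : ((deltaH ^ M : HolH) : ℍ → ℂ) = discriminant ^ M := rfl

theorem ordAt_deltaH (τ : ℍ) : ordAt τ (ofH deltaH) = 0 :=
  ordAt_ofH_eq_zero τ (discriminant_ne_zero τ)

theorem ordAt_quot_delta (τ : ℍ) {G : HolH} (hG : G ≠ 0) (M : ℕ) :
    ordAt τ (ofH G / ofH (deltaH ^ M)) = ordAt τ (ofH G) := by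
  rw [ordAt_div τ (ofH_ne_zero hG) (ofH_ne_zero (deltaH_pow_ne M)), map_pow, ordAt_pow,
    ordAt_deltaH]
  simp

theorem delta_pow_smul (M : ℕ) (γ : SL(2, ℤ)) (τ : ℍ) :
    discriminant (γ • τ) ^ M =
      denom (γ : GL (Fin 2) ℝ) τ ^ ((12 * M : ℕ) : ℤ) * discriminant τ ^ M := by
  rw [ModFun.apply_smul_of_levelOne (ModFun.RatMF.isMF ModFun.delta_mem) γ τ, mul_pow,
    ← zpow_natCast, ← zpow_mul]
  congr 2

/-- weight `12 M` over `Δ^M`: slash action becomes pull-back -/
theorem pullSL_quot_iff (G : HolH) (M : ℕ) (c : ℂ) (γ : SL(2, ℤ)) :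
    pullSL γ (ofH G / ofH (deltaH ^ M)) = algebraMap ℂ MeroH c * (ofH G / ofH (deltaH ^ M)) ↔
      (G : ℍ → ℂ) ∣[((12 * M : ℕ) : ℤ)] γ = c • (G : ℍ → ℂ) := by
  have key : (G : ℍ → ℂ) ∣[((12 * M : ℕ) : ℤ)] γ = c • (G : ℍ → ℂ) ↔
      ∀ τ, (G : ℍ → ℂ) (γ • τ) * discriminant τ ^ M =
        c * (G : ℍ → ℂ) τ * discriminant (γ • τ) ^ M := by
    rw [funext_iff]
    refine forall_congr' fun τ => ?_
    rw [SL_slash_apply, Pi.smul_apply, smul_eq_mul, delta_pow_smul, zpow_neg]
    have hd : denom (γ : GL (Fin 2) ℝ) τ ^ ((12 * M : ℕ) : ℤ) ≠ 0 :=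
      zpow_ne_zero _ (denom_ne_zero _ τ)
    have hD : discriminant τ ^ M ≠ 0 := pow_ne_zero _ (discriminant_ne_zero τ)
    constructor
    · intro h
      field_simp at h
      rw [h]; ring
    · intro h
      field_simp
      refine mul_right_cancel₀ hD ?_
      linear_combination h
  have hd1 := ofH_ne_zero (deltaH_pow_ne M)
  have hd2 : pullSL γ (ofH (deltaH ^ M)) ≠ 0 := (map_ne_zero _).mpr hd1
  rw [key, map_div₀, mul_div_assoc', div_eq_div_iff hd2 hd1, pullSL_ofH, pullSL_ofH, ← map_mul,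
    show algebraMap ℂ MeroH c = ofH (algebraMap ℂ HolH c) from (ofH.commutes c).symm,
    ← map_mul, ← map_mul, ofH_injective.eq_iff, Subtype.ext_iff, funext_iff]
  exact Iff.rfl

/-- uniformly moderate growth at all cusps -/
def ModAll (F : ℍ → ℂ) : Prop :=
  ∃ M : ℕ, ∀ δ : SL(2, ℤ), IsBoundedAtImInfty ((fun τ => F (δ • τ)) * qp ^ M)

theorem qp_pow_mono {F : ℍ → ℂ} {M M' : ℕ} (h : IsBoundedAtImInfty (F * qp ^ M)) (hM : M ≤ M') :
    IsBoundedAtImInfty (F * qp ^ M') := by
  obtain ⟨j, rfl⟩ := Nat.exists_eq_add_of_le hM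
  rw [pow_add, ← mul_assoc]
  exact h.mul (ModFun.good_qp.pow j).bdd

theorem ModAll.add {F G : ℍ → ℂ} (hF : ModAll F) (hG : ModAll G) : ModAll (F + G) := by
  obtain ⟨M, hM⟩ := hF
  obtain ⟨M', hM'⟩ := hG
  refine ⟨M + M', fun δ => ?_⟩
  have h : ((fun τ => (F + G) (δ • τ)) * qp ^ (M + M')) =
      (fun τ => F (δ • τ)) * qp ^ (M + M') + (fun τ => G (δ • τ)) * qp ^ (M + M') := by
    rw [← add_mul]; rfl
  rw [h]
  exact (qp_pow_mono (hM δ) (by omega)).add (qp_pow_mono (hM' δ) (by omega))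

theorem ModAll.mul {F G : ℍ → ℂ} (hF : ModAll F) (hG : ModAll G) : ModAll (F * G) := by
  obtain ⟨M, hM⟩ := hF
  obtain ⟨M', hM'⟩ := hG
  refine ⟨M + M', fun δ => ?_⟩
  have h : ((fun τ => (F * G) (δ • τ)) * qp ^ (M + M')) =
      ((fun τ => F (δ • τ)) * qp ^ M) * ((fun τ => G (δ • τ)) * qp ^ M') := by
    rw [pow_add]
    funext τ
    simp only [Pi.mul_apply]
    ring
  rw [h]
  exact (hM δ).mul (hM' δ)

theorem ModAll.const (c : ℂ) : ModAll fun _ => c :=
  ⟨0, fun δ => by
    rw [pow_zero, mul_one]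
    exact Filter.const_boundedAtFilter atImInfty c⟩

theorem tendsto_delta_div_qp : Tendsto (fun τ => discriminant τ / qp τ) atImInfty (𝓝 1) := by
  have h := (ModFun.tendsto_E4.pow 3).div ModFun.tendsto_jFun_mul_qp one_ne_zero
  rw [one_pow, div_one] at h
  refine h.congr' ?_
  filter_upwards [ModFun.tendsto_jFun_mul_qp.eventually_ne one_ne_zero] with τ hτ
  have e := congrFun ModFun.jFun_mul_delta τ
  simp only [Pi.mul_apply, Pi.pow_apply] at e
  show ModularForm.E₄ τ ^ 3 / (ModFun.jFun τ * qp τ) = _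
  rw [← e]
  have := ModFun.qp_ne_zero τ
  have hj : ModFun.jFun τ ≠ 0 := fun h0 => hτ (by rw [h0, zero_mul])
  field_simp

theorem ModAll.exists_isCF {N : ℕ} [NeZero N] {F : ℍ → ℂ} (hF : ModAll F) (hd : MDiff F)
    (hinv : ∀ γ ∈ Gamma0 N, ∀ τ : ℍ, F (γ • τ) = F τ) :
    ∃ M₀ : ℕ, ∀ M, M₀ ≤ M → IsCF N ((12 * M : ℕ) : ℤ) (F * discriminant ^ M) := by
  obtain ⟨M₀, hM₀⟩ := hF
  refine ⟨M₀ + 1, fun M hM => ⟨hd.mul ((deltaH ^ M).2), fun γ hγ => ?_, fun δ => ?_⟩⟩
  · funext τ
    rw [SL_slash_apply, Pi.mul_apply, Pi.mul_apply, Pi.pow_apply, Pi.pow_apply, hinv γ hγ,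
      delta_pow_smul, zpow_neg]
    have := zpow_ne_zero ((12 * M : ℕ) : ℤ) (denom_ne_zero (γ : GL (Fin 2) ℝ) τ)
    field_simp
  · have e : (F * discriminant ^ M) ∣[((12 * M : ℕ) : ℤ)] δ =
        ((fun τ => F (δ • τ)) * qp ^ (M - 1)) *
          fun τ => (discriminant τ / qp τ) ^ (M - 1) * discriminant τ := by
      funext τ
      rw [SL_slash_apply]
      simp only [Pi.mul_apply, Pi.pow_apply]
      rw [delta_pow_smul, zpow_neg]
      have h1 := zpow_ne_zero ((12 * M : ℕ) : ℤ) (denom_ne_zero (δ : GL (Fin 2) ℝ) τ)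
      have h2 := pow_ne_zero (M - 1) (ModFun.qp_ne_zero τ)
      have hMe : discriminant τ ^ M = discriminant τ ^ (M - 1) * discriminant τ := by
        rw [← pow_succ, Nat.sub_add_cancel (by omega)]
      rw [hMe, div_pow]
      field_simp
    rw [e]
    have hz : IsZeroAtImInfty (fun τ => (discriminant τ / qp τ) ^ (M - 1) * discriminant τ) := by
      have h1 : Tendsto (fun τ => (discriminant τ / qp τ) ^ (M - 1) * discriminant τ) atImInfty
          (𝓝 (1 ^ (M - 1) * 0)) := by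
        refine (tendsto_delta_div_qp.pow _).mul ?_
        have h2 : Tendsto (fun τ => (discriminant τ / qp τ) * qp τ) atImInfty (𝓝 (1 * 0)) :=
          tendsto_delta_div_qp.mul (qParam_tendsto_atImInfty one_pos)
        rw [mul_zero] at h2
        refine h2.congr fun τ => ?_
        rw [div_mul_cancel₀ _ (ModFun.qp_ne_zero τ)]
      rwa [mul_zero] at h1
    have hb : IsBoundedAtImInfty ((fun τ => F (δ • τ)) * qp ^ (M - 1)) :=
      qp_pow_mono (hM₀ δ) (by omega)
    have h3 := hb.mul_isLittleO ((Asymptotics.isLittleO_one_iff ℝ).mpr hz)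
    refine (Asymptotics.isLittleO_one_iff ℝ).mp (h3.congr_right fun τ => ?_)
    simp

variable (N : ℕ) [NeZero N]

theorem modAll_jdH (d : N.divisors) : ModAll (jdH N d : ℍ → ℂ) := by
  refine ⟨(d : ℕ), fun δ => ?_⟩
  refine (ModFun.jConj_bdd (d : ℕ) (QuotientGroup.mk δ⁻¹)).congr_left fun τ => ?_
  simp only [Pi.mul_apply, Pi.pow_apply]
  congr 1
  rw [ModFun.jConj_apply]
  refine (Genus.conjJ_congr (N := (d : ℕ)) (d := (d : ℕ))
    (g := (QuotientGroup.mk δ⁻¹ : ModFun.Cosets (d : ℕ)).out) (g' := δ⁻¹) dvd_rfl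
    (QuotientGroup.out_eq' _) τ).trans ?_
  rw [Genus.conjJ, inv_inv]
  rfl

/-- polynomials in the `j(dτ)` as functions -/
def thetaH (P : MvPolynomial N.divisors Qbar) : HolH :=
  MvPolynomial.aeval (jdH N) (MvPolynomial.map embC P)

/-- polynomials in the `j(dτ)` as periodic functions of moderate growth -/
def thetaM (P : MvPolynomial N.divisors Qbar) : M1 :=
  MvPolynomial.aeval (fun d : N.divisors => jdM (d : ℕ)) (MvPolynomial.map embC P)

variable {N}

theorem coe_thetaM (P : MvPolynomial N.divisors Qbar) :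
    ((thetaM N P : M1) : ℍ → ℂ) = (thetaH N P : ℍ → ℂ) := by
  induction P using MvPolynomial.induction_on with
  | C a => simp [thetaM, thetaH]
  | add p q hp hq =>
    simp only [thetaM, thetaH] at hp hq ⊢
    simp only [map_add, Subalgebra.coe_add, hp, hq]
  | mul_X p d hp =>
    simp only [thetaM, thetaH] at hp ⊢
    simp only [map_mul, Subalgebra.coe_mul, hp, MvPolynomial.map_X, MvPolynomial.aeval_X]
    rfl

theorem lx_thetaM (P : MvPolynomial N.divisors Qbar) :
    lx (thetaM N P) = coeffMap embC (MvPolynomial.aeval (jgen N) P) := by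
  induction P using MvPolynomial.induction_on with
  | C a =>
    simp only [thetaM, MvPolynomial.map_C, MvPolynomial.aeval_C, AlgHom.commutes]
    rw [algebraMap_laurentSeries_eq_single, algebraMap_laurentSeries_eq_single, coeffMap_single]
  | add p q hp hq =>
    simp only [thetaM] at hp hq ⊢
    simp only [map_add, hp, hq]
  | mul_X p d hp =>
    simp only [thetaM] at hp ⊢
    simp only [map_mul, hp, MvPolynomial.map_X, MvPolynomial.aeval_X, jgen]
    rw [ModFun.lx_jdM, ModFun.coeffMap_coeffEmb_comp]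

theorem thetaH_invariant (P : MvPolynomial N.divisors Qbar) {γ : SL(2, ℤ)} (hγ : γ ∈ Gamma0 N)
    (τ : ℍ) : (thetaH N P : ℍ → ℂ) (γ • τ) = (thetaH N P : ℍ → ℂ) τ := by
  induction P using MvPolynomial.induction_on with
  | C a => simp [thetaH]
  | add p q hp hq => simp only [thetaH, map_add, Subalgebra.coe_add, Pi.add_apply] at hp hq ⊢; rw [hp, hq]
  | mul_X p d hp =>
    simp only [thetaH, map_mul, Subalgebra.coe_mul, Pi.mul_apply, MvPolynomial.map_X,
      MvPolynomial.aeval_X] at hp ⊢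
    rw [hp]
    congr 1
    exact Genus.jFun_scale_Gamma0 (Nat.dvd_of_mem_divisors d.2) hγ τ

theorem modAll_thetaH (P : MvPolynomial N.divisors Qbar) : ModAll (thetaH N P : ℍ → ℂ) := by
  induction P using MvPolynomial.induction_on with
  | C a =>
    simp only [thetaH, MvPolynomial.map_C, MvPolynomial.aeval_C]
    exact ModAll.const (embC a)
  | add p q hp hq =>
    simp only [thetaH, map_add, Subalgebra.coe_add] at hp hq ⊢
    exact hp.add hq
  | mul_X p d hp =>
    simp only [thetaH, map_mul, Subalgebra.coe_mul, MvPolynomial.map_X,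
      MvPolynomial.aeval_X] at hp ⊢
    exact hp.mul (modAll_jdH N d)

theorem evH_aeval' (P : MvPolynomial N.divisors Qbar) :
    evH N (MvPolynomial.aeval (gen N) P) = ofH (thetaH N P) := evH_aeval P

/-- every nonzero element is a quotient of two cusp forms of equal weight -/
theorem exists_cusp_rep {x : FN N} (hx : x ≠ 0) :
    ∃ (M : ℕ) (A B : HolH), B ≠ 0 ∧ A ≠ 0 ∧ IsCF N ((12 * M : ℕ) : ℤ) A ∧
      IsCF N ((12 * M : ℕ) : ℤ) B ∧ evH N x = ofH A / ofH B := by
  obtain ⟨P, Q, hQ, rfl⟩ := Genus.exists_repr N x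
  have hP : MvPolynomial.aeval (gen N) P ≠ 0 := fun h => hx (by rw [h, zero_div])
  have hP' : thetaH N P ≠ 0 := fun h => hP ((map_eq_zero (evH N)).mp (by rw [evH_aeval', h, map_zero]))
  have hQ' : thetaH N Q ≠ 0 := fun h => hQ ((map_eq_zero (evH N)).mp (by rw [evH_aeval', h, map_zero]))
  obtain ⟨a, ha⟩ := (modAll_thetaH P).exists_isCF (thetaH N P).2 (fun γ hγ => thetaH_invariant P hγ)
  obtain ⟨b, hb⟩ := (modAll_thetaH Q).exists_isCF (thetaH N Q).2 (fun γ hγ => thetaH_invariant Q hγ)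
  refine ⟨a + b, thetaH N P * deltaH ^ (a + b), thetaH N Q * deltaH ^ (a + b),
    mul_ne_zero hQ' (deltaH_pow_ne _), mul_ne_zero hP' (deltaH_pow_ne _), ha _ (by omega),
    hb _ (by omega), ?_⟩
  rw [map_div₀, evH_aeval', evH_aeval', map_mul, map_mul,
    mul_div_mul_right _ _ (ofH_ne_zero (deltaH_pow_ne _))]

theorem isMF_delta_pow (M : ℕ) : IsMF N ((12 * M : ℕ) : ℤ) (discriminant ^ M) :=
  ((ModFun.RatMF.isMF ModFun.delta_mem).levelOne.pow M).cast (by push_cast; ring)

/-- `x = F/G` as functions iff as series -/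
theorem evH_eq_quot_iff (x : FN N) {F G : HolH} (hFg : Good (F : ℍ → ℂ)) (hDg : Good (G : ℍ → ℂ))
    (hG : G ≠ 0) : evH N x = ofH F / ofH G ↔
      coeffMap embC (x : LaurentSeries Qbar) * HahnSeries.ofPowerSeries ℤ ℂ (qx (G : ℍ → ℂ))
        = HahnSeries.ofPowerSeries ℤ ℂ (qx (F : ℍ → ℂ)) := by
  obtain ⟨P, Q, hQ, rfl⟩ := Genus.exists_repr N x
  have hQ' : ofH (thetaH N Q) ≠ 0 := by rw [← evH_aeval']; exact (map_ne_zero _).mpr hQ
  have hQL : lx (thetaM N Q) ≠ 0 := by
    intro h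
    rw [map_eq_zero_iff _ ModFun.lx_injective] at h
    refine hQ' ?_
    rw [show thetaH N Q = 0 from Subtype.ext ((coe_thetaM Q).symm.trans (congrArg Subtype.val h)),
      map_zero]
  rw [map_div₀, evH_aeval', evH_aeval', div_eq_div_iff hQ' (ofH_ne_zero hG),
    ← map_mul, ← map_mul, ofH_injective.eq_iff]
  have e : coeffMap embC (((MvPolynomial.aeval (gen N) : _ →ₐ[Qbar] FN N) P /
      (MvPolynomial.aeval (gen N) : _ →ₐ[Qbar] FN N) Q : FN N) : LaurentSeries Qbar) =
      lx (thetaM N P) / lx (thetaM N Q) := by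
    rw [lx_thetaM, lx_thetaM, ← Genus.coe_aeval_gen, ← Genus.coe_aeval_gen, ← map_div₀ (coeffMap embC)]
    rfl
  rw [e, div_mul_eq_mul_div, div_eq_iff hQL, ← ModFun.lx_good hDg, ← ModFun.lx_good hFg, ← map_mul,
    ← map_mul, ModFun.lx_injective.eq_iff, Subtype.ext_iff, Subtype.ext_iff, Subalgebra.coe_mul,
    Subalgebra.coe_mul, Subalgebra.coe_mul, Subalgebra.coe_mul, coe_thetaM, coe_thetaM]

/-- `x = F/Δ^M` as functions iff as series -/
theorem evH_eq_iff (x : FN N) {F : HolH} {M : ℕ} (hF : IsMF N ((12 * M : ℕ) : ℤ) (F : ℍ → ℂ)) :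
    evH N x = ofH F / ofH (deltaH ^ M) ↔
      coeffMap embC (x : LaurentSeries Qbar) * HahnSeries.ofPowerSeries ℤ ℂ (qx (discriminant ^ M))
        = HahnSeries.ofPowerSeries ℤ ℂ (qx (F : ℍ → ℂ)) :=
  evH_eq_quot_iff x hF.good (G := deltaH ^ M) (isMF_delta_pow (N := N) M).good (deltaH_pow_ne M)

/-! ### descent of series -/

scoped instance algQbarLaurC : Algebra Qbar (LaurentSeries ℂ) :=
  ((algebraMap ℂ (LaurentSeries ℂ)).comp embC).toAlgebra

theorem coeffMap_embC_injective : Function.Injective (coeffMap embC) := fun a b h => by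
  ext k
  exact embC.injective (by simpa only [coeffMap_coeff] using congrArg (fun z => z.coeff k) h)

/-- coefficientwise functional -/
def phiB (φ : ℂ →ₗ[Qbar] Qbar) (x : LaurentSeries ℂ) : LaurentSeries Qbar := x.map φ

theorem phiB_coeff (φ : ℂ →ₗ[Qbar] Qbar) (x : LaurentSeries ℂ) (k : ℤ) :
    (phiB φ x).coeff k = φ (x.coeff k) := rfl

theorem phiB_mul_coeffMap (φ : ℂ →ₗ[Qbar] Qbar) (Y : LaurentSeries Qbar) (Z : LaurentSeries ℂ) :
    phiB φ (coeffMap embC Y * Z) = Y * phiB φ Z := by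
  ext k
  have hsY : (coeffMap embC Y).support ⊆ Y.support := fun i hi => by
    intro h0; exact hi (by rw [coeffMap_coeff, h0, map_zero])
  have hsZ : (phiB φ Z).support ⊆ Z.support := fun i hi => by
    intro h0; exact hi (by rw [phiB_coeff, h0, map_zero])
  rw [phiB_coeff, HahnSeries.coeff_mul_left' Y.isPWO_support hsY,
    HahnSeries.coeff_mul_right' Z.isPWO_support hsZ, map_sum]
  refine Finset.sum_congr rfl fun ij _ => ?_
  rw [coeffMap_coeff, phiB_coeff, ← smul_eq_mul (Y.coeff ij.1), ← φ.map_smul, Algebra.smul_def]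
  rfl

theorem exists_phiB {c : ℂ} (hc : c ≠ 0) : ∃ φ : ℂ →ₗ[Qbar] Qbar, φ c = 1 := by
  obtain ⟨f, hf⟩ := (LinearMap.toSpanSingleton Qbar ℂ c).exists_leftInverse_of_injective
    (LinearMap.ker_eq_bot.mpr fun a b h => smul_left_injective Qbar hc (by simpa using h))
  exact ⟨f, by simpa using LinearMap.congr_fun hf 1⟩

theorem polyC_phiB {Z : LaurentSeries ℂ} (hZ : Z ∈ ModFun.polyC N) :
    ∀ φ : ℂ →ₗ[Qbar] Qbar, phiB φ Z ∈ modularFunctionFieldBar N := by
  rw [ModFun.polyC, ← Subalgebra.mem_toSubmodule, Algebra.adjoin_eq_span] at hZ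
  induction hZ using Submodule.span_induction with
  | mem x hx =>
    have : ∃ z ∈ modularFunctionFieldBar N, x = coeffMap embC z := by
      induction hx using Submonoid.closure_induction with
      | mem y hy =>
        rcases hy with h | h
        · exact ⟨_, (ModFun.jBar N).2, h.trans (ModFun.coeffMap_coeffEmb_comp embC jq).symm⟩
        · exact ⟨_, (ModFun.jNBar N).2, (Set.mem_singleton_iff.mp h).trans
            (ModFun.coeffMap_coeffEmb_comp embC _).symm⟩
      | one => exact ⟨1, one_mem _, (map_one _).symm⟩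
      | mul a b _ _ ha hb =>
        obtain ⟨za, hza, rfl⟩ := ha
        obtain ⟨zb, hzb, rfl⟩ := hb
        exact ⟨za * zb, mul_mem hza hzb, (map_mul _ _ _).symm⟩
    obtain ⟨z, hz, rfl⟩ := this
    intro φ
    rw [← mul_one (coeffMap embC z), phiB_mul_coeffMap]
    refine mul_mem hz ?_
    have : phiB φ 1 = algebraMap Qbar _ (φ 1) := by
      ext k
      rw [phiB_coeff, algebraMap_laurentSeries_eq_single, HahnSeries.coeff_one,
        HahnSeries.coeff_single]
      split_ifs <;> simp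
    rw [this]
    exact IntermediateField.algebraMap_mem _ _
  | zero =>
    intro φ
    have : phiB φ 0 = 0 := by ext k; simp [phiB_coeff]
    rw [this]; exact zero_mem _
  | add x y _ _ hx hy =>
    intro φ
    have : phiB φ (x + y) = phiB φ x + phiB φ y := by ext k; simp [phiB_coeff]
    rw [this]; exact add_mem (hx φ) (hy φ)
  | smul c x _ hx =>
    intro φ
    convert hx (φ.comp (LinearMap.mulLeft Qbar c)) using 1
    ext k
    rw [phiB_coeff, phiB_coeff, LinearMap.comp_apply, LinearMap.mulLeft_apply, Algebra.smul_def,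
      ModFun.algebraMap_mul_coeff]

/-- a quotient of forms with algebraic expansion lies in the function field -/
theorem mem_field_of_series {X : LaurentSeries Qbar} {w : ℤ} {F G : ℍ → ℂ} (hF : IsMF N w F)
    (hG : IsMF N w G) (hG0 : G ≠ 0)
    (h : coeffMap embC X * HahnSeries.ofPowerSeries ℤ ℂ (qx G)
      = HahnSeries.ofPowerSeries ℤ ℂ (qx F)) :
    X ∈ modularFunctionFieldBar N := by
  have hq := ModFun.quot_mem_adjoin hF hG
  have hG' : HahnSeries.ofPowerSeries ℤ ℂ (qx G) ≠ 0 := by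
    intro h0
    rw [map_eq_zero_iff _ HahnSeries.ofPowerSeries_injective] at h0
    exact hG0 (Good.qx_inj hG.good Good.zero (h0.trans (UpperHalfPlane.qExpansion_zero 1).symm))
  rw [← h, mul_div_cancel_right₀ _ hG', IntermediateField.mem_adjoin_iff_div] at hq
  obtain ⟨r, hr, s, hs, hrs⟩ := hq
  rcases eq_or_ne s 0 with rfl | hs0
  · rw [div_zero, map_eq_zero_iff _ coeffMap_embC_injective] at hrs
    rw [hrs]; exact zero_mem _
  rw [eq_div_iff hs0] at hrs
  obtain ⟨k, hk⟩ : ∃ k, s.coeff k ≠ 0 := by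
    by_contra hc
    push Not at hc
    exact hs0 (HahnSeries.ext (funext hc))
  obtain ⟨φ, hφ⟩ := exists_phiB hk
  have hne : phiB φ s ≠ 0 := fun h0 => by
    have := congrArg (fun z : LaurentSeries Qbar => z.coeff k) h0
    simp [phiB_coeff, hφ] at this
  have hmain : X * phiB φ s = phiB φ r := by rw [← phiB_mul_coeffMap, hrs]
  rw [(eq_div_iff hne).mpr hmain]
  exact div_mem (polyC_phiB hr φ) (polyC_phiB hs φ)

end FLTAgent.JTors
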