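import Fermat.Agent.JTors.MeroH

/-!
The exact dictionary between orders at points of `ℍ` or cusps and places of the function field.
-/

set_option autoImplicit false

noncomputable section

open UpperHalfPlane Filter Topology ModularCurve ModularGroup AlgebraicCurve
open scoped MatrixGroups WithZero

namespace FLTAgent.JTors

open Genus (Qbar embC FN MeroGerm germOf ordVal vlog gen jgen CosetSpace)
open scoped Genus

universe uK uF uM uI

/-- In a fibre, the ramification of the place of an embedding is the size of its class. -/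
theorem fibre_exact {K : Type uK} {F : Type uF} {M : Type uM} [Field K] [Field F] [Algebra K F]
    [Field M] [Algebra K M] [IsAlgClosed K] [CharZero K] [RR.FnField K F]
    {u : F} (hu : Transcendental K u) (ν : Valuation M ℤᵐ⁰)
    (hK : ∀ c : K, c ≠ 0 → ν (algebraMap K M c) = 1)
    {ι : Type uI} [Finite ι] (σ : ι → F →ₐ[K] M) (hσ : Function.Injective σ)
    (hι : Nat.card ι = RR.ndeg K u) {U : M} (hU : ∀ i, σ i u = U) {k : ℕ} (hk : vlog ν U = k)
    (hk0 : 0 < k) (r : Setoid ι)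
    (hr : ∀ i i' : ι, r i i' → ∀ x : F, ν (σ i x) = ν (σ i' x))
    (hdiv : ∀ (i : ι) (x : F), x ≠ 0 →
      (k : ℤ) ∣ (Nat.card {i' : ι // r i i'} : ℤ) * vlog ν (σ i x)) :
    (∀ i, ∃ w : Place K F, w.ord u = Nat.card {i' : ι // r i i'} ∧
      ∀ f : F, f ≠ 0 → (Nat.card {i' : ι // r i i'} : ℤ) * vlog ν (σ i f) = k * w.ord f) ∧
    ∀ w : Place K F, 0 < w.ord u → ∃ i, w.ord u = Nat.card {i' : ι // r i i'} ∧
      ∀ f : F, f ≠ 0 → (Nat.card {i' : ι // r i i'} : ℤ) * vlog ν (σ i f) = k * w.ord f := by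
  classical
  obtain ⟨s, hs, hcard, hpl, hsur⟩ := Genus.fibre hu ν hK σ hσ hι hU hk hk0 r hr hdiv
  choose ρ hρs hρ using hpl
  have hpos : ∀ i, 0 < (ρ i).ord u := fun i => (hs _).mp (hρs i)
  have huniq : ∀ i, ∀ w ∈ s, (∀ f : F, f ≠ 0 → w.ord u * vlog ν (σ i f) = k * w.ord f) → ρ i = w := by
    intro i w hw h
    obtain ⟨a, ha⟩ := Int.eq_ofNat_of_zero_le ((hs w).mp hw).le
    obtain ⟨b, hb⟩ := Int.eq_ofNat_of_zero_le (hpos i).le
    have hw' := (hs w).mp hw
    have hi := hpos i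
    refine Genus.place_ext_of_vlog (g := a) (g' := b) (by omega) (by omega) fun f hf => ?_
    have h1 := hρ i f hf
    have h2 := h f hf
    rw [hb] at h1
    rw [ha] at h2
    have hk' : (k : ℤ) ≠ 0 := by omega
    refine mul_left_cancel₀ hk' ?_
    linear_combination (b : ℤ) * h2 - (a : ℤ) * h1
  have hresp : ∀ i i', r i i' → ρ i = ρ i' := fun i i' h =>
    huniq i (ρ i') (hρs i') fun f hf => by
      have e : vlog ν (σ i f) = vlog ν (σ i' f) := by simp only [vlog, hr i i' h f]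
      rw [e]; exact hρ i' f hf
  let ρb : Quotient r → Place K F := Quotient.lift ρ hresp
  haveI : Fintype ι := Fintype.ofFinite ι
  haveI : Fintype (Quotient r) := Fintype.ofFinite _
  have himg : Finset.univ.image ρb = s := by
    ext w
    constructor
    · intro hw
      obtain ⟨o, -, rfl⟩ := Finset.mem_image.mp hw
      induction o using Quotient.inductionOn with
      | h i => exact hρs i
    · intro hw
      obtain ⟨i, hi⟩ := hsur w hw
      exact Finset.mem_image.mpr ⟨⟦i⟧, Finset.mem_univ _, huniq i w hw hi⟩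
  have hinj : Function.Injective ρb := by
    have : (Finset.univ.image ρb).card = (Finset.univ : Finset (Quotient r)).card := by
      rw [himg, hcard, Nat.card_eq_fintype_card, Finset.card_univ]
    intro a b hab
    exact Finset.card_image_iff.mp this (Finset.mem_univ a) (Finset.mem_univ b) hab
  have hle : ∀ i, (ρ i).ord u ≤ Nat.card {i' : ι // r i i'} := by
    intro i
    obtain ⟨π, hπ⟩ := IsDiscreteValuationRing.exists_irreducible (ρ i).toValuationSubring
    have hπ0 : (π : F) ≠ 0 := by simpa using hπ.ne_zero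
    have h1 := hdiv i π hπ0
    have h2 := hρ i π hπ0
    rw [(ρ i).ord_coe_irreducible hπ, mul_one] at h2
    rw [← h2] at h1
    have hv : vlog ν (σ i (π : F)) ≠ 0 := by
      intro h0; rw [h0, mul_zero] at h2; omega
    refine Int.le_of_dvd ?_ ((mul_dvd_mul_iff_right hv).mp h1)
    have hne : Nonempty {i' : ι // r i i'} := ⟨⟨i, r.refl i⟩⟩
    exact_mod_cast Finite.card_pos_iff.mpr hne
  let sz : Quotient r → ℕ := fun o => Nat.card {i : ι // (⟦i⟧ : Quotient r) = o}
  have hsz' : ∀ i, sz (⟦i⟧ : Quotient r) = Nat.card {i' : ι // r i i'} := fun i =>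
    Nat.card_congr (Equiv.subtypeEquivRight fun j =>
      ⟨fun h => r.symm (Quotient.exact h), fun h => Quotient.sound (r.symm h)⟩)
  have hle' : ∀ o, (ρb o).ord u ≤ sz o := by
    intro o
    induction o using Quotient.inductionOn with
    | h i => rw [hsz']; exact hle i
  have hsz : ∑ o, (sz o : ℤ) = RR.ndeg K u := by
    rw [← hι, ← Nat.card_congr (Equiv.sigmaFiberEquiv (fun i : ι => (⟦i⟧ : Quotient r))),
      Nat.card_sigma, Nat.cast_sum]
  have hsum : ∑ o, (ρb o).ord u = RR.ndeg K u := by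
    have h := RR.sum_ord_sub_const hu 0 s (fun w => by rw [map_zero, sub_zero]; exact hs w)
    rw [map_zero, sub_zero, ← himg, Finset.sum_image (fun a _ b _ hab => hinj hab)] at h
    exact h
  have hsize : ∀ i, (ρ i).ord u = Nat.card {i' : ι // r i i'} := by
    intro i
    rw [← hsz']
    exact (Finset.sum_eq_sum_iff_of_le fun o _ => hle' o).mp (hsum.trans hsz.symm) ⟦i⟧
      (Finset.mem_univ _)
  refine ⟨fun i => ⟨ρ i, hsize i, fun f hf => by rw [← hsize i]; exact hρ i f hf⟩, fun w hw => ?_⟩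
  obtain ⟨i, hi⟩ := hsur w ((hs w).mpr hw)
  have e := huniq i w ((hs w).mpr hw) hi
  subst e
  exact ⟨i, hsize i, fun f hf => by rw [← hsize i]; exact hρ i f hf⟩

variable (N : ℕ) [NeZero N]

theorem q₁_out_mem : (QuotientGroup.mk 1 : CosetSpace N).out ∈ CongruenceSubgroup.Gamma0 N := by
  have := QuotientGroup.out_eq' (QuotientGroup.mk 1 : CosetSpace N)
  rw [eq_comm, QuotientGroup.eq] at this
  simpa using this

theorem ordAt_evH_q₁ (τ : ℍ) (x : FN N) :
    vlog (ordVal (τ : ℂ)) ((Genus.interiorChart N τ).sigma (QuotientGroup.mk 1) x)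
      = ordAt τ (evH N x) :=
  ordAt_evH τ (q₁_out_mem N) x

theorem cden_eq (γ : SL(2, ℤ)) (τ : ℍ) :
    Genus.cden γ τ = denom (Matrix.SpecialLinearGroup.mapGL ℝ γ⁻¹) τ :=
  (ModFun.denom_SL γ⁻¹ (τ : ℂ)).symm

theorem cden_conj (δ g : SL(2, ℤ)) {b : ℍ} (hb : g • b = b) :
    Genus.cden (δ * g * δ⁻¹) (δ • b : ℍ) = Genus.cden g b := by
  simp only [cden_eq, mul_inv_rev, inv_inv, map_mul]
  set d := Matrix.SpecialLinearGroup.mapGL ℝ δ
  set e := Matrix.SpecialLinearGroup.mapGL ℝ δ⁻¹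
  set h := Matrix.SpecialLinearGroup.mapGL ℝ g⁻¹
  have he : e * d = 1 := by
    show _ * _ = _
    rw [← map_mul, inv_mul_cancel, map_one]
  have hhb : h • b = b := by
    show g⁻¹ • b = b
    conv_lhs => rw [← hb, inv_smul_smul]
  have hedb : e • d • b = b := by rw [← mul_smul, he, one_smul]
  show denom (d * (h * e)) ((d • b : ℍ) : ℂ) = denom h b
  have hdet : ∀ M : SL(2, ℤ), 0 < (Matrix.SpecialLinearGroup.mapGL ℝ M).det.val := det_pos_SL
  have c1 : denom (d * (h * e)) ((d • b : ℍ) : ℂ) =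
      denom d ((h * e) • d • b : ℍ) * denom (h * e) (d • b : ℍ) := by
    rw [denom_cocycle_σ, UpperHalfPlane.σ, if_pos]
    · rfl
    · simp [d, h, e]
  have c2 : denom (h * e) ((d • b : ℍ) : ℂ) =
      denom h (e • d • b : ℍ) * denom e (d • b : ℍ) := by
    rw [denom_cocycle_σ, UpperHalfPlane.σ, if_pos]
    · rfl
    · simp [h, e]
  have c3 : denom d ((b : ℍ) : ℂ) * denom e ((d • b : ℍ) : ℂ) = 1 := by
    have c4 : denom (e * d) (b : ℂ) = denom e (d • b : ℍ) * denom d b := by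
      rw [denom_cocycle_σ, UpperHalfPlane.σ, if_pos]
      · rfl
      · simp [d]
    rw [he, denom_one] at c4
    rw [mul_comm, ← c4]
  rw [c1, c2, hedb, show (h * e) • d • b = b by rw [mul_smul, hedb, hhb]]
  linear_combination denom h (b : ℂ) * c3

theorem cden_S_conj (δ : SL(2, ℤ)) :
    orderOf ((Genus.cden (δ * S * δ⁻¹) (δ • UpperHalfPlane.I : ℍ) *
      Genus.cden (δ * S * δ⁻¹) (δ • UpperHalfPlane.I : ℍ))⁻¹ : ℂ) = 2 := by
  rw [cden_conj δ S Genus.S_smul_I, ← sq, Genus.cden_S]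
  simp [orderOf_neg_one, ringChar.eq_zero]

theorem cden_ST_conj (δ : SL(2, ℤ)) :
    orderOf ((Genus.cden (δ * (S * T) * δ⁻¹) (δ • UpperHalfPlane.ρ : ℍ) *
      Genus.cden (δ * (S * T) * δ⁻¹) (δ • UpperHalfPlane.ρ : ℍ))⁻¹ : ℂ) = 3 := by
  rw [cden_conj δ (S * T) Genus.ST_smul_rho, ← sq, Genus.cden_ST]
  have hρ3 : (UpperHalfPlane.ρ : ℂ) ^ 3 = 1 := by
    linear_combination ((UpperHalfPlane.ρ : ℂ) - 1) * UpperHalfPlane.ρ_sq
  have hne : (UpperHalfPlane.ρ : ℂ) ≠ 1 := by
    intro h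
    have := congrArg Complex.im h
    simp [UpperHalfPlane.ρ] at this
  rw [inv_eq_of_mul_eq_one_right
    (show (UpperHalfPlane.ρ : ℂ) ^ 2 * UpperHalfPlane.ρ = 1 by rw [← pow_succ, hρ3])]
  exact orderOf_eq_prime hρ3 hne

/-- the elliptic type of a point: an element of `SL(2,ℤ)` of order `k` in `PSL` fixing it -/
def HasEllType (τ : ℍ) (γ : SL(2, ℤ)) (k : ℕ) : Prop :=
  (∃ δ : SL(2, ℤ), τ = δ • UpperHalfPlane.I ∧ γ = δ * S * δ⁻¹ ∧ k = 2) ∨
  ∃ δ : SL(2, ℤ), τ = δ • UpperHalfPlane.ρ ∧ γ = δ * (S * T) * δ⁻¹ ∧ k = 3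

theorem HasEllType.smul_eq {τ : ℍ} {γ : SL(2, ℤ)} {k : ℕ} (h : HasEllType τ γ k) : γ • τ = τ := by
  rcases h with ⟨δ, rfl, rfl, -⟩ | ⟨δ, rfl, rfl, -⟩
  · rw [mul_smul, inv_smul_smul, mul_smul, Genus.S_smul_I]
  · rw [mul_smul, inv_smul_smul, mul_smul δ, Genus.ST_smul_rho]

theorem HasEllType.orderOf_eq {τ : ℍ} {γ : SL(2, ℤ)} {k : ℕ} (h : HasEllType τ γ k) :
    orderOf ((Genus.cden γ τ * Genus.cden γ τ)⁻¹ : ℂ) = k := by
  rcases h with ⟨δ, rfl, rfl, rfl⟩ | ⟨δ, rfl, rfl, rfl⟩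
  · exact cden_S_conj δ
  · exact cden_ST_conj δ

/-- the three kinds of points -/
theorem ellType_cases (τ : ℍ) :
    analyticOrderAt (fun z => ModFun.jFun (ofComplex z) - ModFun.jFun τ) (τ : ℂ) = 1 ∨
      ∃ γ k, HasEllType τ γ k ∧ k.Prime ∧ (∀ i : CosetSpace N, γ ^ k • i = i) ∧
        analyticOrderAt (fun z => ModFun.jFun (ofComplex z) - ModFun.jFun τ) (τ : ℂ) = k := by
  by_cases h0 : ModFun.jFun τ = 0
  · right
    obtain ⟨δ, rfl⟩ := ModFun.jFun_eq_iff.mp (ModFun.jFun_rho.trans h0.symm)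
    refine ⟨δ * (S * T) * δ⁻¹, 3, Or.inr ⟨δ, rfl, rfl, rfl⟩, Nat.prime_three, fun i => ?_, ?_⟩
    · rw [conj_pow, show (S * T) ^ 3 = (-1 : SL(2, ℤ)) by decide, mul_smul, mul_smul,
        Genus.neg_one_smul_coset, smul_inv_smul]
    · simp only [h0, sub_zero]
      exact ModFun.analyticOrderAt_jFun_sub_rho δ
  by_cases h1 : ModFun.jFun τ = 1728
  · right
    obtain ⟨δ, rfl⟩ := ModFun.jFun_eq_iff.mp (ModFun.jFun_I.trans h1.symm)
    refine ⟨δ * S * δ⁻¹, 2, Or.inl ⟨δ, rfl, rfl, rfl⟩, Nat.prime_two, fun i => ?_, ?_⟩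
    · rw [conj_pow, show S ^ 2 = (-1 : SL(2, ℤ)) by decide, mul_smul, mul_smul,
        Genus.neg_one_smul_coset, smul_inv_smul]
    · simp only [h1]
      exact ModFun.analyticOrderAt_jFun_sub_I δ
  exact Or.inl (ModFun.analyticOrderAt_jFun_sub_generic h0 h1)

theorem mk_one_fixed_iff {γ : SL(2, ℤ)} :
    γ • (QuotientGroup.mk 1 : CosetSpace N) = QuotientGroup.mk 1 ↔
      γ ∈ CongruenceSubgroup.Gamma0 N := by
  rw [MulAction.Quotient.smul_mk, QuotientGroup.eq]
  simp

open scoped Classical in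
/-- weight of a point: `k` if elliptic for `Γ₀(N)`, `1` otherwise -/
theorem interior_exact (τ : ℍ) (c : Qbar) (hc : embC c = ModFun.jFun τ) :
    (∃ w : Place Qbar (FN N), 0 < w.ord (ModFun.jBar N - algebraMap Qbar (FN N) c) ∧
      ((∀ f : FN N, f ≠ 0 → ordAt τ (evH N f) = w.ord f) ∨
        ∃ γ k, HasEllType τ γ k ∧ γ ∈ CongruenceSubgroup.Gamma0 N ∧
          ∀ f : FN N, f ≠ 0 → ordAt τ (evH N f) = k * w.ord f)) ∧
    ∀ w : Place Qbar (FN N), 0 < w.ord (ModFun.jBar N - algebraMap Qbar (FN N) c) →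
      ∃ δ : SL(2, ℤ), ∃ g : ℤ, 0 < g ∧
        ∀ f : FN N, f ≠ 0 → ordAt (δ • τ) (evH N f) = g * w.ord f := by
  set C := Genus.interiorChart N τ with hC
  have han : AnalyticAt ℂ (fun z => ModFun.jFun (ofComplex z) - ModFun.jFun τ) τ :=
    ((Genus.analyticOnNhd_ofComplex ModFun.mdiff_jFun) _ τ.im_pos).sub analyticAt_const
  have hU : ∀ i, C.sigma i (ModFun.jBar N - algebraMap Qbar (FN N) c) =
      germOf _ han.meromorphicAt := by
    intro i
    rw [map_sub, AlgHom.commutes]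
    show @id (MeroGerm (τ : ℂ)) ((Genus.interiorChart N τ).sigma i (ModFun.jBar N))
      - algebraMap ℂ (MeroGerm (τ : ℂ)) (embC c) = _
    rw [Genus.sigma_jBar_interior, hc, Genus.algebraMap_eq_germOf, sub_eq_add_neg]
    simp only [id_eq]
    rfl
  obtain ⟨k, γ, hk0, hk, hfix, hγk, hord, hell⟩ :
      ∃ (k : ℕ) (γ : SL(2, ℤ)), 0 < k ∧
        analyticOrderAt (fun z => ModFun.jFun (ofComplex z) - ModFun.jFun τ) (τ : ℂ) = k ∧
        γ • τ = τ ∧ (∀ i : CosetSpace N, γ ^ k • i = i) ∧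
        (k = 1 ∨ k.Prime ∧ orderOf ((Genus.cden γ τ * Genus.cden γ τ)⁻¹ : ℂ) = k) ∧
        (k = 1 ∨ HasEllType τ γ k) := by
    rcases ellType_cases N τ with h | ⟨γ, k, hγ, hp, hγk, h⟩
    · exact ⟨1, 1, one_pos, by exact_mod_cast h, one_smul _ _,
        fun i => by rw [pow_one, one_smul], Or.inl rfl, Or.inl rfl⟩
    · exact ⟨k, γ, hp.pos, h, hγ.smul_eq, hγk, Or.inr ⟨hp, hγ.orderOf_eq⟩, Or.inr hγ⟩
  have hUv : vlog (ordVal C.pt) (germOf _ han.meromorphicAt) = k := by
    rw [Genus.vlog, Genus.log_ordVal_germOf]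
    show (meromorphicOrderAt _ (τ : ℂ)).untop₀ = _
    rw [AnalyticAt.meromorphicOrderAt_eq han]
    show (WithTop.map _ (analyticOrderAt _ (τ : ℂ))).untop₀ = _
    rw [hk]
    rfl
  have hsym := Genus.interior_sym (N := N) hfix
  obtain ⟨h1, h2⟩ := fibre_exact (K := Qbar) (Genus.transcendental_sub_const N c) (ordVal C.pt)
    (fun d hd => Genus.ordVal_algebraMap_qbar hd) C.sigma C.sigma_injective
    (by rw [Genus.card_cosetSpace, Genus.ndeg_sub_const]) hU hUv hk0
    (MulAction.orbitRel (Subgroup.zpowers γ) (CosetSpace N))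
    (fun i i' h x => hsym.val_orbit h x)
    (fun i x _ => by
      erw [Genus.card_class]
      rcases hord with rfl | ⟨hp, hu⟩
      · simp
      rcases hp.eq_one_or_self_of_dvd _ (Genus.minimalPeriod_dvd hγk i) with h1 | h1
      · have hi : γ • i = i := Function.minimalPeriod_eq_one_iff_isFixedPt.mp h1
        have := hsym.dvd_vlog hi x
        rw [h1, Nat.cast_one, one_mul, ← hu]
        exact this
      · rw [h1]
        exact dvd_mul_right _ _)
  refine ⟨?_, fun w hw => ?_⟩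
  · obtain ⟨w, hw, hwf⟩ := h1 (QuotientGroup.mk 1)
    erw [Genus.card_class] at hw hwf
    have hdvd := Genus.minimalPeriod_dvd hγk (QuotientGroup.mk 1 : CosetSpace N)
    have hpos : 0 < Function.minimalPeriod (fun y => γ • y) (QuotientGroup.mk 1 : CosetSpace N) :=
      Nat.pos_of_ne_zero fun h0 => hk0.ne' (Nat.eq_zero_of_zero_dvd (h0 ▸ hdvd))
    refine ⟨w, by rw [hw]; exact_mod_cast hpos, ?_⟩
    by_cases hsame : Function.minimalPeriod (fun y => γ • y) (QuotientGroup.mk 1 : CosetSpace N) = k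
    · refine Or.inl fun f hf => ?_
      have := hwf f hf
      erw [ordAt_evH_q₁] at this
      rw [hsame] at this
      exact mul_left_cancel₀ (by exact_mod_cast hk0.ne' : (k : ℤ) ≠ 0) this
    · rcases hord with rfl | ⟨hp, -⟩
      · exact absurd (Nat.eq_one_of_dvd_one hdvd) hsame
      have h1' := (hp.eq_one_or_self_of_dvd _ hdvd).resolve_right hsame
      refine Or.inr ⟨γ, k, hell.resolve_left hp.ne_one,
        (mk_one_fixed_iff N).mp (Function.minimalPeriod_eq_one_iff_isFixedPt.mp h1'), fun f hf => ?_⟩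
      have := hwf f hf
      erw [ordAt_evH_q₁] at this
      rwa [h1', Nat.cast_one, one_mul] at this
  · obtain ⟨i, hi, hwf⟩ := h2 w hw
    refine ⟨i.out⁻¹, ?_⟩
    erw [Genus.card_class] at hi hwf
    set a := Function.minimalPeriod (fun y => γ • y) i
    have ha : a ∣ k := Genus.minimalPeriod_dvd hγk i
    obtain ⟨b, hb⟩ := ha
    have hb0 : 0 < b := Nat.pos_of_ne_zero fun h0 => by simp [h0] at hb; omega
    have ha0 : (a : ℤ) ≠ 0 := by
      intro h0
      have : a = 0 := by exact_mod_cast h0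
      simp [this] at hb; omega
    refine ⟨b, by exact_mod_cast hb0, fun f hf => ?_⟩
    have h3 := hwf f hf
    have e : vlog (ordVal (τ : ℂ)) (C.sigma i f) = ordAt (i.out⁻¹ • τ) (evH N f) := by
      rw [← ordAt_pullSL _ _ ((map_ne_zero _).mpr hf)]
      have hh : ((germAt τ).restrictScalars Qbar).comp
          (((pullSL i.out⁻¹).restrictScalars Qbar).comp (evH N)) =
          (C.sigma i : modularFunctionFieldBar N →ₐ[Qbar] MeroGerm (τ : ℂ)) := by
        refine Genus.algHom_ext fun d => ?_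
        show germAt τ (pullSL i.out⁻¹ (evH N (gen N d))) = _
        rw [evH_gen, pullSL_ofH, germAt_ofH]
        refine Eq.trans ?_ (C.sigma_gen i d).symm
        exact (Genus.germOf_eq_iff (z₀ := (τ : ℂ))
          ((Genus.analyticOnNhd_ofComplex (mdiff_smul_SL _ (jdH N d).2)) _ τ.im_pos).meromorphicAt
          _).mpr (Eventually.of_forall fun z => rfl)
      exact congrArg _ (DFunLike.congr_fun hh f).symm
    erw [e] at h3
    refine mul_left_cancel₀ ha0 (h3.trans ?_)
    rw [hb]; push_cast; ring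

theorem cusp_exact :
    (∀ i : CosetSpace N, ∃ w : Place Qbar (FN N),
      w.ord (ModFun.jBar N) = -(Function.minimalPeriod (fun y => T • y) i : ℤ) ∧
        ∀ f : FN N, f ≠ 0 → (Function.minimalPeriod (fun y => T • y) i : ℤ) *
          vlog (ordVal (0 : ℂ)) ((Genus.cuspChart N).sigma i f) = N * w.ord f) ∧
    ∀ w : Place Qbar (FN N), w.ord (ModFun.jBar N) < 0 → ∃ i : CosetSpace N,
      w.ord (ModFun.jBar N) = -(Function.minimalPeriod (fun y => T • y) i : ℤ) ∧
        ∀ f : FN N, f ≠ 0 → (Function.minimalPeriod (fun y => T • y) i : ℤ) *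
          vlog (ordVal (0 : ℂ)) ((Genus.cuspChart N).sigma i f) = N * w.ord f := by
  obtain ⟨U, hU, hUv⟩ := Genus.exists_uniform_pole N
  obtain ⟨h1, h2⟩ := fibre_exact (K := Qbar) (Genus.transcendental_inv N)
    (ordVal (Genus.cuspChart N).pt)
    (fun d hd => Genus.ordVal_algebraMap_qbar hd) (Genus.cuspChart N).sigma
    (Genus.cuspChart N).sigma_injective
    (by rw [Genus.card_cosetSpace, Genus.ndeg_inv]) hU hUv (Nat.pos_of_ne_zero (NeZero.ne N))
    (MulAction.orbitRel (Subgroup.zpowers T) (CosetSpace N))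
    (fun i i' h x => by
      have h1 := Genus.cusp_sym (N := N) 1
      rw [zpow_one] at h1
      exact h1.val_orbit h x)
    (fun i x _ => by
      erw [Genus.card_class]
      set w := Function.minimalPeriod (fun y => T • y) i
      have hwN : w ∣ N := Genus.minimalPeriod_dvd (fun y => by
        rw [← zpow_natCast, Genus.T_pow_level_smul]) i
      have hi : T ^ (w : ℤ) • i = i := by
        rw [zpow_natCast]; exact Genus.smul_pow_minimalPeriod T i
      have h2 := (Genus.cusp_sym (N := N) (w : ℤ)).dvd_vlog hi x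
      have hprim := Complex.isPrimitiveRoot_exp N (NeZero.ne N)
      have hu : Complex.exp (-(2 * Real.pi * Complex.I * ((w : ℤ) : ℂ) / N)) =
          (Complex.exp (2 * Real.pi * Complex.I / N) ^ w)⁻¹ := by
        rw [Complex.exp_neg, ← Complex.exp_nat_mul]
        congr 2
        push_cast
        ring
      have hw0 : w ≠ 0 := fun h => NeZero.ne N (Nat.eq_zero_of_zero_dvd (h ▸ hwN))
      have hord : orderOf (Complex.exp (-(2 * Real.pi * Complex.I * ((w : ℤ) : ℂ) / N))) = N / w := by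
        rw [hu]
        obtain ⟨m, hm⟩ := hwN
        rw [hm, Nat.mul_div_cancel_left m (Nat.pos_of_ne_zero hw0), ← hm]
        exact (hprim.pow (Nat.pos_of_ne_zero (NeZero.ne N)) hm).inv.eq_orderOf.symm
      rw [hord] at h2
      obtain ⟨b, hb⟩ := h2
      refine ⟨b, ?_⟩
      rw [hb, ← mul_assoc, ← Nat.cast_mul, Nat.mul_div_cancel' hwN])
  refine ⟨fun i => ?_, fun w hw => ?_⟩
  · obtain ⟨w, hw, hwf⟩ := h1 i
    erw [Genus.card_class] at hw hwf
    rw [Place.ord_inv] at hw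
    exact ⟨w, by omega, hwf⟩
  · obtain ⟨i, hi, hwf⟩ := h2 w (by rw [Place.ord_inv]; omega)
    erw [Genus.card_class] at hi hwf
    rw [Place.ord_inv] at hi
    exact ⟨i, by omega, hwf⟩

end FLTAgent.JTors
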