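import Fermat.Agent.Genus.Export
import Fermat.Agent.JTors.Defs
import Mathlib.RingTheory.Localization.FractionRing

/-!
The field of meromorphic functions on the upper half plane (as fractions of holomorphic ones),
pull-backs by Möbius maps, orders at points, and the realisation of the function field in it.
-/

set_option autoImplicit false

noncomputable section

open UpperHalfPlane Filter Topology ModularCurve
open scoped MatrixGroups Manifold

namespace FLTAgent.JTors

open Genus (Qbar embC MeroGerm germOf ordVal vlog gen jgen)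
open scoped Genus

/-- holomorphic functions on `ℍ` -/
def HolH : Subalgebra ℂ (ℍ → ℂ) where
  carrier := {f | MDiff f}
  mul_mem' {f g} (hf : MDiff f) (hg : MDiff g) := hf.mul hg
  one_mem' := mdifferentiable_const
  add_mem' {f g} (hf : MDiff f) (hg : MDiff g) := hf.add hg
  zero_mem' := mdifferentiable_const
  algebraMap_mem' c := mdifferentiable_const

theorem HolH.mdiff (f : HolH) : MDiff (f : ℍ → ℂ) := f.2

instance HolH.nontrivial : Nontrivial HolH :=
  ⟨⟨0, 1, fun h => zero_ne_one (congrFun (congrArg Subtype.val h) UpperHalfPlane.I)⟩⟩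

instance HolH.noZeroDivisors : NoZeroDivisors HolH :=
  ⟨fun {a b} h => ((UpperHalfPlane.mul_eq_zero_iff a.2 b.2).mp (congrArg Subtype.val h)).imp
    (fun e => Subtype.ext e) fun e => Subtype.ext e⟩

instance HolH.isDomain : IsDomain HolH := NoZeroDivisors.to_isDomain _

/-- meromorphic functions on `ℍ` -/
abbrev MeroH : Type := FractionRing HolH

/-- a holomorphic function as a meromorphic one -/
def ofH : HolH →ₐ[ℂ] MeroH := IsScalarTower.toAlgHom ℂ HolH MeroH

theorem ofH_injective : Function.Injective ofH := IsFractionRing.injective HolH MeroH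

theorem ofH_ne_zero {f : HolH} (hf : f ≠ 0) : ofH f ≠ 0 := (map_ne_zero_iff _ ofH_injective).mpr hf

theorem exists_ofH_div (x : MeroH) : ∃ a b : HolH, b ≠ 0 ∧ x = ofH a / ofH b := by
  obtain ⟨a, b, hb, rfl⟩ := IsFractionRing.div_surjective (A := HolH) x
  exact ⟨a, b, nonZeroDivisors.ne_zero hb, rfl⟩

/-- composition with a Möbius map -/
def pullHol (g : GL (Fin 2) ℝ) (hg : 0 < g.det.val) : HolH →ₐ[ℂ] HolH where
  toFun f := ⟨fun τ => (f : ℍ → ℂ) (g • τ), f.2.comp (mdifferentiable_smul hg)⟩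
  map_one' := rfl
  map_mul' _ _ := rfl
  map_zero' := rfl
  map_add' _ _ := rfl
  commutes' _ := rfl

theorem pullHol_injective (g : GL (Fin 2) ℝ) (hg : 0 < g.det.val) :
    Function.Injective (pullHol g hg) := by
  intro a b h
  refine Subtype.ext (funext fun τ => ?_)
  have := congrFun (congrArg Subtype.val h) (g⁻¹ • τ)
  simpa [pullHol] using this

/-- pull-back of meromorphic functions -/
def pull (g : GL (Fin 2) ℝ) (hg : 0 < g.det.val) : MeroH →ₐ[ℂ] MeroH :=
  IsFractionRing.liftAlgHom (g := (ofH.comp (pullHol g hg)))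
    (ofH_injective.comp (pullHol_injective g hg))

theorem pull_ofH (g : GL (Fin 2) ℝ) (hg : 0 < g.det.val) (f : HolH) :
    pull g hg (ofH f) = ofH (pullHol g hg f) :=
  IsFractionRing.lift_algebraMap (A := HolH) (K := MeroH) (g := (ofH.comp (pullHol g hg)).toRingHom)
    (ofH_injective.comp (pullHol_injective g hg)) f

theorem det_pos_SL (γ : SL(2, ℤ)) :
    0 < (Matrix.SpecialLinearGroup.mapGL ℝ γ).det.val := by simp

/-- pull-back by an element of `SL(2,ℤ)` -/
def pullSL (γ : SL(2, ℤ)) : MeroH →ₐ[ℂ] MeroH :=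
  pull (Matrix.SpecialLinearGroup.mapGL ℝ γ) (det_pos_SL γ)

theorem mdiff_smul_SL (γ : SL(2, ℤ)) {f : ℍ → ℂ} (hf : MDiff f) : MDiff fun τ => f (γ • τ) :=
  hf.comp (mdifferentiable_smul (g := Matrix.SpecialLinearGroup.mapGL ℝ γ) (det_pos_SL γ))

theorem pullSL_ofH (γ : SL(2, ℤ)) (f : HolH) :
    pullSL γ (ofH f) = ofH ⟨fun τ => (f : ℍ → ℂ) (γ • τ), mdiff_smul_SL γ f.2⟩ :=
  pull_ofH _ _ f

/-- Roots of unity in the field of meromorphic functions are constants. -/
theorem exists_const_of_pow_eq {n : ℕ} (hn : 0 < n) {c : ℂ} {y : MeroH}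
    (hy : y ^ n = algebraMap ℂ MeroH c) : ∃ a : ℂ, a ^ n = c ∧ y = algebraMap ℂ MeroH a := by
  have hsplit : (Polynomial.X ^ n - Polynomial.C c : Polynomial ℂ).Splits := IsAlgClosed.splits _
  have hne : (Polynomial.X ^ n - Polynomial.C c : Polynomial ℂ) ≠ 0 :=
    Polynomial.X_pow_sub_C_ne_zero hn c
  have hroot : Polynomial.aeval y (Polynomial.X ^ n - Polynomial.C c : Polynomial ℂ) = 0 := by
    simp [hy]
  have hmem : y ∈ (algebraMap ℂ MeroH).range := by
    refine hsplit.mem_range_of_isRoot (i := algebraMap ℂ MeroH) hne ?_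
    rw [Polynomial.IsRoot.def, Polynomial.eval_map_algebraMap]
    exact hroot
  obtain ⟨a, rfl⟩ := hmem
  refine ⟨a, ?_, rfl⟩
  rw [← map_pow] at hy
  exact (algebraMap ℂ MeroH).injective hy

/-! ### orders -/

/-- the germ of a holomorphic function -/
def germHol (τ : ℍ) : HolH →ₐ[ℂ] MeroGerm (τ : ℂ) where
  toFun f := germOf (fun z => (f : ℍ → ℂ) (ofComplex z))
    ((Genus.analyticOnNhd_ofComplex f.2) _ τ.im_pos).meromorphicAt
  map_one' := rfl
  map_mul' _ _ := (Genus.germOf_mul (z₀ := (τ : ℂ)) _ _).symm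
  map_zero' := rfl
  map_add' _ _ := (Genus.germOf_add (z₀ := (τ : ℂ)) _ _).symm
  commutes' c := (Genus.algebraMap_eq_germOf (z₀ := (τ : ℂ)) c).symm

theorem germHol_injective (τ : ℍ) : Function.Injective (germHol τ) := by
  intro a b h
  refine Subtype.ext (funext fun σ => sub_eq_zero.mp ?_)
  refine Genus.eq_zero_of_eventually (F := fun s => (a : ℍ → ℂ) s - (b : ℍ → ℂ) s) (a.2.sub b.2)
    (τ₀ := τ) ?_ σ
  exact ((Genus.germOf_eq_iff (z₀ := (τ : ℂ))
    ((Genus.analyticOnNhd_ofComplex a.2) _ τ.im_pos).meromorphicAt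
    ((Genus.analyticOnNhd_ofComplex b.2) _ τ.im_pos).meromorphicAt).mp h).mono
      fun z hz => sub_eq_zero.mpr hz

/-- the germ at a point -/
def germAt (τ : ℍ) : MeroH →ₐ[ℂ] MeroGerm (τ : ℂ) :=
  IsFractionRing.liftAlgHom (g := germHol τ) (germHol_injective τ)

theorem germAt_ofH (τ : ℍ) (f : HolH) : germAt τ (ofH f) = germHol τ f :=
  IsFractionRing.lift_algebraMap (germHol_injective τ) f

/-- order at a point of `ℍ` -/
def ordAt (τ : ℍ) (x : MeroH) : ℤ := vlog (ordVal (τ : ℂ)) (germAt τ x)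

theorem ordAt_mul (τ : ℍ) {x y : MeroH} (hx : x ≠ 0) (hy : y ≠ 0) :
    ordAt τ (x * y) = ordAt τ x + ordAt τ y := by
  rw [ordAt, map_mul, Genus.vlog_mul _ ((map_ne_zero _).mpr hx) ((map_ne_zero _).mpr hy)]; rfl

theorem ordAt_inv (τ : ℍ) (x : MeroH) : ordAt τ x⁻¹ = -ordAt τ x := by
  rw [ordAt, map_inv₀, Genus.vlog_inv]; rfl

theorem ordAt_div (τ : ℍ) {x y : MeroH} (hx : x ≠ 0) (hy : y ≠ 0) :
    ordAt τ (x / y) = ordAt τ x - ordAt τ y := by
  rw [div_eq_mul_inv, ordAt_mul τ hx (inv_ne_zero hy), ordAt_inv, sub_eq_add_neg]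

theorem ordAt_pow (τ : ℍ) (x : MeroH) (n : ℕ) : ordAt τ (x ^ n) = n * ordAt τ x := by
  rw [ordAt, map_pow, Genus.vlog_pow]; rfl

theorem ordAt_ofH (τ : ℍ) {f : HolH} (hf : f ≠ 0) :
    ∃ m : ℕ, analyticOrderAt (fun z => (f : ℍ → ℂ) (ofComplex z)) (τ : ℂ) = m ∧
      ordAt τ (ofH f) = m := by
  have han := (Genus.analyticOnNhd_ofComplex f.2) _ τ.im_pos
  obtain ⟨m, hm⟩ : ∃ m : ℕ, analyticOrderAt (fun z => (f : ℍ → ℂ) (ofComplex z)) (τ : ℂ) = m := by
    refine (ENat.ne_top_iff_exists.mp ?_).imp fun m hm => hm.symm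
    intro htop
    refine hf (Subtype.ext (funext fun σ => ?_))
    exact Genus.eq_zero_of_eventually f.2 (τ₀ := τ)
      ((analyticOrderAt_eq_top.mp htop).filter_mono nhdsWithin_le_nhds) σ
  refine ⟨m, hm, ?_⟩
  rw [ordAt, germAt_ofH, vlog]
  show -(WithZero.log (ordVal (τ : ℂ) (germOf _ han.meromorphicAt))) = _
  rw [Genus.log_ordVal_germOf, AnalyticAt.meromorphicOrderAt_eq han, hm]
  rfl

theorem ordAt_ofH_eq_zero (τ : ℍ) {f : HolH} (h : (f : ℍ → ℂ) τ ≠ 0) : ordAt τ (ofH f) = 0 := by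
  obtain ⟨m, hm, he⟩ := ordAt_ofH τ (f := f) (by rintro rfl; exact h rfl)
  have h0 : analyticOrderAt (fun z => (f : ℍ → ℂ) (ofComplex z)) (τ : ℂ) = 0 := by
    rw [analyticOrderAt_eq_zero]
    right
    simpa using h
  rw [hm] at h0
  rw [he]
  exact_mod_cast h0

theorem ordAt_pull (g : GL (Fin 2) ℝ) (hg : 0 < g.det.val) (τ : ℍ) {x : MeroH} (hx : x ≠ 0) :
    ordAt τ (pull g hg x) = ordAt (g • τ) x := by
  have key : ∀ f : HolH, f ≠ 0 → ordAt τ (pull g hg (ofH f)) = ordAt (g • τ) (ofH f) := by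
    intro f hf
    have hf' : pullHol g hg f ≠ 0 := (map_ne_zero_iff _ (pullHol_injective g hg)).mpr hf
    obtain ⟨m, hm, he⟩ := ordAt_ofH τ hf'
    obtain ⟨m', hm', he'⟩ := ordAt_ofH (g • τ) hf
    rw [pull_ofH, he, he']
    have h1 := UpperHalfPlane.meromorphicOrderAt_comp_smul (f := (f : ℍ → ℂ)) (τ := τ)
      (g := g) (by simpa using hg)
    rw [AnalyticAt.meromorphicOrderAt_eq, AnalyticAt.meromorphicOrderAt_eq] at h1
    · change (analyticOrderAt (fun z => (f : ℍ → ℂ) (g • ofComplex z)) (τ : ℂ)).map _ =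
        (analyticOrderAt (fun z => (f : ℍ → ℂ) (ofComplex z)) _).map _ at h1
      rw [hm', show analyticOrderAt (fun z => (f : ℍ → ℂ) (g • ofComplex z)) (τ : ℂ) = m from hm]
        at h1
      simpa using h1
    all_goals
      first
        | exact (Genus.analyticOnNhd_ofComplex f.2) _ (g • τ).im_pos
        | exact (Genus.analyticOnNhd_ofComplex (pullHol g hg f).2) _ τ.im_pos
  obtain ⟨a, b, hb, rfl⟩ := exists_ofH_div x
  have ha : a ≠ 0 := by rintro rfl; simp at hx
  rw [map_div₀, ordAt_div _ ((map_ne_zero _).mpr (ofH_ne_zero ha))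
    ((map_ne_zero _).mpr (ofH_ne_zero hb)), ordAt_div _ (ofH_ne_zero ha) (ofH_ne_zero hb),
    key a ha, key b hb]

theorem ordAt_pullSL (γ : SL(2, ℤ)) (τ : ℍ) {x : MeroH} (hx : x ≠ 0) :
    ordAt τ (pullSL γ x) = ordAt (γ • τ) x :=
  ordAt_pull _ _ τ hx

/-! ### the function field -/

variable (N : ℕ) [NeZero N]

/-- `j(dτ)` -/
def jdH (d : N.divisors) : HolH :=
  ⟨ModFun.dil (d : ℕ) ModFun.jFun, ModFun.mdiff_dil ModFun.mdiff_jFun _⟩

theorem conjJ_out_q₁ {d : ℕ} [NeZero d] (hd : d ∣ N) {i : Genus.CosetSpace N}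
    (hi : i.out ∈ CongruenceSubgroup.Gamma0 N) (τ : ℍ) :
    Genus.conjJ d i.out τ = ModFun.jFun (ModFun.scale d τ) := by
  rw [Genus.conjJ]
  exact Genus.jFun_scale_Gamma0 hd (inv_mem hi) τ

theorem coe_aeval_jdH (P : MvPolynomial N.divisors Qbar) (τ : ℍ) :
    ((MvPolynomial.aeval (jdH N) (MvPolynomial.map embC P) : HolH) : ℍ → ℂ) τ =
      MvPolynomial.aeval (fun d : N.divisors => Genus.conjJ (d : ℕ) (1 : SL(2, ℤ)) τ) P := by
  induction P using MvPolynomial.induction_on with
  | C a => simp; rfl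
  | add p q hp hq => simp [map_add, hp, hq]
  | mul_X p d hp => simp [map_mul, hp, jdH, ModFun.dil, Genus.conjJ]

theorem exists_evH : ∃ σ : modularFunctionFieldBar N →ₐ[Qbar] MeroH,
    ∀ d, σ (gen N d) = ofH (jdH N d) := by
  refine Genus.exists_algHom _ fun P => ?_
  rw [Genus.relation_iff (1 : SL(2, ℤ)) P]
  have e : MvPolynomial.aeval (fun d => ofH (jdH N d)) P =
      ofH (MvPolynomial.aeval (jdH N) (MvPolynomial.map embC P)) := by
    induction P using MvPolynomial.induction_on with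
    | C a => simp; rfl
    | add p q hp hq => simp [map_add, hp, hq]
    | mul_X p d hp => simp [map_mul, hp]
  rw [e, map_eq_zero_iff _ ofH_injective]
  constructor
  · intro h
    exact Subtype.ext (funext fun τ => (coe_aeval_jdH N P τ).trans (h τ))
  · intro h τ
    rw [← coe_aeval_jdH, h]
    rfl

/-- the function field as meromorphic functions on `ℍ` -/
def evH : modularFunctionFieldBar N →ₐ[Qbar] MeroH := (exists_evH N).choose

theorem evH_gen (d : N.divisors) : evH N (gen N d) = ofH (jdH N d) := (exists_evH N).choose_spec d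

variable {N}

theorem evH_aeval (P : MvPolynomial N.divisors Qbar) :
    evH N (MvPolynomial.aeval (gen N) P) =
      ofH (MvPolynomial.aeval (jdH N) (MvPolynomial.map embC P)) := by
  induction P using MvPolynomial.induction_on with
  | C a => simp; rfl
  | add p q hp hq => simp [map_add, hp, hq]
  | mul_X p d hp => simp [map_mul, hp, evH_gen]

theorem evH_invariant {γ : SL(2, ℤ)} (hγ : γ ∈ CongruenceSubgroup.Gamma0 N)
    (x : modularFunctionFieldBar N) : pullSL γ (evH N x) = evH N x := by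
  have h : ((pullSL γ).restrictScalars Qbar).comp (evH N) = evH N := by
    refine Genus.algHom_ext fun d => ?_
    show pullSL γ (evH N (gen N d)) = _
    rw [evH_gen, pullSL_ofH]
    congr 1
    exact Subtype.ext (funext fun τ =>
      Genus.jFun_scale_Gamma0 (Nat.dvd_of_mem_divisors d.2) hγ τ)
  exact DFunLike.congr_fun h x

theorem evH_algebraMap (c : Qbar) :
    evH N (algebraMap Qbar (modularFunctionFieldBar N) c) = algebraMap ℂ MeroH (embC c) :=
  AlgHom.commutes _ c

theorem evH_jBar : evH N (ModFun.jBar N) = ofH ⟨ModFun.jFun, ModFun.mdiff_jFun⟩ := by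
  rw [← Genus.gen_oneDiv N, evH_gen]
  congr 1
  refine Subtype.ext (funext fun τ => ?_)
  show ModFun.jFun (ModFun.scale 1 τ) = ModFun.jFun τ
  congr 1
  exact UpperHalfPlane.ext (by simp [ModFun.coe_scale])

/-- Orders at a point of `ℍ` are the valuations of the interior chart. -/
theorem ordAt_evH (τ : ℍ) {i : Genus.CosetSpace N} (hi : i.out ∈ CongruenceSubgroup.Gamma0 N)
    (x : modularFunctionFieldBar N) :
    vlog (ordVal (τ : ℂ)) ((Genus.interiorChart N τ).sigma i x) = ordAt τ (evH N x) := by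
  have h : ((germAt τ).restrictScalars Qbar).comp (evH N) =
      ((Genus.interiorChart N τ).sigma i : modularFunctionFieldBar N →ₐ[Qbar] MeroGerm (τ : ℂ)) := by
    refine Genus.algHom_ext fun d => ?_
    show germAt τ (evH N (gen N d)) = _
    rw [evH_gen, germAt_ofH]
    refine Eq.trans ?_ ((Genus.interiorChart N τ).sigma_gen i d).symm
    exact (Genus.germOf_eq_iff (z₀ := (τ : ℂ))
      ((Genus.analyticOnNhd_ofComplex (jdH N d).2) _ τ.im_pos).meromorphicAt _).mpr
      (Eventually.of_forall fun z => (conjJ_out_q₁ N (Nat.dvd_of_mem_divisors d.2) hi _).symm)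
  rw [ordAt]
  exact congrArg _ (DFunLike.congr_fun h x).symm

end FLTAgent.JTors
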