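import Fermat.Agent.JTors.Descent
import Fermat.Agent.HeckeJ.API

/-!
The torsion of `J₀(N)` is parametrised by the lattice of integral parabolic homomorphisms.
-/

set_option autoImplicit false

noncomputable section

open ModularCurve CongruenceSubgroup AlgebraicCurve
open scoped MatrixGroups

namespace FLTAgent.JTors

open Genus (Qbar embC FN)
open scoped Genus

variable {N : ℕ} [NeZero N] {n : ℕ}

theorem isTorsChar_expChar (hn : 0 < n) (φ : Lam N) : IsTorsChar n (expChar n φ) := by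
  refine ⟨expChar_pow_eq_one hn φ, ?_⟩
  rintro γ ⟨δ, g, hg, hγ⟩
  have hfin : ∀ k : ℕ, 0 < k → g ^ k = 1 → expChar n φ γ = 1 := fun k hk hgk =>
    expChar_eq_one_of_eq_zero n φ (Lam.apply_eq_zero_of_finOrder φ hk (Subtype.ext (by
      rw [Subgroup.coe_pow, hγ, conj_pow, hgk, mul_one, mul_inv_cancel, Subgroup.coe_one])))
  rcases hg with rfl | rfl | rfl | ⟨m, rfl⟩
  · exact hfin 4 (by norm_num) (by decide)
  · exact hfin 6 (by norm_num) (by decide)
  · exact hfin 2 (by norm_num) (by decide)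
  · exact expChar_conj_T n φ hγ

theorem exists_const_of_ord_zero {h : FN N} (h0 : ∀ v : Place Qbar (FN N), v.ord h = 0) :
    ∃ c : Qbar, h = algebraMap Qbar (FN N) c := by
  rcases RR.exists_const_or_transcendental (K := Qbar) h with ⟨c, hc⟩ | htr
  · exact ⟨c, hc.symm⟩
  · exfalso
    have h1 := RR.sum_ord_poles (K := Qbar) htr ∅ fun v => by simp [h0 v]
    haveI := RR.finiteDimensional_adjoin (K := Qbar) htr
    have h2 : 0 < RR.ndeg Qbar h := Module.finrank_pos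
    simp at h1
    omega

/-- a witness that `x` is the torsion point attached to `φ` -/
def IsTors (n : ℕ) (φ : Lam N) (x : JZero N) : Prop :=
  ∃ (f : FN N) (D : Divisor.degZero (K := Qbar) (F := FN N)), f ≠ 0 ∧ Datum n (expChar n φ) f ∧
    (∀ v, (n : ℤ) * (D : Divisor Qbar (FN N)) v = v.ord f) ∧ x = Pic0.mk D

theorem exists_divisor_div (hn : 0 < n) {f : FN N} (hf : f ≠ 0)
    (hdiv : ∀ v : Place Qbar (FN N), (n : ℤ) ∣ v.ord f) :
    ∃ D : Divisor.degZero (K := Qbar) (F := FN N),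
      ∀ v, (n : ℤ) * (D : Divisor Qbar (FN N)) v = v.ord f := by
  haveI := HeckeJ.hasPrincipalDivisors_bar N
  obtain ⟨D', hD', h0⟩ :=
    HasPrincipalDivisors.exists_divisor (K := AlgebraicClosure ℚ) (F := modularFunctionFieldBar N) f hf
  let D : Divisor Qbar (FN N) := D'.mapRange (fun a => a / (n : ℤ)) (Int.zero_ediv _)
  have hD : ∀ v, (n : ℤ) * D v = v.ord f := fun v => by
    rw [Finsupp.mapRange_apply, hD']
    exact Int.mul_ediv_cancel' (hdiv v)
  have e : n • D = D' := Finsupp.ext fun v => by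
    rw [Finsupp.coe_smul, Pi.smul_apply, nsmul_eq_mul, hD, hD']
  refine ⟨⟨D, ?_⟩, hD⟩
  rw [Divisor.mem_degZero]
  have := congrArg Divisor.degree e
  rw [map_nsmul, h0, smul_eq_zero] at this
  exact this.resolve_left hn.ne'

theorem exists_isTors (hn : 0 < n) (φ : Lam N) : ∃ x, IsTors n φ x := by
  obtain ⟨f, hf, hd⟩ := exists_datum_of_torsChar hn (isTorsChar_expChar hn φ)
  obtain ⟨D, hD⟩ := exists_divisor_div hn hf (dvd_ord_of_datum hn hf hd)
  exact ⟨_, f, D, hf, hd, hD, rfl⟩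

theorem mk_eq_zero_iff (D : Divisor.degZero (K := Qbar) (F := FN N)) :
    Pic0.mk D = 0 ↔ ∃ g : FN N, g ≠ 0 ∧ ∀ v, (D : Divisor Qbar (FN N)) v = v.ord g :=
  QuotientAddGroup.eq_zero_iff D

theorem IsTors.add {φ φ' : Lam N} {x x' : JZero N} (h : IsTors n φ x) (h' : IsTors n φ' x') :
    IsTors n (φ + φ') (x + x') := by
  obtain ⟨f, D, hf, hd, hD, rfl⟩ := h
  obtain ⟨f', D', hf', hd', hD', rfl⟩ := h'
  refine ⟨f * f', D + D', mul_ne_zero hf hf', ?_, fun v => ?_, (Pic0.mk_add D D').symm⟩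
  · rw [expChar_add]; exact hd.mul hd'
  · rw [AddSubgroup.coe_add, Finsupp.add_apply, mul_add, hD, hD', v.ord_mul hf hf']

theorem IsTors.unique (hn : 0 < n) {φ : Lam N} {x x' : JZero N} (h : IsTors n φ x)
    (h' : IsTors n φ x') : x = x' := by
  obtain ⟨f, D, hf, hd, hD, rfl⟩ := h
  obtain ⟨f', D', hf', hd', hD', rfl⟩ := h'
  have hd'' : Datum n (expChar n φ * expChar n (-φ)) (f * f'⁻¹) :=
    hd.mul (hd'.inv fun γ => by
      rw [← MonoidHom.mul_apply, ← expChar_add, add_neg_cancel, expChar_zero, MonoidHom.one_apply])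
  rw [← expChar_add, add_neg_cancel, expChar_zero] at hd''
  obtain ⟨g, hg⟩ := exists_pow_of_datum_one hn (mul_ne_zero hf (inv_ne_zero hf')) hd''
  have hg0 : g ≠ 0 := fun e => mul_ne_zero hf (inv_ne_zero hf') (by rw [hg, e, zero_pow hn.ne'])
  rw [← sub_eq_zero]
  show Pic0.mk (D - D') = 0
  refine (mk_eq_zero_iff _).mpr ⟨g, hg0, fun v => mul_left_cancel₀
    (Int.natCast_ne_zero.mpr hn.ne') ?_⟩
  rw [← RR.ord_pow, ← hg, v.ord_mul hf (inv_ne_zero hf'), v.ord_inv, ← hD, ← hD',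
    AddSubgroup.coe_sub, Finsupp.sub_apply]
  ring

theorem IsTors.zero (hn : 0 < n) {φ : Lam N} (h : expChar n φ = 1) : IsTors n φ (0 : JZero N) := by
  refine ⟨1, 0, one_ne_zero, ?_, fun v => by simp, rfl⟩
  have h1 := Datum.pow_self (n := n) (1 : FN N)
  rw [one_pow] at h1
  rwa [h]

variable (N) in
/-- `φ ↦ φ/n` -/
def torsMap (n : ℕ) : Lam N →+ JZero N :=
  if hn : 0 < n then
    AddMonoidHom.mk' (fun φ => (exists_isTors hn φ).choose) fun φ φ' =>
      (exists_isTors hn (φ + φ')).choose_spec.unique hn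
        ((exists_isTors hn φ).choose_spec.add (exists_isTors hn φ').choose_spec)
  else 0

theorem isTors_torsMap (hn : 0 < n) (φ : Lam N) : IsTors n φ (torsMap N n φ) := by
  rw [torsMap, dif_pos hn]
  exact (exists_isTors hn φ).choose_spec

theorem IsTors.eq_torsMap (hn : 0 < n) {φ : Lam N} {x : JZero N} (h : IsTors n φ x) :
    torsMap N n φ = x :=
  (isTors_torsMap hn φ).unique hn h

theorem nsmul_torsMap_eq_zero (hn : 0 < n) (φ : Lam N) : n • torsMap N n φ = 0 := by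
  obtain ⟨f, D, hf, -, hD, e⟩ := isTors_torsMap hn φ
  rw [e]
  show Pic0.mk (n • D) = 0
  refine (mk_eq_zero_iff _).mpr ⟨f, hf, fun v => ?_⟩
  rw [AddSubgroup.coe_nsmul, Finsupp.coe_smul, Pi.smul_apply, nsmul_eq_mul, hD]

theorem nsmul_eq_zero_iff (hn : 0 < n) (x : JZero N) :
    n • x = 0 ↔ ∃ φ : Lam N, torsMap N n φ = x := by
  refine ⟨fun hx => ?_, fun ⟨φ, hφ⟩ => hφ ▸ nsmul_torsMap_eq_zero hn φ⟩
  obtain ⟨D, rfl⟩ := Pic0.mk_surjective x
  obtain ⟨f, hf, hfD⟩ := (mk_eq_zero_iff (n • D)).mp hx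
  have hD : ∀ v, (n : ℤ) * (D : Divisor Qbar (FN N)) v = v.ord f := fun v => by
    rw [← hfD v, AddSubgroup.coe_nsmul, Finsupp.coe_smul, Pi.smul_apply, nsmul_eq_mul]
  obtain ⟨χ, hχ, hd⟩ := exists_datum hn hf fun v => ⟨_, (hD v).symm⟩
  obtain ⟨φ, rfl⟩ := exists_lam_of_torsChar hn hχ
  exact ⟨φ, IsTors.eq_torsMap hn ⟨f, D, hf, hd, hD, rfl⟩⟩

theorem torsMap_eq_zero_iff (hn : 0 < n) (φ : Lam N) :
    torsMap N n φ = 0 ↔ ∃ w : Lam N, φ = (n : ℤ) • w := by
  rw [← expChar_eq_one_iff hn]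
  refine ⟨fun h => ?_, fun h => (IsTors.zero hn h).eq_torsMap hn⟩
  obtain ⟨f, D, hf, hd, hD, e⟩ := isTors_torsMap hn φ
  rw [h] at e
  obtain ⟨g, hg, hgD⟩ := (mk_eq_zero_iff D).mp e.symm
  have hgn : g ^ n ≠ 0 := pow_ne_zero n hg
  obtain ⟨c, hc⟩ := exists_const_of_ord_zero (h := f * (g ^ n)⁻¹) fun v => by
    rw [v.ord_mul hf (inv_ne_zero hgn), v.ord_inv, RR.ord_pow, ← hD, hgD]
    ring
  obtain ⟨b, hb⟩ := IsAlgClosed.exists_pow_nat_eq c hn
  have hfe : f = (algebraMap Qbar (FN N) b * g) ^ n := by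
    rw [mul_pow, ← map_pow, hb, ← hc, mul_assoc, inv_mul_cancel₀ hgn, mul_one]
  rw [hfe] at hd hf
  exact hd.unique hn hf (Datum.pow_self _)

theorem torsMap_mul {m : ℕ} (hn : 0 < n) (hm : 0 < m) (φ : Lam N) :
    m • torsMap N (n * m) φ = torsMap N n φ := by
  refine (IsTors.eq_torsMap hn ?_).symm
  obtain ⟨f, D, hf, ⟨ψ, hψ, hc⟩, hD, e⟩ := isTors_torsMap (Nat.mul_pos hn hm) φ
  refine ⟨f, m • D, hf, ⟨ψ ^ m, by rw [← pow_mul, mul_comm, hψ], fun γ => ?_⟩, fun v => ?_, ?_⟩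
  · rw [map_pow, hc, mul_pow, ← map_pow]
    congr 2
    rw [expChar_apply, expChar_apply, ← Complex.exp_nat_mul]
    congr 1
    have h1 : (n : ℂ) ≠ 0 := Nat.cast_ne_zero.mpr hn.ne'
    have h2 : (m : ℂ) ≠ 0 := Nat.cast_ne_zero.mpr hm.ne'
    push_cast
    field_simp
  · rw [AddSubgroup.coe_nsmul, Finsupp.coe_smul, Pi.smul_apply, nsmul_eq_mul, ← hD]
    push_cast
    ring
  · rw [e]; rfl

end FLTAgent.JTors
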