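import Fermat.Agent.JTors.Conj
import Fermat.Agent.JTors.Tors

/-!
Hecke equivariance: the correspondence on `J₀(N)` is the transfer on the lattice, after conjugation by
the Fricke element.
-/

set_option autoImplicit false

noncomputable section

open UpperHalfPlane ModularCurve CongruenceSubgroup AlgebraicCurve Matrix.SpecialLinearGroup
open scoped MatrixGroups

namespace FLTAgent.JTors

open Genus (Qbar embC FN gen jgen)
open scoped Genus

variable {N : ℕ} [NeZero N] (ℓ : ℕ) [NeZero ℓ]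

theorem dvd_mem_divisors (d : N.divisors) : (d : ℕ) ∈ (N * ℓ).divisors :=
  Nat.mem_divisors.mpr ⟨(Nat.dvd_of_mem_divisors d.2).mul_right ℓ,
    mul_ne_zero (NeZero.ne N) (NeZero.ne ℓ)⟩

theorem mul_mem_divisors (d : N.divisors) : ℓ * (d : ℕ) ∈ (N * ℓ).divisors :=
  Nat.mem_divisors.mpr ⟨by
    rw [mul_comm N ℓ]; exact Nat.mul_dvd_mul_left ℓ (Nat.dvd_of_mem_divisors d.2),
    mul_ne_zero (NeZero.ne N) (NeZero.ne ℓ)⟩

theorem alpha_gen (d : N.divisors) :
    heckeAlphaBar Qbar N ℓ (gen N d) = gen (N * ℓ) ⟨d, dvd_mem_divisors ℓ d⟩ :=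
  Subtype.ext ((coe_heckeAlphaBar N ℓ (gen N d)).trans rfl)

theorem beta_gen (d : N.divisors) :
    heckeBetaBar Qbar N ℓ (gen N d) = gen (N * ℓ) ⟨ℓ * d, mul_mem_divisors ℓ d⟩ := by
  refine Subtype.ext ((coe_heckeBetaBar N ℓ (gen N d)).trans ?_)
  show qExpand Qbar ℓ (coeffEmb Qbar (qExpand ℚ (d : ℕ) jq)) = coeffEmb Qbar (qExpand ℚ (ℓ * d) jq)
  rw [coeffEmb, ← ModFun.coeffMap_qExpand, qExpand_qExpand]

theorem evH_alpha (x : FN N) : evH (N * ℓ) (heckeAlphaBar Qbar N ℓ x) = evH N x := by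
  have h : (evH (N * ℓ)).comp (heckeAlphaBar Qbar N ℓ) = evH N := by
    refine Genus.algHom_ext fun d => ?_
    show evH (N * ℓ) (heckeAlphaBar Qbar N ℓ (gen N d)) = _
    rw [alpha_gen, evH_gen, evH_gen]
    rfl
  exact DFunLike.congr_fun h x

theorem evH_beta (x : FN N) :
    evH (N * ℓ) (heckeBetaBar Qbar N ℓ x) =
      pull (ModularForm.heckeDiagMatrix ℓ) (det_diag_pos ℓ) (evH N x) := by
  have h : (evH (N * ℓ)).comp (heckeBetaBar Qbar N ℓ) =
      ((pull (ModularForm.heckeDiagMatrix ℓ) (det_diag_pos ℓ)).restrictScalars Qbar).comp (evH N) := by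
    refine Genus.algHom_ext fun d => ?_
    show evH (N * ℓ) (heckeBetaBar Qbar N ℓ (gen N d)) =
      pull (ModularForm.heckeDiagMatrix ℓ) (det_diag_pos ℓ) (evH N (gen N d))
    rw [beta_gen, evH_gen, evH_gen, pull_ofH]
    refine congrArg _ (Subtype.ext (funext fun τ => ?_))
    show ModFun.jFun (ModFun.scale (ℓ * (d : ℕ)) τ) =
      ModFun.jFun (ModFun.scale (d : ℕ) (ModularForm.heckeDiagMatrix ℓ • τ))
    congr 1
    refine UpperHalfPlane.ext ?_
    rw [ModFun.coe_scale, ModFun.coe_scale, coe_smul_of_det_pos (det_diag_pos ℓ)]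
    simp [UpperHalfPlane.num, UpperHalfPlane.denom,
      ModularForm.val_heckeDiagMatrix (NeZero.ne ℓ)]
    ring
  exact DFunLike.congr_fun h x

/-- norms along `α` as products over cosets -/
theorem evH_norm {ι : Type} [Fintype ι] (h : ι → Gamma0 N)
    (hsep : ∀ i j, ((h i : SL(2, ℤ)) * (h j : SL(2, ℤ))⁻¹) ∈ Gamma0 (N * ℓ) → i = j)
    (hcard : Fintype.card ι * dedekindPsi N = dedekindPsi (N * ℓ)) (f : FN N) :
    letI := algebraAlong (heckeAlphaBar Qbar N ℓ)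
    evH N (Algebra.norm (FN N) (heckeBetaBar Qbar N ℓ f)) =
      ∏ i, pull (ModularForm.heckeDiagMatrix ℓ * mapGL ℝ (h i : SL(2, ℤ)))
        (det_pos_mul (det_diag_pos ℓ) (det_pos_SL _)) (evH N f) := by
  letI := algebraAlong (heckeAlphaBar Qbar N ℓ)
  haveI := isScalarTower_along (heckeAlphaBar Qbar N ℓ)
  haveI : Module.Finite (FN N) (FN (N * ℓ)) := HeckeJ.finiteAlong (heckeAlphaBar Qbar N ℓ)
  haveI : CharZero (FN N) := charZero_of_injective_algebraMap (algebraMap Qbar (FN N)).injective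
  haveI : Algebra.IsIntegral (FN N) (FN (N * ℓ)) := Algebra.IsIntegral.of_finite _ _
  haveI : Algebra.IsSeparable (FN N) (FN (N * ℓ)) := inferInstance
  let L := AlgebraicClosure MeroH
  let ι₀ : MeroH →+* L := algebraMap MeroH L
  letI algL : Algebra (FN N) L := (ι₀.comp (evH N).toRingHom).toAlgebra
  let ε : ι → (FN (N * ℓ) →ₐ[FN N] L) := fun i =>
    { toRingHom := ι₀.comp ((pullSL (h i : SL(2, ℤ))).toRingHom.comp (evH (N * ℓ)).toRingHom)
      commutes' := fun x => by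
        show ι₀ (pullSL (h i : SL(2, ℤ)) (evH (N * ℓ) (heckeAlphaBar Qbar N ℓ x))) = ι₀ (evH N x)
        rw [evH_alpha, evH_invariant (h i).2] }
  have hε : Function.Injective ε := by
    intro i j e
    refine hsep i j (ModFun.gamma0_of_jN (N := N * ℓ) fun τ => ?_)
    have e1 := DFunLike.congr_fun e (gen (N * ℓ) ⟨N * ℓ, Nat.mem_divisors.mpr ⟨dvd_rfl,
      mul_ne_zero (NeZero.ne N) (NeZero.ne ℓ)⟩⟩)
    change ι₀ (pullSL (h i : SL(2, ℤ)) (evH (N * ℓ) _)) =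
      ι₀ (pullSL (h j : SL(2, ℤ)) (evH (N * ℓ) _)) at e1
    have e2 := ι₀.injective e1
    rw [evH_gen, pullSL_ofH, pullSL_ofH, ofH_injective.eq_iff] at e2
    have e3 := congrFun (congrArg Subtype.val e2) ((h j : SL(2, ℤ))⁻¹ • τ)
    change ModFun.jFun (ModFun.scale (N * ℓ) ((h i : SL(2, ℤ)) • (h j : SL(2, ℤ))⁻¹ • τ)) =
      ModFun.jFun (ModFun.scale (N * ℓ) ((h j : SL(2, ℤ)) • (h j : SL(2, ℤ))⁻¹ • τ)) at e3
    rw [← mul_smul, smul_inv_smul] at e3
    exact e3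
  have hdeg : Fintype.card ι = Module.finrank (FN N) (FN (N * ℓ)) := by
    have h1 := HeckeJ.ndeg_algebraMap (K := Qbar) (F := FN N) (F' := FN (N * ℓ)) (ModFun.jBar N)
    rw [show algebraMap (FN N) (FN (N * ℓ)) (ModFun.jBar N) = ModFun.jBar (N * ℓ) from
      Subtype.ext ((coe_heckeAlphaBar N ℓ (ModFun.jBar N)).trans rfl),
      ModFun.ndeg_jBar, ModFun.ndeg_jBar] at h1
    have hN := Genus.card_cosetSpace N
    have hNl := Genus.card_cosetSpace (N * ℓ)
    rw [hN, hNl, ← hcard, mul_comm] at h1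
    refine Nat.eq_of_mul_eq_mul_left ?_ h1
    rw [← hN]
    exact Nat.card_pos
  have hbij : Function.Bijective ε :=
    (Fintype.bijective_iff_injective_and_card ε).mpr ⟨hε, by rw [AlgHom.card]; exact hdeg⟩
  refine ι₀.injective ?_
  have hn := Algebra.norm_eq_prod_embeddings (FN N) (E := L) (heckeBetaBar Qbar N ℓ f)
  change ι₀ (evH N (Algebra.norm (FN N) (heckeBetaBar Qbar N ℓ f))) = _ at hn
  rw [hn, map_prod, ← Fintype.prod_bijective ε hbij _ _ fun i => rfl]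
  refine Finset.prod_congr rfl fun i _ => ?_
  show ι₀ (pullSL (h i : SL(2, ℤ)) (evH (N * ℓ) (heckeBetaBar Qbar N ℓ f))) = _
  rw [evH_beta, pull_mul]
  rfl

/-- the correspondence on divisors of functions is the norm -/
theorem corr_ord [HasPrincipalDivisors Qbar (FN (N * ℓ))]
    (hα : (heckeAlphaBar Qbar N ℓ).toRingHom.IsIntegral)
    (hβ : (heckeBetaBar Qbar N ℓ).toRingHom.IsIntegral)
    (hfin : FiniteAlong Qbar (heckeAlphaBar Qbar N ℓ))
    (hnorm : NormFormulaAlong Qbar (heckeAlphaBar Qbar N ℓ) hfin) {D : Divisor Qbar (FN N)}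
    {f : FN N} (hf : f ≠ 0) (hD : ∀ v, D v = v.ord f) (v : Place Qbar (FN N)) :
    Divisor.correspondence (heckeBetaBar Qbar N ℓ) (heckeAlphaBar Qbar N ℓ) hβ hα D v =
      (letI := algebraAlong (heckeAlphaBar Qbar N ℓ)
       v.ord (Algebra.norm (FN N) (heckeBetaBar Qbar N ℓ f))) := by
  have hE : ∀ w, Divisor.pullbackAlong (heckeBetaBar Qbar N ℓ) hβ D w =
      w.ord (heckeBetaBar Qbar N ℓ f) := by
    intro w
    letI := algebraAlong (heckeBetaBar Qbar N ℓ)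
    haveI := isScalarTower_along (heckeBetaBar Qbar N ℓ)
    haveI := isIntegral_along (heckeBetaBar Qbar N ℓ) hβ
    exact Divisor.pullback_apply_eq_ord hD w
  letI := algebraAlong (heckeAlphaBar Qbar N ℓ)
  haveI := isScalarTower_along (heckeAlphaBar Qbar N ℓ)
  haveI := isIntegral_along (heckeAlphaBar Qbar N ℓ) hα
  haveI : Module.Finite (FN N) (FN (N * ℓ)) := hfin
  exact hnorm (heckeBetaBar Qbar N ℓ f) ((map_ne_zero _).mpr hf) _ hE v

/-- Hecke equivariance for a set of transposed representatives -/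
theorem isTors_hecke {n : ℕ} (hn : 0 < n) (ℓ : Nat.Primes) {ι : Type} [Fintype ι]
    (C : Periods.CosetReps N ι) (h : ι → Gamma0 N)
    (hC : ∀ i, ∃ g : Gamma0 N, wGL N * C.rep i = mapGL ℝ (g : SL(2, ℤ)) *
      (ModularForm.heckeDiagMatrix (ℓ : ℕ) * mapGL ℝ (h i : SL(2, ℤ))) * wGL N)
    (hsep : ∀ i j, ((h i : SL(2, ℤ)) * (h j : SL(2, ℤ))⁻¹) ∈ Gamma0 (N * (ℓ : ℕ)) → i = j)
    (hcard : Fintype.card ι * dedekindPsi N = dedekindPsi (N * (ℓ : ℕ)))
    {t : Module.End ℤ (Lam N)} (ht : IsTransfer C t) {φ : Lam N} {x : JZero N}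
    (hx : IsTors n (conjW φ) x) :
    IsTors n (conjW (t φ)) (heckeOperatorBar N ℓ x) := by
  haveI : NeZero (ℓ : ℕ) := ⟨ℓ.2.ne_zero⟩
  obtain ⟨f, D, hf, ⟨ψ, hψ, hc⟩, hD, rfl⟩ := hx
  choose g hg using hC
  obtain ⟨hα, hβ, hP, hfin, hFI, hnorm⟩ := HeckeJ.heckeInputsAlong N (ℓ : ℕ)
  haveI := hP
  letI := algebraAlong (heckeAlphaBar Qbar N (ℓ : ℕ))
  haveI : Module.Finite (FN N) (FN (N * (ℓ : ℕ))) := hfin
  refine ⟨Algebra.norm (FN N) (heckeBetaBar Qbar N (ℓ : ℕ) f),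
    Pic0.degZeroCorrespondence (heckeBetaBar Qbar N (ℓ : ℕ)) (heckeAlphaBar Qbar N (ℓ : ℕ)) hβ hα hFI D,
    Algebra.norm_ne_zero_iff.mpr ((map_ne_zero _).mpr hf), ?_, fun v => ?_, ?_⟩
  rotate_left
  · have hnD : ∀ v, (n • (D : Divisor Qbar (FN N))) v = v.ord f := fun v => by
      rw [Finsupp.coe_smul, Pi.smul_apply, nsmul_eq_mul, hD]
    rw [← corr_ord (ℓ : ℕ) hα hβ hfin hnorm hf hnD v, map_nsmul, Finsupp.coe_smul, Pi.smul_apply,
      nsmul_eq_mul, Pic0.coe_degZeroCorrespondence]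
  · rw [heckeOperatorBar_apply, heckeOperatorAlong_eq hα hβ hFI hfin hnorm]
    rfl
  set B : ι → GL (Fin 2) ℝ := fun i =>
    ModularForm.heckeDiagMatrix (ℓ : ℕ) * mapGL ℝ (h i : SL(2, ℤ))
  have hB : ∀ i, 0 < (B i).det.val := fun i => det_pos_mul (det_diag_pos _) (det_pos_SL _)
  set A : ι → GL (Fin 2) ℝ := fun i => mapGL ℝ (g i : SL(2, ℤ)) * B i
  have hA : ∀ i, 0 < (A i).det.val := fun i => det_pos_mul (det_pos_SL _) (hB i)
  set χ := expChar n (conjW φ)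
  have hψ0 : ψ ≠ 0 := root_ne_zero hn hf hψ
  have hAB : ∀ i, pull (A i) (hA i) ψ = algebraMap ℂ MeroH (χ (g i)) * pull (B i) (hB i) ψ := by
    intro i
    rw [pull_mul (det_pos_SL _) (hB i)]
    show pull (B i) (hB i) (pullSL (g i : SL(2, ℤ)) ψ) = _
    rw [hc, map_mul, AlgHom.commutes]
  refine ⟨∏ i, pull (B i) (hB i) ψ, ?_, fun γ => ?_⟩
  · rw [evH_norm (ℓ : ℕ) h hsep hcard f, ← Finset.prod_pow]
    exact Finset.prod_congr rfl fun i _ => by rw [← map_pow, hψ]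
  set c : ℂ := ∏ i, χ (g i)
  have hc0 : c ≠ 0 := Finset.prod_ne_zero_iff.mpr fun i _ e => by
    have := expChar_pow_eq_one hn (conjW φ) (g i)
    rw [e, zero_pow hn.ne'] at this
    exact zero_ne_one this
  have hΨ : ∏ i, pull (A i) (hA i) ψ = algebraMap ℂ MeroH c * ∏ i, pull (B i) (hB i) ψ := by
    rw [map_prod, ← Finset.prod_mul_distrib]
    exact Finset.prod_congr rfl fun i _ => hAB i
  obtain ⟨σ, u, hu⟩ := C.move (wElt γ : SL(2, ℤ)) (wElt γ).2
  have hrel : ∀ i, A i * mapGL ℝ (γ : SL(2, ℤ)) = mapGL ℝ (wElt (u i) : SL(2, ℤ)) * A (σ i) := by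
    intro i
    refine mul_right_cancel (b := wGL N) ?_
    rw [mul_assoc, mapGL_wElt', ← mul_assoc]
    show (mapGL ℝ (g i : SL(2, ℤ)) * B i * wGL N) * _ = _
    rw [← hg i, mul_assoc, hu i, ← mul_assoc, ← mapGL_wElt, mul_assoc, hg (σ i), mul_assoc,
      mul_assoc]
    simp only [A, B, mul_assoc]
  have hmove : ∀ i, pullSL (γ : SL(2, ℤ)) (pull (A i) (hA i) ψ) =
      algebraMap ℂ MeroH (χ (wElt (u i))) * pull (A (σ i)) (hA (σ i)) ψ := by
    intro i
    rw [pullSL, ← pull_mul (hA i) (det_pos_SL _),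
      pull_congr _ (det_pos_mul (det_pos_SL _) (hA (σ i))) (hrel i), pull_mul (det_pos_SL _) (hA (σ i))]
    show pull (A (σ i)) (hA (σ i)) (pullSL (wElt (u i) : SL(2, ℤ)) ψ) = _
    rw [hc, map_mul, AlgHom.commutes]
  have hchar : ∏ i, χ (wElt (u i)) = expChar n (conjW (t φ)) γ := by
    simp only [χ, expChar_apply, conjW_apply, wElt_wElt]
    rw [← Complex.exp_sum, ht φ (wElt γ) σ u hu, Int.cast_sum, Finset.mul_sum, Finset.sum_div]
  have hprod : pullSL (γ : SL(2, ℤ)) (∏ i, pull (A i) (hA i) ψ) =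
      algebraMap ℂ MeroH (expChar n (conjW (t φ)) γ) * ∏ i, pull (A i) (hA i) ψ := by
    rw [map_prod, Finset.prod_congr rfl fun i _ => hmove i, Finset.prod_mul_distrib,
      Equiv.prod_comp σ (fun j => pull (A j) (hA j) ψ), ← map_prod, hchar]
  rw [hΨ, map_mul, AlgHom.commutes, mul_left_comm] at hprod
  exact mul_left_cancel₀ ((map_ne_zero _).mpr hc0) hprod

end FLTAgent.JTors
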