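import Fermat.Agent.JTors.MeroH
import Mathlib.Analysis.Complex.HasPrimitives

/-!
Roots of holomorphic functions on the upper half plane whose orders are divisible by `n`.
-/

set_option autoImplicit false

noncomputable section

open UpperHalfPlane Filter Topology Metric
open scoped Manifold

namespace FLTAgent.JTors

theorem root_on_ball_of_ne_zero {c : ℂ} {r : ℝ} {n : ℕ} (hn : 0 < n) {h : ℂ → ℂ}
    (hh : AnalyticOnNhd ℂ h (ball c r)) (h0 : ∀ z ∈ ball c r, h z ≠ 0) :
    ∃ g : ℂ → ℂ, AnalyticOnNhd ℂ g (ball c r) ∧ ∀ z ∈ ball c r, g z ^ n = h z := by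
  have hd : DifferentiableOn ℂ (fun z => deriv h z / h z) (ball c r) := fun z hz =>
    ((hh.deriv z hz).differentiableAt.div (hh z hz).differentiableAt (h0 z hz)).differentiableWithinAt
  obtain ⟨L, hL⟩ := hd.isExactOn_ball
  have hconst : ∀ z ∈ ball c r, ∀ w ∈ ball c r,
      h z * Complex.exp (-L z) = h w * Complex.exp (-L w) := by
    intro z hz w hw
    have hder : ∀ x ∈ ball c r, HasDerivAt (fun y => h y * Complex.exp (-L y)) 0 x := by
      intro x hx
      have h1 := (hh x hx).differentiableAt.hasDerivAt.fun_mul ((hL x hx).neg.cexp)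
      refine h1.congr_deriv ?_
      have := h0 x hx
      simp only [Pi.neg_apply]
      field_simp
      ring
    exact isOpen_ball.is_const_of_deriv_eq_zero (convex_ball c r).isPreconnected
      (fun x hx => (hder x hx).differentiableAt.differentiableWithinAt)
      (fun x hx => (hder x hx).deriv) hz hw
  rcases (ball c r).eq_empty_or_nonempty with he | ⟨w, hw⟩
  · exact ⟨0, by rw [he]; exact fun z hz => hz.elim, by rw [he]; exact fun z hz => hz.elim⟩
  set K : ℂ := h w * Complex.exp (-L w)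
  refine ⟨fun z => K ^ (1 / n : ℂ) * Complex.exp (L z / n), fun z hz => ?_, fun z hz => ?_⟩
  · have hLa : AnalyticAt ℂ L z :=
      (DifferentiableOn.analyticOnNhd (fun x hx => (hL x hx).differentiableAt.differentiableWithinAt)
        isOpen_ball) z hz
    exact analyticAt_const.mul (AnalyticAt.cexp (hLa.div analyticAt_const (by exact_mod_cast hn.ne')))
  · rw [mul_pow, one_div, Complex.cpow_nat_inv_pow _ hn.ne', ← Complex.exp_nat_mul,
      mul_div_cancel₀ _ (by exact_mod_cast hn.ne' : (n : ℂ) ≠ 0)]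
    show K * Complex.exp (L z) = h z
    rw [show K = h z * Complex.exp (-L z) from hconst w hw z hz, mul_assoc, ← Complex.exp_add]
    simp

theorem root_on_ball_of_zeros {c : ℂ} {r : ℝ} {n : ℕ} (hn : 0 < n) (Z : Finset ℂ) :
    ∀ {h : ℂ → ℂ}, AnalyticOnNhd ℂ h (ball c r) → (∀ z ∈ ball c r, h z = 0 → z ∈ Z) →
      (∀ z ∈ ball c r, ∃ m : ℕ, analyticOrderAt h z = (n * m : ℕ)) →
      ∃ g : ℂ → ℂ, AnalyticOnNhd ℂ g (ball c r) ∧ ∀ z ∈ ball c r, g z ^ n = h z := by
  classical
  induction Z using Finset.induction with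
  | empty =>
    intro h hh hz _
    exact root_on_ball_of_ne_zero hn hh fun z hz' h0 => absurd (hz z hz' h0) (Finset.notMem_empty z)
  | insert a Z haZ ih =>
    intro h hh hz hord
    by_cases ha : a ∈ ball c r
    swap
    · refine ih hh (fun z hzb h0 => ?_) hord
      rcases Finset.mem_insert.mp (hz z hzb h0) with rfl | hm
      · exact absurd hzb ha
      · exact hm
    obtain ⟨m, hm⟩ := hord a ha
    obtain ⟨u, hu, hu0, hue⟩ := (hh a ha).analyticOrderAt_eq_natCast.mp hm
    let h' : ℂ → ℂ := fun z => if z = a then u a else h z / (z - a) ^ (n * m)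
    have hloc : ∀ᶠ z in 𝓝 a, h' z = u z := by
      filter_upwards [hue] with z hz'
      by_cases hza : z = a
      · simp [h', hza]
      · simp only [h', if_neg hza, hz', smul_eq_mul]
        field_simp [sub_ne_zero.mpr hza]
    have heq : ∀ z, z ≠ a → h' =ᶠ[𝓝 z] fun y => h y / (y - a) ^ (n * m) := fun z hza =>
      (isOpen_ne.eventually_mem hza).mono fun y hy => if_neg hy
    have hh' : AnalyticOnNhd ℂ h' (ball c r) := fun z hzb => by
      by_cases hza : z = a
      · subst hza; exact hu.congr (hloc.mono fun _ e => e.symm)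
      · refine AnalyticAt.congr ?_ (heq z hza).symm
        exact (hh z hzb).div ((analyticAt_id.sub analyticAt_const).pow _)
          (pow_ne_zero _ (sub_ne_zero.mpr hza))
    obtain ⟨g, hg, hge⟩ := ih hh' (fun z hzb h0 => by
        by_cases hza : z = a
        · subst hza; simp [h'] at h0; exact absurd h0 hu0
        · simp only [h', if_neg hza, div_eq_zero_iff, pow_eq_zero_iff', sub_eq_zero] at h0
          rcases h0 with h0 | h0
          · exact (Finset.mem_insert.mp (hz z hzb h0)).resolve_left hza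
          · exact absurd h0.1 hza)
      (fun z hzb => by
        by_cases hza : z = a
        · refine ⟨0, ?_⟩
          subst hza
          rw [analyticOrderAt_congr hloc, mul_zero, Nat.cast_zero, analyticOrderAt_eq_zero]
          exact Or.inr hu0
        · obtain ⟨k, hk⟩ := hord z hzb
          refine ⟨k, ?_⟩
          rw [← hk, analyticOrderAt_congr (heq z hza)]
          have e : (fun y => h y / (y - a) ^ (n * m)) = h * fun y => ((y - a) ^ (n * m))⁻¹ := by
            funext y; rw [Pi.mul_apply, div_eq_mul_inv]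
          have ha' : AnalyticAt ℂ (fun y => ((y - a) ^ (n * m))⁻¹) z :=
            ((analyticAt_id.sub analyticAt_const).pow _).inv (pow_ne_zero _ (sub_ne_zero.mpr hza))
          rw [e, analyticOrderAt_mul (hh z hzb) ha',
            (analyticOrderAt_eq_zero (f := fun y => ((y - a) ^ (n * m))⁻¹) (z₀ := z)).mpr
              (Or.inr (inv_ne_zero (pow_ne_zero _ (sub_ne_zero.mpr hza)))), add_zero])
    refine ⟨fun z => (z - a) ^ m * g z, fun z hzb =>
      ((analyticAt_id.sub analyticAt_const).pow _).mul (hg z hzb), fun z hzb => ?_⟩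
    rw [mul_pow, ← pow_mul, hge z hzb, mul_comm m n]
    by_cases hza : z = a
    · subst hza
      have := hue.self_of_nhds
      simp only [smul_eq_mul] at this
      simp [h', this]
    · simp only [h', if_neg hza]
      field_simp [sub_ne_zero.mpr hza]

/-- centres of an exhaustion of `ℍ` by balls -/
def exC (m : ℕ) : ℂ := ((m : ℂ) + 1) * Complex.I

/-- radii of an exhaustion of `ℍ` by balls -/
def exR (m : ℕ) : ℝ := (m : ℝ) + 1 - 1 / ((m : ℝ) + 2)

theorem closedBall_ex_subset (m : ℕ) : closedBall (exC m) (exR m) ⊆ upperHalfPlaneSet := by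
  intro z hz
  rw [mem_closedBall, dist_eq_norm] at hz
  have h1 := (Complex.abs_im_le_norm (z - exC m)).trans hz
  have h2 : 0 < 1 / ((m : ℝ) + 2) := by positivity
  simp only [Complex.sub_im, exC, Complex.mul_im, Complex.add_re, Complex.natCast_re,
    Complex.one_re, Complex.I_im, Complex.add_im, Complex.natCast_im, Complex.one_im, Complex.I_re,
    mul_one, add_zero, mul_zero, exR, abs_le] at h1
  show 0 < z.im
  linarith [h1.1]

theorem exists_mem_ex (z : ℂ) (hz : 0 < z.im) :
    ∃ m₀ : ℕ, ∀ m, m₀ ≤ m → z ∈ ball (exC m) (exR m) := by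
  obtain ⟨m₀, hm₀⟩ := exists_nat_gt ((z.re ^ 2 + z.im ^ 2 + 3) / z.im)
  refine ⟨m₀, fun m hm => ?_⟩
  have hm' : (z.re ^ 2 + z.im ^ 2 + 3) / z.im < (m : ℝ) + 1 :=
    hm₀.trans_le ((Nat.cast_le.mpr hm).trans (by linarith))
  rw [div_lt_iff₀ hz] at hm'
  have hr : 0 < exR m := by
    have : 1 / ((m : ℝ) + 2) ≤ 1 / 2 := by
      apply one_div_le_one_div_of_le two_pos; linarith [(Nat.cast_nonneg m : (0 : ℝ) ≤ m)]
    rw [exR]; linarith [(Nat.cast_nonneg m : (0 : ℝ) ≤ m)]
  rw [mem_ball, dist_eq_norm, ← abs_of_pos hr, ← abs_norm, ← sq_lt_sq, Complex.sq_norm,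
    Complex.normSq_apply]
  have hmul : ((m : ℝ) + 1) * (1 / ((m : ℝ) + 2)) ≤ 1 := by
    rw [mul_one_div, div_le_one (by positivity)]; linarith
  simp only [Complex.sub_im, Complex.sub_re, exC, exR, Complex.mul_im, Complex.mul_re,
    Complex.add_re, Complex.natCast_re, Complex.one_re, Complex.I_im, Complex.add_im,
    Complex.natCast_im, Complex.one_im, Complex.I_re, mul_one, add_zero, mul_zero, sub_zero,
    zero_sub]
  nlinarith [sq_nonneg (1 / ((m : ℝ) + 2)), hmul]

/-- A holomorphic function on `ℍ` all of whose orders are divisible by `n` is an `n`-th power. -/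
theorem exists_holRoot {n : ℕ} (hn : 0 < n) {H : HolH} (hH : H ≠ 0)
    (hord : ∀ τ : ℍ, (n : ℤ) ∣ ordAt τ (ofH H)) : ∃ G : HolH, G ^ n = H := by
  classical
  set h : ℂ → ℂ := fun z => (H : ℍ → ℂ) (ofComplex z) with hdef
  have hhU : AnalyticOnNhd ℂ h upperHalfPlaneSet := Genus.analyticOnNhd_ofComplex H.2
  have hordU : ∀ z ∈ upperHalfPlaneSet, ∃ m : ℕ, analyticOrderAt h z = (n * m : ℕ) := by
    intro z hz
    obtain ⟨m, hm, he⟩ := ordAt_ofH ⟨z, hz⟩ hH
    have := hord ⟨z, hz⟩
    rw [he, Int.natCast_dvd_natCast] at this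
    obtain ⟨k, rfl⟩ := this
    exact ⟨k, hm⟩
  obtain ⟨τ₀, hτ₀⟩ : ∃ τ : ℍ, (H : ℍ → ℂ) τ ≠ 0 := Function.ne_iff.mp fun e => hH (Subtype.ext e)
  obtain ⟨M, hM⟩ := exists_mem_ex τ₀ τ₀.im_pos
  have hroot : ∀ m : ℕ, ∃ g : ℂ → ℂ, M ≤ m → AnalyticOnNhd ℂ g (ball (exC m) (exR m)) ∧
      (∀ z ∈ ball (exC m) (exR m), g z ^ n = h z) ∧ g τ₀ = h τ₀ ^ (1 / n : ℂ) := by
    intro m
    by_cases hm : M ≤ m
    swap
    · exact ⟨0, fun hc => absurd hc hm⟩
    have hsub := closedBall_ex_subset m
    have hfin : {z ∈ closedBall (exC m) (exR m) | h z = 0}.Finite := by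
      have hc : IsCompact {z ∈ closedBall (exC m) (exR m) | h z = 0} := by
        refine (isCompact_closedBall _ _).of_isClosed_subset ?_ fun z hz => hz.1
        exact ((hhU.continuousOn.mono hsub).preimage_isClosed_of_isClosed isClosed_closedBall
          isClosed_singleton)
      refine hc.finite (isDiscrete_iff_discreteTopology.mpr ?_)
      rw [discreteTopology_subtype_iff]
      intro z hz
      rcases (hhU z (hsub hz.1)).eventually_eq_zero_or_eventually_ne_zero with h1 | h1
      · obtain ⟨k, hk⟩ := hordU z (hsub hz.1)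
        rw [analyticOrderAt_eq_top.mpr h1] at hk
        exact absurd hk.symm (ENat.coe_ne_top _)
      · rw [Filter.inf_principal_eq_bot]
        filter_upwards [h1] with y hy hy'
        exact hy hy'.2
    obtain ⟨g, hg, hge⟩ := root_on_ball_of_zeros hn hfin.toFinset
      (hhU.mono (ball_subset_closedBall.trans hsub))
      (fun z hz h0 => hfin.mem_toFinset.mpr ⟨ball_subset_closedBall hz, h0⟩)
      (fun z hz => hordU z (hsub (ball_subset_closedBall hz)))
    have hb := hM m hm
    have h0 : h τ₀ ≠ 0 := by simpa [hdef] using hτ₀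
    have hg0 : g τ₀ ≠ 0 := fun e => h0 (by rw [← hge _ hb, e, zero_pow hn.ne'])
    refine ⟨fun z => g z * (h τ₀ ^ (1 / n : ℂ) / g τ₀), fun _ => ⟨fun z hz =>
      (hg z hz).mul analyticAt_const, fun z hz => ?_, ?_⟩⟩
    · rw [mul_pow, div_pow, hge _ hb, one_div, Complex.cpow_nat_inv_pow _ hn.ne', div_self h0,
        mul_one, hge z hz]
    · field_simp
  choose g hg using hroot
  have hcomp : ∀ m m', M ≤ m → M ≤ m' →
      Set.EqOn (g m) (g m') (ball (exC m) (exR m) ∩ ball (exC m') (exR m')) := by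
    intro m m' hm hm'
    obtain ⟨ha, hpa, he⟩ := hg m hm
    obtain ⟨ha', hpa', he'⟩ := hg m' hm'
    have hb : (τ₀ : ℂ) ∈ ball (exC m) (exR m) ∩ ball (exC m') (exR m') := ⟨hM m hm, hM m' hm'⟩
    refine (ha.mono Set.inter_subset_left).eqOn_of_preconnected_of_eventuallyEq
      (ha'.mono Set.inter_subset_right)
      ((convex_ball _ _).inter (convex_ball _ _)).isPreconnected hb ?_
    have hgne : g m' (τ₀ : ℂ) ≠ 0 := by
      intro e
      have := hpa' _ hb.2
      rw [e, zero_pow hn.ne'] at this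
      exact hτ₀ (by simpa [hdef] using this.symm)
    have hq : ContinuousAt (fun z => g m z / g m' z) (τ₀ : ℂ) :=
      (ha _ hb.1).continuousAt.div (ha' _ hb.2).continuousAt hgne
    have hone : g m (τ₀ : ℂ) / g m' τ₀ = 1 := by rw [he, ← he', div_self hgne]
    have hfinroots : ({y : ℂ | y ^ n = 1} \ {1}).Finite := by
      refine Set.Finite.subset (Polynomial.nthRoots n (1 : ℂ)).toFinset.finite_toSet ?_
      rintro y ⟨hy, -⟩
      simpa [Polynomial.mem_nthRoots hn] using hy
    have hav : ∀ᶠ z in 𝓝 (τ₀ : ℂ), g m z / g m' z ∉ ({y : ℂ | y ^ n = 1} \ {1}) :=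
      hq.eventually (hfinroots.isClosed.isOpen_compl.mem_nhds (by simp only [hone]; simp))
    filter_upwards [hav, isOpen_ball.mem_nhds hb.1, isOpen_ball.mem_nhds hb.2,
      (ha' _ hb.2).continuousAt.eventually_ne hgne] with z hz hz1 hz2 hz3
    have hp : (g m z / g m' z) ^ n = 1 := by
      rw [div_pow, hpa z hz1, hpa' z hz2, div_self]
      exact fun e => hz3 (pow_eq_zero_iff hn.ne' |>.mp ((hpa' z hz2).trans e))
    have : g m z / g m' z = 1 := by
      by_contra hne
      exact hz ⟨hp, hne⟩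
    exact (div_eq_one_iff_eq hz3).mp this
  choose idx hidx using fun τ : ℍ => exists_mem_ex (τ : ℂ) τ.im_pos
  let G : ℍ → ℂ := fun τ => g (max M (idx τ)) τ
  have hGa : ∀ τ : ℍ, ∀ᶠ z in 𝓝 (τ : ℂ), G (ofComplex z) = g (max M (idx τ)) z := by
    intro τ
    have hb := hidx τ _ (le_max_right M (idx τ))
    filter_upwards [isOpen_ball.mem_nhds hb, isOpen_upperHalfPlaneSet.mem_nhds τ.im_pos] with z hz hz'
    show g (max M (idx (ofComplex z))) (ofComplex z : ℍ) = g (max M (idx τ)) z
    have e : ((ofComplex z : ℍ) : ℂ) = z := by rw [ofComplex_apply_of_im_pos hz']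
    rw [e]
    refine hcomp _ _ (le_max_left _ _) (le_max_left _ _) ⟨?_, hz⟩
    have := hidx (ofComplex z) _ (le_max_right M (idx (ofComplex z)))
    rwa [e] at this
  refine ⟨⟨G, ?_⟩, Subtype.ext (funext fun τ => ?_)⟩
  · show MDiff G
    intro τ
    rw [UpperHalfPlane.mdifferentiableAt_iff]
    exact (((hg _ (le_max_left _ _)).1 _ (hidx τ _ (le_max_right M (idx τ)))).congr
      (EventuallyEq.symm (hGa τ))).differentiableAt
  · show G τ ^ n = (H : ℍ → ℂ) τ
    rw [(hg _ (le_max_left _ _)).2.1 _ (hidx τ _ (le_max_right M (idx τ)))]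
    simp [hdef]

end FLTAgent.JTors
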