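import Fermat.Agent.JTors.Forms
import Fermat.Agent.JTors.Places
import Fermat.Agent.JTors.Root

/-!
Multipliers at elliptic points and at cusps.
-/

set_option autoImplicit false

noncomputable section

open UpperHalfPlane Filter Topology ModularCurve
open scoped MatrixGroups Manifold

namespace FLTAgent.JTors

open Genus (Qbar embC FN gen jgen CosetSpace ordVal vlog)
open scoped Genus

/-- A continuous function whose `n`-th power tends to `L ≠ 0` at `i∞` tends to an `n`-th root. -/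
theorem tendsto_root {f : ℍ → ℂ} {n : ℕ} (hn : 0 < n) {A : ℝ}
    (hf : ContinuousOn f {τ : ℍ | A < τ.im}) {L : ℂ} (hL : L ≠ 0)
    (h : Tendsto (fun τ => f τ ^ n) atImInfty (𝓝 L)) :
    ∃ a : ℂ, a ^ n = L ∧ Tendsto f atImInfty (𝓝 a) := by
  set a₀ : ℂ := L ^ (1 / n : ℂ) with ha₀
  have ha₀n : a₀ ^ n = L := by rw [ha₀, one_div]; exact Complex.cpow_nat_inv_pow _ hn.ne'
  have ha0 : a₀ ≠ 0 := fun e => hL (by rw [← ha₀n, e, zero_pow hn.ne'])
  set g : ℍ → ℂ := fun τ => f τ / a₀ with hg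
  have hgn : Tendsto (fun τ => g τ ^ n) atImInfty (𝓝 1) := by
    have := h.div_const L
    rw [div_self hL] at this
    refine this.congr fun τ => ?_
    rw [hg, div_pow, ha₀n]
  obtain ⟨B, hB⟩ := (UpperHalfPlane.atImInfty_mem _).mp
    (hgn (Metric.ball_mem_nhds (1 : ℂ) one_pos))
  set U : Set ℍ := {τ : ℍ | max A B < τ.im} with hU
  have hball : ∀ τ ∈ U, g τ ^ n ∈ Complex.slitPlane := fun τ hτ => by
    refine Complex.mem_slitPlane_iff.mpr (Or.inl ?_)
    have h1 : g τ ^ n ∈ Metric.ball (1 : ℂ) 1 := hB τ ((le_max_right A B).trans hτ.le)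
    rw [Metric.mem_ball, dist_eq_norm] at h1
    have h2 := (Complex.abs_re_le_norm (g τ ^ n - 1)).trans_lt h1
    rw [abs_lt, Complex.sub_re, Complex.one_re] at h2
    linarith [h2.1]
  have hUc : IsPreconnected U := by
    refine (Topology.IsInducing.isPreconnected_image
      UpperHalfPlane.isEmbedding_coe.isInducing).mp ?_
    have e : ((↑) : ℍ → ℂ) '' U = {z : ℂ | max (max A B) 0 < z.im} := by
      ext z
      constructor
      · rintro ⟨τ, hτ, rfl⟩
        exact max_lt hτ τ.im_pos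
      · intro hz
        refine ⟨⟨z, (le_max_right (max A B) 0).trans_lt hz⟩, ?_, rfl⟩
        show max A B < z.im
        exact (le_max_left (max A B) 0).trans_lt hz
    rw [e]
    exact (convex_halfSpace_im_gt _).isPreconnected
  set ξ : ℍ → ℂ := fun τ => g τ / (g τ ^ n) ^ (1 / n : ℂ) with hξ
  have hξc : ContinuousOn ξ U := by
    have hgc : ContinuousOn g U := (hf.mono fun τ hτ => (le_max_left A B).trans_lt hτ).div_const _
    refine hgc.div ((hgc.pow n).cpow continuousOn_const hball) fun τ hτ => ?_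
    intro e
    rw [Complex.cpow_eq_zero_iff] at e
    exact Complex.slitPlane_ne_zero (hball τ hτ) e.1
  have hT : ∀ τ ∈ U, ξ τ ∈ {y : ℂ | y ^ n = 1} := fun τ hτ => by
    show (g τ / _) ^ n = 1
    rw [div_pow, one_div, Complex.cpow_nat_inv_pow _ hn.ne',
      div_self (Complex.slitPlane_ne_zero (hball τ hτ))]
  have hfin : ({y : ℂ | y ^ n = 1}).Finite := by
    refine Set.Finite.subset (Polynomial.nthRoots n (1 : ℂ)).toFinset.finite_toSet ?_
    intro y hy
    simpa [Polynomial.mem_nthRoots hn] using hy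
  obtain ⟨τ₁, hτ₁⟩ : ∃ τ₁, τ₁ ∈ U := ⟨⟨(max (max A B) 0 + 1 : ℝ) * Complex.I, by
      simp; positivity⟩, by
      show max A B < _
      simp [UpperHalfPlane.im]
      constructor <;> linarith [le_max_left (max A B) 0, le_max_left A B, le_max_right A B]⟩
  have hconst : ∀ τ ∈ U, ξ τ = ξ τ₁ := fun τ hτ => by
    exact hUc.constant_of_mapsTo (T := {y : ℂ | y ^ n = 1}) hfin.isDiscrete hξc hT hτ hτ₁
  refine ⟨a₀ * ξ τ₁, ?_, ?_⟩
  · have := hT τ₁ hτ₁
    rw [mul_pow, ha₀n, show ξ τ₁ ^ n = 1 from this, mul_one]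
  · have hlim : Tendsto (fun τ => (g τ ^ n) ^ (1 / n : ℂ)) atImInfty (𝓝 ((1 : ℂ) ^ (1 / n : ℂ))) :=
      hgn.cpow tendsto_const_nhds (Complex.one_mem_slitPlane)
    rw [Complex.one_cpow] at hlim
    have hlim2 := (tendsto_const_nhds (x := a₀ * ξ τ₁) (f := atImInfty)).mul hlim
    rw [mul_one] at hlim2
    refine hlim2.congr' ?_
    filter_upwards [(UpperHalfPlane.atImInfty_mem _).mpr
      ⟨max A B + 1, fun τ hτ => show τ ∈ U from lt_of_lt_of_le (lt_add_one _) hτ⟩] with τ hτ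
    rw [← hconst τ hτ, hξ]
    have hne : (g τ ^ n) ^ (1 / n : ℂ) ≠ 0 := fun e => by
      rw [Complex.cpow_eq_zero_iff] at e
      exact Complex.slitPlane_ne_zero (hball τ hτ) e.1
    rw [mul_assoc, div_mul_cancel₀ _ hne, hg, mul_div_cancel₀ _ ha0]

theorem smul_sub_smul (γ : SL(2, ℤ)) (z w : ℍ) :
    ((γ⁻¹ • z : ℍ) : ℂ) - ((γ⁻¹ • w : ℍ) : ℂ) =
      ((z : ℂ) - w) * (Genus.cden γ z * Genus.cden γ w)⁻¹ := by
  have hdet := (γ⁻¹ : SL(2, ℤ)).prop
  rw [Matrix.det_fin_two] at hdet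
  have h := congrArg (Int.cast : ℤ → ℂ) hdet
  push_cast at h
  rw [coe_specialLinearGroup_apply, coe_specialLinearGroup_apply]
  have h1 := Genus.cden_ne_zero γ z
  have h2 := Genus.cden_ne_zero γ w
  simp only [Genus.cden] at h1 h2 ⊢
  simp only [algebraMap_int_eq, eq_intCast, Complex.ofReal_intCast]
  rw [div_sub_div _ _ h1 h2, div_eq_mul_inv]
  congr 1
  linear_combination ((z : ℂ) - w) * h

/-- the multiplier at a fixed point is a power of the rotation -/
theorem multiplier_fix {y : MeroH} (hy : y ≠ 0) {τ : ℍ} {γ : SL(2, ℤ)} (hfix : γ • τ = τ) {c : ℂ}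
    (hc : pullSL γ⁻¹ y = algebraMap ℂ MeroH c * y) :
    c = ((Genus.cden γ τ * Genus.cden γ τ)⁻¹ : ℂ) ^ ordAt τ y := by
  obtain ⟨a, b, hb, rfl⟩ := exists_ofH_div y
  have ha : a ≠ 0 := by rintro rfl; simp at hy
  obtain ⟨p, hp, hpo⟩ := ordAt_ofH τ ha
  obtain ⟨q, hq, hqo⟩ := ordAt_ofH τ hb
  rw [ordAt_div τ (ofH_ne_zero ha) (ofH_ne_zero hb), hpo, hqo]
  obtain ⟨u, hu, hu0, hue⟩ :=
    ((Genus.analyticOnNhd_ofComplex a.2) _ τ.im_pos).analyticOrderAt_eq_natCast.mp hp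
  obtain ⟨v, hv, hv0, hve⟩ :=
    ((Genus.analyticOnNhd_ofComplex b.2) _ τ.im_pos).analyticOrderAt_eq_natCast.mp hq
  have hd1 := ofH_ne_zero hb
  rw [map_div₀, mul_div_assoc', div_eq_div_iff ((map_ne_zero _).mpr hd1) hd1, pullSL_ofH, pullSL_ofH,
    show algebraMap ℂ MeroH c = ofH (algebraMap ℂ HolH c) from (ofH.commutes c).symm,
    ← map_mul, ← map_mul, ← map_mul, ofH_injective.eq_iff, Subtype.ext_iff, funext_iff] at hc
  set φ : ℂ → ℂ := fun z => ((γ⁻¹ • ofComplex z : ℍ) : ℂ) with hφdef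
  set s : ℂ → ℂ := fun z => (Genus.cden γ z * Genus.cden γ τ)⁻¹ with hs
  have hinv : γ⁻¹ • τ = τ := by
    conv_lhs => rw [← hfix, inv_smul_smul]
  have hφ : ∀ z : ℍ, ((γ⁻¹ • z : ℍ) : ℂ) = τ + ((z : ℂ) - τ) * s z := by
    intro z
    have := smul_sub_smul γ z τ
    rw [hinv] at this
    rw [hs]
    linear_combination this
  have hsc : ContinuousAt s (τ : ℂ) := by
    refine ContinuousAt.inv₀ ?_ (mul_ne_zero (Genus.cden_ne_zero γ τ) (Genus.cden_ne_zero γ τ))
    simp only [Genus.cden]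
    fun_prop
  have hpos : ∀ᶠ z in 𝓝 (τ : ℂ), 0 < z.im := isOpen_upperHalfPlaneSet.mem_nhds τ.im_pos
  have hφt : Tendsto φ (𝓝 (τ : ℂ)) (𝓝 (τ : ℂ)) := by
    have h1 : Tendsto (fun z : ℂ => (τ : ℂ) + (z - τ) * s z) (𝓝 (τ : ℂ)) (𝓝 (τ : ℂ)) := by
      have : ContinuousAt (fun z : ℂ => (τ : ℂ) + (z - τ) * s z) (τ : ℂ) :=
        continuousAt_const.add ((continuousAt_id.sub continuousAt_const).mul hsc)
      simpa [ContinuousAt] using this
    refine h1.congr' (hpos.mono fun z hz => ?_)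
    rw [hφdef]
    simp only [hφ, ofComplex_apply_of_im_pos hz]
  have heq : ∀ᶠ z in 𝓝[≠] (τ : ℂ),
      s z ^ p * u (φ z) * v z = c * (u z * (s z ^ q * v (φ z))) := by
    filter_upwards [nhdsWithin_le_nhds (hue.and (hve.and ((hφt.eventually hue).and
      ((hφt.eventually hve).and hpos)))), self_mem_nhdsWithin] with z hz hne
    obtain ⟨e1, e2, e3, e4, hz'⟩ := hz
    have h := hc (ofComplex z)
    simp only [Subalgebra.coe_mul, Pi.mul_apply, Subalgebra.coe_algebraMap, Pi.algebraMap_apply,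
      Algebra.algebraMap_self, RingHom.id_apply] at h
    have e5 : ofComplex (φ z) = γ⁻¹ • ofComplex z := ofComplex_apply _
    simp only [smul_eq_mul, e5] at e1 e2 e3 e4
    have e6 : φ z - τ = (z - τ) * s z := by
      rw [hφdef]
      simp only [hφ, ofComplex_apply_of_im_pos hz']
      ring
    rw [e1, e2, e3, e4, e6] at h
    have hzne : (z - (τ : ℂ)) ≠ 0 := sub_ne_zero.mpr hne
    refine mul_left_cancel₀ (mul_ne_zero (pow_ne_zero p hzne) (pow_ne_zero q hzne)) ?_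
    generalize s z = S at h ⊢
    generalize u (φ z) = U at h ⊢
    generalize v (φ z) = V at h ⊢
    rw [mul_pow, mul_pow] at h
    linear_combination h
  have hlim : ∀ {F : ℂ → ℂ}, ContinuousAt F (τ : ℂ) →
      Tendsto F (𝓝[≠] (τ : ℂ)) (𝓝 (F τ)) := fun hF => hF.tendsto.mono_left nhdsWithin_le_nhds
  have hφτ : φ τ = τ := by
    show ((γ⁻¹ • ofComplex (τ : ℂ) : ℍ) : ℂ) = τ
    rw [ofComplex_apply, hinv]
  have hφc : ContinuousAt φ (τ : ℂ) := by
    show Tendsto φ _ (𝓝 (φ τ)); rw [hφτ]; exact hφt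
  have huφ : ContinuousAt (fun z => u (φ z)) (τ : ℂ) := by
    refine ContinuousAt.comp (g := u) ?_ hφc
    rw [hφτ]; exact hu.continuousAt
  have hvφ : ContinuousAt (fun z => v (φ z)) (τ : ℂ) := by
    refine ContinuousAt.comp (g := v) ?_ hφc
    rw [hφτ]; exact hv.continuousAt
  have h0 := tendsto_nhds_unique
    ((hlim (((hsc.pow p).mul huφ).mul hv.continuousAt)).congr' heq)
    (hlim (continuousAt_const.mul (hu.continuousAt.mul ((hsc.pow q).mul hvφ))))
  simp only [Pi.mul_apply, Pi.pow_apply, hφτ] at h0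
  have hsτ : s τ ≠ 0 := inv_ne_zero (mul_ne_zero (Genus.cden_ne_zero γ τ) (Genus.cden_ne_zero γ τ))
  rw [zpow_sub₀ hsτ, zpow_natCast, zpow_natCast, eq_div_iff (pow_ne_zero q hsτ)]
  refine mul_right_cancel₀ (mul_ne_zero hu0 hv0) ?_
  linear_combination -h0

/-- `exp(2πi v τ/N)` -/
def qN (N : ℕ) (v : ℤ) (τ : ℍ) : ℂ := Complex.exp (2 * Real.pi * Complex.I * v * τ / N)

theorem qN_eq_zpow (N : ℕ) (v : ℤ) (τ : ℍ) :
    qN N v τ = Function.Periodic.qParam N (τ : ℂ) ^ v := by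
  rw [qN, Function.Periodic.qParam, ← Complex.exp_int_mul]
  congr 1
  push_cast
  ring

theorem qN_add (N : ℕ) (v w : ℤ) (τ : ℍ) : qN N (v + w) τ = qN N v τ * qN N w τ := by
  rw [qN, qN, qN, ← Complex.exp_add]
  congr 1
  push_cast
  ring

theorem qN_ne_zero (N : ℕ) (v : ℤ) (τ : ℍ) : qN N v τ ≠ 0 := Complex.exp_ne_zero _

theorem tendsto_vadd_atImInfty (a : ℝ) :
    Tendsto (fun τ : ℍ => a +ᵥ τ) atImInfty atImInfty := by
  refine tendsto_comap_iff.mpr ?_
  exact tendsto_comap.congr fun τ => (vadd_im a τ).symm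

/-- the multiplier at a cusp from the asymptotics -/
theorem multiplier_cusp {W : ℍ → ℂ} (hW : Continuous W) {n : ℕ} (hn : 0 < n) {N : ℕ} (V m : ℤ)
    {c L : ℂ} (hL : L ≠ 0) (hc : ∀ τ : ℍ, W ((m : ℝ) +ᵥ τ) = c * W τ)
    (h : Tendsto (fun τ => W τ ^ n / qN N V τ) atImInfty (𝓝 L)) :
    c = Complex.exp (2 * Real.pi * Complex.I * V * m / (N * n)) := by
  set e : ℍ → ℂ := fun τ => Complex.exp (2 * Real.pi * Complex.I * V * τ / (N * n))
  have he : ∀ τ, e τ ^ n = qN N V τ := fun τ => by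
    rw [qN, ← Complex.exp_nat_mul]
    congr 1
    rw [mul_div_assoc', mul_comm (N : ℂ) n, mul_div_mul_left _ _ (Nat.cast_ne_zero.mpr hn.ne')]
  have hu : Continuous fun τ => W τ / e τ := by
    refine hW.div (Complex.continuous_exp.comp ?_) fun τ => Complex.exp_ne_zero _
    fun_prop
  obtain ⟨a, han, hat⟩ := tendsto_root hn (A := 0) hu.continuousOn hL
    (h.congr fun τ => by rw [div_pow, he])
  have h2 := hat.comp (tendsto_vadd_atImInfty (m : ℝ))
  have h3 : Tendsto (fun τ => c / Complex.exp (2 * Real.pi * Complex.I * V * m / (N * n))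
      * (W τ / e τ)) atImInfty
      (𝓝 (c / Complex.exp (2 * Real.pi * Complex.I * V * m / (N * n)) * a)) :=
    tendsto_const_nhds.mul hat
  have h4 : ((fun τ => W τ / e τ) ∘ fun τ : ℍ => (m : ℝ) +ᵥ τ) =
      fun τ => c / Complex.exp (2 * Real.pi * Complex.I * V * m / (N * n)) * (W τ / e τ) := by
    funext τ
    simp only [Function.comp_apply, hc]
    rw [show e ((m : ℝ) +ᵥ τ) = Complex.exp (2 * Real.pi * Complex.I * V * m / (N * n)) * e τ from by
      simp only [e]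
      rw [← Complex.exp_add, coe_vadd]
      congr 1
      push_cast
      ring]
    field_simp
  rw [h4] at h2
  have h5 := tendsto_nhds_unique h2 h3
  have ha : a ≠ 0 := fun e => hL (by rw [← han, e, zero_pow hn.ne'])
  have h6 : c / Complex.exp (2 * Real.pi * Complex.I * V * m / (N * n)) = 1 :=
    mul_right_cancel₀ ha (by rw [one_mul]; exact h5.symm)
  rwa [div_eq_one_iff_eq (Complex.exp_ne_zero _)] at h6

variable {N : ℕ} [NeZero N]

/-- behaviour of a polynomial in the `j(dτ)` at the cusp `δ ∞` -/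
theorem theta_asymp (δ : SL(2, ℤ)) (P : MvPolynomial N.divisors Qbar)
    (hP : MvPolynomial.aeval (gen N) P ≠ 0) :
    ∃ L : ℂ, L ≠ 0 ∧ Tendsto (fun τ => (thetaH N P : ℍ → ℂ) (δ • τ) /
      qN N ((Genus.cuspChart N).ordP (QuotientGroup.mk δ⁻¹) P) τ) atImInfty (𝓝 L) := by
  set i : CosetSpace N := QuotientGroup.mk δ⁻¹
  set C := Genus.cuspChart N
  set F : ℂ → ℂ := fun q => MvPolynomial.aeval (fun d => C.f i d q) P with hF
  have hFm : MeromorphicAt F C.pt := Genus.meromorphicAt_aeval (C.mero i) P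
  have hne : meromorphicOrderAt F C.pt ≠ ⊤ := by
    intro h
    refine (map_ne_zero (C.sigma i)).mpr hP ?_
    rw [C.sigma_aeval]
    exact (Genus.germOf_eq_zero_iff _).mpr h
  obtain ⟨g, hg, hg0, hge⟩ := (meromorphicOrderAt_eq_int_iff hFm).mp
    (WithTop.coe_untop₀_of_ne_top hne).symm
  refine ⟨g C.pt, hg0, ?_⟩
  have hq : Tendsto (fun τ : ℍ => Function.Periodic.qParam N (τ : ℂ)) atImInfty (𝓝 0) :=
    qParam_tendsto_atImInfty (by exact_mod_cast Nat.pos_of_ne_zero (NeZero.ne N))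
  refine (hg.continuousAt.tendsto.comp hq).congr' ?_
  filter_upwards [eventually_all.mpr fun d : N.divisors => (Genus.cuspFun_spec d i).2,
    Genus.eventually_atImInfty_of_punctured (N := N) hge] with τ hτ hτ'
  have e : (thetaH N P : ℍ → ℂ) (δ • τ) = F (Function.Periodic.qParam N (τ : ℂ)) := by
    rw [thetaH, coe_aeval_jdH N P (δ • τ), hF]
    congr 1
    refine congrArg MvPolynomial.aeval (funext fun d => ?_)
    show _ = Genus.cuspFun d i (Function.Periodic.qParam N (τ : ℂ))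
    rw [← hτ d, Genus.conjJ_congr (g := i.out) (g' := δ⁻¹) (Nat.dvd_of_mem_divisors d.2)
      (QuotientGroup.out_eq' _) τ, Genus.conjJ, Genus.conjJ, inv_inv, inv_one, one_smul]
  rw [Function.comp_apply, e, hτ', smul_eq_mul, qN_eq_zpow]
  have h0 : Function.Periodic.qParam N (τ : ℂ) ≠ 0 := Complex.exp_ne_zero _
  show g _ = (_ - (0 : ℂ)) ^ _ * _ / _
  rw [sub_zero]
  show g _ = _ ^ (meromorphicOrderAt F C.pt).untop₀ * _ / _
  rw [mul_div_assoc, mul_div_left_comm]
  show _ = g _ * (_ / Function.Periodic.qParam N (τ : ℂ) ^ (meromorphicOrderAt F C.pt).untop₀)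
  rw [div_self (zpow_ne_zero _ h0), mul_one]

end FLTAgent.JTors
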